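import Fermat.Agent.H03.ClassSum

/-!
# The Dedekind zeta function as a sum over ideals; comparison with the lattice sum.
-/

set_option autoImplicit false
set_option maxHeartbeats 400000

open scoped Classical nonZeroDivisors Topology

namespace Fermat.Agent.H03

open NumberField NumberField.Units Module Filter

variable (K : Type*) [Field K] [NumberField K]

/-- the lattice sum -/
noncomputable def ZL (s : ℝ) : ℝ := ∑' x : 𝓞 K, fs K s x

theorem ZL_nonneg (s : ℝ) : 0 ≤ ZL K s := tsum_nonneg fun x => fs_nonneg K s x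

/-- zeta function -/
noncomputable def zK (s : ℝ) : ℝ := ∑' I : Ideal (𝓞 K), nrm K s I

/-- the indicator of being divisible by `J` -/
noncomputable def ind (J : Ideal (𝓞 K)) (I : Ideal (𝓞 K)) : ℂ := if J ∣ I then 1 else 0

theorem norm_ind_le (J I : Ideal (𝓞 K)) : ‖ind K J I‖ ≤ 1 := by
  unfold ind; split_ifs <;> simp

/-- zeta as a sum over classes of lattice sums -/
theorem hasSum_nrm {s : ℝ} (hs : 1 < s) (hs2 : s ≤ 2) :
    HasSum (fun I : Ideal (𝓞 K) => (nrm K s I : ℂ))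
      (∑ C : ClassGroup (𝓞 K), ((torsionOrder K * nrm K s (cRep (⊤ : Ideal (𝓞 K)) top_ne_bot C) : ℝ) : ℂ)⁻¹ *
        ∑' x : 𝓞 K, ind K (cRep (⊤ : Ideal (𝓞 K)) top_ne_bot C) (Ideal.span {x}) * (fs K s x : ℂ)) := by
  have h1 : ∀ C : ClassGroup (𝓞 K), _ := fun C =>
    hasSum_class K (cRep_ne_bot (⊤ : Ideal (𝓞 K)) top_ne_bot C)
      (F := ind K (cRep (⊤ : Ideal (𝓞 K)) top_ne_bot C)) (norm_ind_le K _)
      (fun I hI => by rw [ind, if_neg hI]) hs hs2
  have h2 := hasSum_sum (s := Finset.univ) fun C _ => h1 C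
  refine h2.congr_fun fun 𝔞 => ?_
  have h3 := sum_class (K := K) ⊤ top_ne_bot (T := fun I => (nrm K s I : ℂ))
    (by rw [nrm_bot K (by linarith)]; simp) 𝔞
  refine h3.symm.trans (Finset.sum_congr rfl fun C _ => ?_)
  have h4 : ind K (cRep (⊤ : Ideal (𝓞 K)) top_ne_bot C) (𝔞 * cRep (⊤ : Ideal (𝓞 K)) top_ne_bot C) = 1 := by
    unfold ind; exact if_pos (Dvd.intro_left _ rfl)
  rw [h4, one_mul]

theorem summable_nrm {s : ℝ} (hs : 1 < s) (hs2 : s ≤ 2) : Summable (nrm K s) := by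
  have := (hasSum_nrm K hs hs2).summable
  exact_mod_cast this

theorem zK_nonneg (s : ℝ) : 0 ≤ zK K s := tsum_nonneg fun I => nrm_nonneg K s I

/-- `ζ_K ≤ C * Z` -/
theorem exists_zK_le : ∃ C : ℝ, 0 ≤ C ∧ ∀ s : ℝ, 1 < s → s ≤ 2 → zK K s ≤ C * ZL K s := by
  have hw : (0 : ℝ) < torsionOrder K := by exact_mod_cast torsionOrder_pos K
  set B : ClassGroup (𝓞 K) → ℝ := fun C =>
    (torsionOrder K : ℝ)⁻¹ * (Ideal.absNorm (cRep (⊤ : Ideal (𝓞 K)) top_ne_bot C) : ℝ) ^ (2 : ℝ) with hB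
  refine ⟨∑ C, B C, Finset.sum_nonneg fun C _ => by positivity, fun s hs hs2 => ?_⟩
  have h1 := (hasSum_nrm K hs hs2).tsum_eq
  have h2 : ((zK K s : ℝ) : ℂ) = ∑' I : Ideal (𝓞 K), (nrm K s I : ℂ) := by
    rw [zK, Complex.ofReal_tsum]
  rw [h1] at h2
  have h3 : zK K s = ‖((zK K s : ℝ) : ℂ)‖ := by
    rw [Complex.norm_real, Real.norm_of_nonneg (zK_nonneg K s)]
  rw [h3, h2, Finset.sum_mul]
  refine (norm_sum_le _ _).trans (Finset.sum_le_sum fun C _ => ?_)
  rw [norm_mul]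
  refine mul_le_mul ?_ ?_ (norm_nonneg _) (by positivity)
  · have hb := cRep_ne_bot (⊤ : Ideal (𝓞 K)) top_ne_bot C
    have hN : (1 : ℝ) ≤ Ideal.absNorm (cRep (⊤ : Ideal (𝓞 K)) top_ne_bot C) := by
      exact_mod_cast Nat.one_le_iff_ne_zero.mpr (Ideal.absNorm_eq_zero_iff.not.mpr hb)
    rw [norm_inv, Complex.norm_real, Real.norm_of_nonneg
      (mul_nonneg hw.le (nrm_nonneg K s _)), mul_inv]
    refine mul_le_mul_of_nonneg_left ?_ (by positivity)
    rw [nrm, Real.rpow_neg (by linarith), inv_inv]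
    exact Real.rpow_le_rpow_of_exponent_le hN hs2
  · have h4 := norm_tsum_le_tsum_norm (f := fun x : 𝓞 K =>
      ind K (cRep (⊤ : Ideal (𝓞 K)) top_ne_bot C) (Ideal.span {x}) * (fs K s x : ℂ))
      (summable_F_mul_fs K (norm_ind_le K _) hs hs2).norm
    refine h4.trans ?_
    exact (summable_F_mul_fs K (norm_ind_le K _) hs hs2).norm.tsum_le_tsum
      (norm_F_mul_fs_le K (norm_ind_le K _) s) (summable_fs K hs hs2)

/-- `Z ≤ w ζ_K` -/
theorem ZL_le {s : ℝ} (hs : 1 < s) (hs2 : s ≤ 2) : ZL K s ≤ torsionOrder K * zK K s := by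
  have h1 := hasSum_principal K (F := fun _ => 1) (fun _ => by simp) hs hs2
  simp only [one_mul] at h1
  have h2 : HasSum (fun I : Ideal (𝓞 K) =>
      (if I.IsPrincipal then (torsionOrder K * (Ideal.absNorm I : ℝ) ^ (-s)) else 0 : ℝ)) (ZL K s) := by
    rw [← Complex.hasSum_ofReal, ZL, Complex.ofReal_tsum]
    exact h1
  rw [zK, ← tsum_mul_left]
  refine hasSum_le (fun I => ?_) h2 ((summable_nrm K hs hs2).mul_left _).hasSum
  have : 0 ≤ (torsionOrder K : ℝ) * nrm K s I := by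
    have := nrm_nonneg K s I
    positivity
  split_ifs
  · rfl
  · exact this

/-- comparison with Mathlib's Dedekind zeta function. -/
theorem zK_eq {s : ℝ} (hs : 1 < s) (hs2 : s ≤ 2) : ((zK K s : ℝ) : ℂ) = dedekindZeta K s := by
  have h1 : HasSum (fun I : Ideal (𝓞 K) => (nrm K s I : ℂ)) (zK K s : ℝ) :=
    Complex.hasSum_ofReal.mpr (summable_nrm K hs hs2).hasSum
  rw [← (Equiv.sigmaFiberEquiv (fun I : Ideal (𝓞 K) => Ideal.absNorm I)).hasSum_iff] at h1
  have h2 : ∀ n : ℕ, HasSum (fun I : {I : Ideal (𝓞 K) // Ideal.absNorm I = n} => (nrm K s I.1 : ℂ))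
      (LSeries.term (fun n ↦ (Nat.card {I : Ideal (𝓞 K) // Ideal.absNorm I = n} : ℂ)) s n) := by
    intro n
    rcases Nat.eq_zero_or_pos n with rfl | hn
    · rw [LSeries.term_zero]
      have : ∀ I : {I : Ideal (𝓞 K) // Ideal.absNorm I = 0}, (nrm K s I.1 : ℂ) = 0 := by
        rintro ⟨I, hI⟩
        rw [nrm, hI, Nat.cast_zero, Real.zero_rpow (by linarith)]
        simp
      rw [show (fun I : {I : Ideal (𝓞 K) // Ideal.absNorm I = 0} => (nrm K s I.1 : ℂ)) =
        fun _ => 0 from funext this]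
      exact hasSum_zero
    · haveI : Finite {I : Ideal (𝓞 K) // Ideal.absNorm I = n} :=
        (Ideal.finite_setOf_absNorm_eq n)
      haveI := Fintype.ofFinite {I : Ideal (𝓞 K) // Ideal.absNorm I = n}
      have h3 : ∀ I : {I : Ideal (𝓞 K) // Ideal.absNorm I = n},
          (nrm K s I.1 : ℂ) = (n : ℂ) ^ (-(s : ℂ)) := by
        rintro ⟨I, hI⟩
        rw [nrm, hI, Complex.ofReal_cpow (Nat.cast_nonneg _)]
        simp
      rw [show (fun I : {I : Ideal (𝓞 K) // Ideal.absNorm I = n} => (nrm K s I.1 : ℂ)) =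
        fun _ => (n : ℂ) ^ (-(s : ℂ)) from funext h3]
      have h4 := hasSum_fintype (fun _ : {I : Ideal (𝓞 K) // Ideal.absNorm I = n} =>
        (n : ℂ) ^ (-(s : ℂ)))
      convert h4 using 1
      rw [LSeries.term_of_ne_zero hn.ne', Finset.sum_const, Finset.card_univ, nsmul_eq_mul,
        Nat.card_eq_fintype_card, Complex.cpow_neg]
      rfl
  have h5 : HasSum (LSeries.term (fun n ↦ (Nat.card {I : Ideal (𝓞 K) // Ideal.absNorm I = n} : ℂ)) s)
      ((zK K s : ℝ) : ℂ) := by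
    refine h1.sigma fun n => ?_
    refine (h2 n).congr_fun ?_
    rintro ⟨I, hI⟩
    rfl
  rw [← h5.tsum_eq]
  rfl

theorem tendsto_zK : Tendsto (fun s : ℝ => (s - 1) * zK K s) (𝓝[>] 1) (𝓝 (dedekindZeta_residue K)) := by
  have h := tendsto_sub_one_mul_dedekindZeta_nhdsGT K
  have h1 : Tendsto (fun s : ℝ => (((s - 1) * zK K s : ℝ) : ℂ)) (𝓝[>] 1)
      (𝓝 ((dedekindZeta_residue K : ℝ) : ℂ)) := by
    refine h.congr' ?_
    have : Set.Ioc (1 : ℝ) 2 ∈ 𝓝[>] (1 : ℝ) := Ioc_mem_nhdsGT (by norm_num)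
    filter_upwards [this] with s hs
    rw [← zK_eq K hs.1 hs.2]
    push_cast
    ring
  have h2 := (Complex.continuous_re.tendsto _).comp h1
  simpa only [Function.comp_def, Complex.ofReal_re] using h2

/-- `(s-1) ζ_K(s)` is bounded above near 1 -/
theorem exists_zK_upper : ∃ C : ℝ, 0 < C ∧ ∀ᶠ s in 𝓝[>] (1 : ℝ), zK K s ≤ C / (s - 1) := by
  have h := tendsto_zK K
  have hpos := dedekindZeta_residue_pos K
  refine ⟨2 * dedekindZeta_residue K, by positivity, ?_⟩
  have h1 := h.eventually (gt_mem_nhds (show dedekindZeta_residue K < 2 * dedekindZeta_residue K by linarith))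
  filter_upwards [h1, self_mem_nhdsWithin] with s hs hs1
  have : 0 < s - 1 := sub_pos.mpr hs1
  rw [le_div_iff₀ this]
  linarith

theorem exists_zK_lower : ∃ C : ℝ, 0 < C ∧ ∀ᶠ s in 𝓝[>] (1 : ℝ), C / (s - 1) ≤ zK K s := by
  have h := tendsto_zK K
  have hpos := dedekindZeta_residue_pos K
  refine ⟨dedekindZeta_residue K / 2, by positivity, ?_⟩
  have h1 := h.eventually (lt_mem_nhds (show dedekindZeta_residue K / 2 < dedekindZeta_residue K by linarith))
  filter_upwards [h1, self_mem_nhdsWithin] with s hs hs1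
  have : 0 < s - 1 := sub_pos.mpr hs1
  rw [div_le_iff₀ this]
  linarith

theorem eventually_Ioc : ∀ᶠ s in 𝓝[>] (1 : ℝ), 1 < s ∧ s ≤ 2 :=
  Ioc_mem_nhdsGT (by norm_num : (1 : ℝ) < 2)

theorem exists_ZL_upper : ∃ C : ℝ, 0 < C ∧ ∀ᶠ s in 𝓝[>] (1 : ℝ), ZL K s ≤ C / (s - 1) := by
  obtain ⟨C, hC, h⟩ := exists_zK_upper K
  have hw : (0 : ℝ) < torsionOrder K := by exact_mod_cast torsionOrder_pos K
  refine ⟨torsionOrder K * C, by positivity, ?_⟩
  filter_upwards [h, eventually_Ioc] with s hs hs1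
  refine (ZL_le K hs1.1 hs1.2).trans ?_
  rw [mul_div_assoc]
  exact mul_le_mul_of_nonneg_left hs hw.le

theorem tendsto_ZL_atTop : Tendsto (ZL K) (𝓝[>] 1) atTop := by
  obtain ⟨C, hC, h⟩ := exists_zK_lower K
  obtain ⟨B, hB, h'⟩ := exists_zK_le K
  have h1 : Tendsto (fun s : ℝ => C / (s - 1)) (𝓝[>] 1) atTop := by
    have : Tendsto (fun s : ℝ => s - 1) (𝓝[>] 1) (𝓝[>] 0) := by
      refine tendsto_nhdsWithin_iff.mpr ⟨?_, ?_⟩
      · have : Tendsto (fun s : ℝ => s - 1) (𝓝 1) (𝓝 (1 - 1)) := by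
          exact (continuous_id.sub continuous_const).tendsto 1
        rw [sub_self] at this
        exact this.mono_left nhdsWithin_le_nhds
      · filter_upwards [self_mem_nhdsWithin] with s hs
        exact sub_pos.mpr (Set.mem_Ioi.mp hs)
    exact (tendsto_inv_nhdsGT_zero.comp this).const_mul_atTop hC
  have h2 : Tendsto (zK K) (𝓝[>] 1) atTop := tendsto_atTop_mono' _ h h1
  have h3 : Tendsto (fun s => (B + 1) * ZL K s) (𝓝[>] 1) atTop := by
    refine tendsto_atTop_mono' _ ?_ h2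
    filter_upwards [eventually_Ioc] with s hs
    refine (h' s hs.1 hs.2).trans ?_
    have := ZL_nonneg K s
    nlinarith
  exact (tendsto_const_mul_atTop_of_pos (by linarith)).mp h3

end Fermat.Agent.H03
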