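import Mathlib
import Fermat.Agent.H03.ZK

/-!
# Boundedness of `L(s,ψ)` near `s = 1` for a nontrivial ray class character.
-/

set_option autoImplicit false
set_option maxHeartbeats 400000

open scoped Classical nonZeroDivisors Topology

namespace Fermat.Agent.H03

open NumberField NumberField.Units Module Filter

variable {K : Type*} [Field K] [NumberField K]

/-- A (finite order, no infinity type) character of the ray class group modulo `𝔪`. -/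
structure HChar (𝔪 : Ideal (𝓞 K)) where
  ψ : Ideal (𝓞 K) →*₀ ℂ
  supp : ∀ I, ¬ IsCoprime I 𝔪 → ψ I = 0
  norm_one : ∀ I, I ≠ ⊥ → IsCoprime I 𝔪 → ‖ψ I‖ = 1
  triv : ∀ x : 𝓞 K, x ≠ 0 → x - 1 ∈ 𝔪 → ψ (Ideal.span {x}) = 1

namespace HChar

variable {𝔪 : Ideal (𝓞 K)} (χ : HChar 𝔪)

theorem norm_le (I : Ideal (𝓞 K)) : ‖χ.ψ I‖ ≤ 1 := by
  by_cases h : IsCoprime I 𝔪
  · by_cases h0 : I = ⊥
    · subst h0
      rw [show (⊥ : Ideal (𝓞 K)) = 0 from rfl, map_zero, norm_zero]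
      exact zero_le_one
    · exact (χ.norm_one I h0 h).le
  · rw [χ.supp I h, norm_zero]; exact zero_le_one

theorem ne_zero {I : Ideal (𝓞 K)} (h0 : I ≠ ⊥) (h : IsCoprime I 𝔪) : χ.ψ I ≠ 0 := by
  rw [← norm_ne_zero_iff, χ.norm_one I h0 h]
  exact one_ne_zero

theorem isCoprime_span_iff {x : 𝓞 K} :
    IsCoprime (Ideal.span {x}) 𝔪 ↔ ∃ z : 𝓞 K, x * z - 1 ∈ 𝔪 := by
  rw [Ideal.isCoprime_iff_sup_eq, Ideal.eq_top_iff_one, Submodule.mem_sup]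
  constructor
  · rintro ⟨a, ha, b, hb, hab⟩
    rw [Ideal.mem_span_singleton'] at ha
    obtain ⟨z, rfl⟩ := ha
    refine ⟨z, ?_⟩
    have : x * z - 1 = -b := by rw [← hab]; ring
    rw [this]
    exact 𝔪.neg_mem hb
  · rintro ⟨z, hz⟩
    refine ⟨x * z, Ideal.mem_span_singleton'.mpr ⟨z, mul_comm _ _⟩, -(x * z - 1), 𝔪.neg_mem hz, ?_⟩
    ring

/-- `ψ((x))` only depends on `x` modulo `𝔪`. -/
theorem periodic {x y : 𝓞 K} (hx : x ≠ 0) (hy : y ≠ 0) (hxy : x - y ∈ 𝔪) :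
    χ.ψ (Ideal.span {x}) = χ.ψ (Ideal.span {y}) := by
  by_cases h : IsCoprime (Ideal.span {x}) 𝔪
  · obtain ⟨z, hz⟩ := isCoprime_span_iff.mp h
    by_cases hz0 : z = 0
    · have h1 : (1 : 𝓞 K) ∈ 𝔪 := by
        rw [hz0, mul_zero, zero_sub] at hz
        simpa using 𝔪.neg_mem hz
      have h2 : ∀ t : 𝓞 K, t ∈ 𝔪 := fun t => by simpa using 𝔪.mul_mem_left t h1
      rw [χ.triv x hx (h2 _), χ.triv y hy (h2 _)]
    · have hyz : y * z - 1 ∈ 𝔪 := by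
        have : y * z - 1 = (x * z - 1) - (x - y) * z := by ring
        rw [this]
        exact 𝔪.sub_mem hz (𝔪.mul_mem_right _ hxy)
      have e1 := χ.triv (x * z) (mul_ne_zero hx hz0) hz
      have e2 := χ.triv (y * z) (mul_ne_zero hy hz0) hyz
      rw [← Ideal.span_singleton_mul_span_singleton, map_mul] at e1 e2
      have h3 : χ.ψ (Ideal.span {z}) ≠ 0 := by
        intro h0
        rw [h0, mul_zero] at e1
        exact one_ne_zero e1.symm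
      exact mul_right_cancel₀ h3 (e1.trans e2.symm)
  · have h' : ¬ IsCoprime (Ideal.span {y}) 𝔪 := by
      intro hc
      obtain ⟨z, hz⟩ := isCoprime_span_iff.mp hc
      refine h (isCoprime_span_iff.mpr ⟨z, ?_⟩)
      have : x * z - 1 = (y * z - 1) + (x - y) * z := by ring
      rw [this]
      exact 𝔪.add_mem hz (𝔪.mul_mem_right _ hxy)
    rw [χ.supp _ h, χ.supp _ h']

end HChar

theorem exists_nonzero_lift (𝔪 : Ideal (𝓞 K)) (h𝔪 : 𝔪 ≠ ⊥) (q : 𝓞 K ⧸ 𝔪) :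
    ∃ x : 𝓞 K, x ≠ 0 ∧ Ideal.Quotient.mk 𝔪 x = q := by
  obtain ⟨x, rfl⟩ := Ideal.Quotient.mk_surjective q
  by_cases hx : x = 0
  · obtain ⟨b, hb, hb0⟩ := Submodule.exists_mem_ne_zero_of_ne_bot h𝔪
    exact ⟨b, hb0, by rw [hx, map_zero, Ideal.Quotient.eq_zero_iff_mem.mpr hb]⟩
  · exact ⟨x, hx, rfl⟩

namespace HChar

variable {𝔪 : Ideal (𝓞 K)} (χ : HChar 𝔪) (h𝔪 : 𝔪 ≠ ⊥)

/-- the function on residues -/
noncomputable def g (q : 𝓞 K ⧸ 𝔪) : ℂ :=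
  χ.ψ (Ideal.span {(exists_nonzero_lift 𝔪 h𝔪 q).choose})

theorem g_mk {x : 𝓞 K} (hx : x ≠ 0) : χ.g h𝔪 (Ideal.Quotient.mk 𝔪 x) = χ.ψ (Ideal.span {x}) := by
  have h := (exists_nonzero_lift 𝔪 h𝔪 (Ideal.Quotient.mk 𝔪 x)).choose_spec
  refine χ.periodic h.1 hx ?_
  rw [← Ideal.Quotient.eq]
  exact h.2

/-- `ψ` restricted to multiples of `J` -/
noncomputable def F (J : Ideal (𝓞 K)) (I : Ideal (𝓞 K)) : ℂ := if J ∣ I then χ.ψ I else 0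

theorem norm_F_le (J I : Ideal (𝓞 K)) : ‖χ.F J I‖ ≤ 1 := by
  unfold F; split_ifs
  · exact χ.norm_le I
  · simp

/-- the sum of `ψ` over the multiples of `J` -/
noncomputable def L (J : Ideal (𝓞 K)) (s : ℝ) : ℂ := ∑' I : Ideal (𝓞 K), χ.F J I * (nrm K s I : ℂ)

theorem summable_L (J : Ideal (𝓞 K)) {s : ℝ} (hs : 1 < s) (hs2 : s ≤ 2) :
    Summable fun I : Ideal (𝓞 K) => χ.F J I * (nrm K s I : ℂ) := by
  refine Summable.of_norm_bounded (summable_nrm K hs hs2) fun I => ?_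
  rw [norm_mul, Complex.norm_real, Real.norm_of_nonneg (nrm_nonneg K s I)]
  exact mul_le_of_le_one_left (nrm_nonneg K s I) (χ.norm_F_le J I)

theorem hasSum_L (J : Ideal (𝓞 K)) {s : ℝ} (hs : 1 < s) (hs2 : s ≤ 2) :
    χ.L J s = ∑ C : ClassGroup (𝓞 K),
      (((torsionOrder K * nrm K s (cRep 𝔪 h𝔪 C) : ℝ) : ℂ) * χ.ψ (cRep 𝔪 h𝔪 C))⁻¹ *
        ∑' x : 𝓞 K, χ.F (J * cRep 𝔪 h𝔪 C) (Ideal.span {x}) * (fs K s x : ℂ) := by
  have h1 : ∀ C : ClassGroup (𝓞 K), _ := fun C =>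
    hasSum_class K (cRep_ne_bot 𝔪 h𝔪 C)
      (F := χ.F (J * cRep 𝔪 h𝔪 C)) (χ.norm_F_le _)
      (fun I hI => by
        rw [F, if_neg]
        exact fun h => hI ((Dvd.intro_left _ rfl).trans h)) hs hs2
  have h2 := hasSum_sum (s := Finset.univ) fun C _ => (h1 C).mul_left (χ.ψ (cRep 𝔪 h𝔪 C))⁻¹
  have h3 : HasSum (fun 𝔞 : Ideal (𝓞 K) => χ.F J 𝔞 * (nrm K s 𝔞 : ℂ)) (χ.L J s) :=
    (χ.summable_L J hs hs2).hasSum
  have h4 : (fun 𝔞 : Ideal (𝓞 K) => χ.F J 𝔞 * (nrm K s 𝔞 : ℂ)) = fun 𝔞 =>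
      ∑ C : ClassGroup (𝓞 K), (χ.ψ (cRep 𝔪 h𝔪 C))⁻¹ *
        (if (𝔞 * cRep 𝔪 h𝔪 C).IsPrincipal then
          χ.F (J * cRep 𝔪 h𝔪 C) (𝔞 * cRep 𝔪 h𝔪 C) * (nrm K s 𝔞 : ℂ) else 0) := by
    funext 𝔞
    have h5 := sum_class (K := K) 𝔪 h𝔪 (T := fun I => χ.F J I * (nrm K s I : ℂ))
      (by rw [nrm_bot K (by linarith)]; simp) 𝔞
    refine h5.symm.trans (Finset.sum_congr rfl fun C _ => ?_)
    rw [mul_ite, mul_zero]
    refine if_congr Iff.rfl ?_ rfl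
    have hb0 := cRep_ne_bot 𝔪 h𝔪 C
    have hψ := χ.ne_zero hb0 (cRep_coprime 𝔪 h𝔪 C)
    have e : χ.F (J * cRep 𝔪 h𝔪 C) (𝔞 * cRep 𝔪 h𝔪 C) = χ.F J 𝔞 * χ.ψ (cRep 𝔪 h𝔪 C) := by
      unfold F
      rw [mul_dvd_mul_iff_right hb0]
      split_ifs
      · rw [map_mul]
      · rw [zero_mul]
    rw [e]
    field_simp
  rw [h4] at h3
  rw [h3.unique h2]
  refine Finset.sum_congr rfl fun C _ => ?_
  rw [← mul_assoc, mul_inv]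
  ring

/-- total mass -/
noncomputable def G [Fintype (𝓞 K ⧸ 𝔪)] : ℂ := ∑ q : 𝓞 K ⧸ 𝔪, χ.g h𝔪 q

theorem exists_F_sum [Fintype (𝓞 K ⧸ 𝔪)] (J : Ideal (𝓞 K)) (hJ : J ≠ ⊥) (hJc : IsCoprime J 𝔪) :
    ∃ C : ℝ, 0 ≤ C ∧ ∀ s : ℝ, 1 < s → s ≤ 2 →
      ‖∑' x : 𝓞 K, χ.F J (Ideal.span {x}) * (fs K s x : ℂ) -
        χ.G h𝔪 / ((Ideal.absNorm J : ℂ) * Ideal.absNorm 𝔪) * ((ZL K s : ℝ) : ℂ)‖ ≤ C := by
  have hI : J * 𝔪 ≠ ⊥ := mul_ne_zero hJ h𝔪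
  haveI : Finite (𝓞 K ⧸ J * 𝔪) := Ring.HasFiniteQuotients.finiteQuotient hI
  haveI := Fintype.ofFinite (𝓞 K ⧸ J * 𝔪)
  haveI : Finite (𝓞 K ⧸ J) := Ring.HasFiniteQuotients.finiteQuotient hJ
  haveI := Fintype.ofFinite (𝓞 K ⧸ J)
  set e := Ideal.quotientMulEquivQuotientProd J 𝔪 hJc with he
  set h : (𝓞 K ⧸ J * 𝔪) → ℂ := fun q => if (e q).1 = 0 then χ.g h𝔪 (e q).2 else 0 with hh
  obtain ⟨C, hC, hb⟩ := exists_periodic_bound (J * 𝔪) hI h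
  refine ⟨C, hC, fun s hs hs2 => ?_⟩
  obtain ⟨-, h1⟩ := hb s hs hs2
  have e1 : ∀ x : 𝓞 K, e (Ideal.Quotient.mk (J * 𝔪) x) = (Ideal.Quotient.mk J x, Ideal.Quotient.mk 𝔪 x) := by
    intro x
    rfl
  have e2 : ∀ x : 𝓞 K, h (Ideal.Quotient.mk (J * 𝔪) x) * (fs K s x : ℂ) =
      χ.F J (Ideal.span {x}) * (fs K s x : ℂ) := by
    intro x
    by_cases hx : x = 0
    · subst hx
      rw [fs_zero K (by linarith)]
      simp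
    · congr 1
      simp only [hh, e1, F]
      rw [Ideal.Quotient.eq_zero_iff_mem, g_mk _ _ hx, Ideal.dvd_span_singleton]
  have e3 : ∑ q, h q = χ.G h𝔪 := by
    rw [G, ← e.toEquiv.symm.sum_comp, Fintype.sum_prod_type]
    rw [Finset.sum_eq_single 0]
    · refine Finset.sum_congr rfl fun q _ => ?_
      simp [hh]
    · intro a _ ha
      refine Finset.sum_eq_zero fun q _ => ?_
      simp [hh, ha]
    · intro h; exact absurd (Finset.mem_univ _) h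
  rw [e3, tsum_congr e2, map_mul, Nat.cast_mul] at h1
  exact h1

end HChar

variable (K) in
/-- `(N^{s-1} - 1) Z(s)` is bounded near 1. -/
theorem exists_rpow_sub_one_mul_ZL {N : ℝ} (hN : 1 ≤ N) :
    ∃ C : ℝ, 0 ≤ C ∧ ∀ᶠ s in 𝓝[>] (1 : ℝ), |N ^ (s - 1) - 1| * ZL K s ≤ C := by
  obtain ⟨B, hB, h⟩ := exists_ZL_upper K
  have hlog : 0 ≤ Real.log N := Real.log_nonneg hN
  refine ⟨Real.log N * Real.exp (Real.log N) * B, by positivity, ?_⟩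
  filter_upwards [h, eventually_Ioc] with s hs hs1
  have h0 : 0 < s - 1 := sub_pos.mpr hs1.1
  have h1 : |N ^ (s - 1) - 1| ≤ (s - 1) * (Real.log N * Real.exp (Real.log N)) := by
    rw [Real.rpow_def_of_pos (by linarith)]
    refine (abs_exp_sub_one_le' _).trans ?_
    have h2 : |Real.log N * (s - 1)| = Real.log N * (s - 1) := abs_of_nonneg (by positivity)
    rw [h2]
    have h3 : Real.exp (Real.log N * (s - 1)) ≤ Real.exp (Real.log N) := by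
      apply Real.exp_le_exp.mpr
      nlinarith [hs1.2]
    have h4 := mul_le_mul_of_nonneg_left h3 (by positivity : 0 ≤ Real.log N * (s - 1))
    linarith
  calc |N ^ (s - 1) - 1| * ZL K s ≤ ((s - 1) * (Real.log N * Real.exp (Real.log N))) * (B / (s - 1)) :=
        mul_le_mul h1 hs (ZL_nonneg K s) (by positivity)
    _ = Real.log N * Real.exp (Real.log N) * B := by field_simp

namespace HChar

variable {𝔪 : Ideal (𝓞 K)} (χ : HChar 𝔪) (h𝔪 : 𝔪 ≠ ⊥)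

/-- the constant -/
noncomputable def kap [Fintype (𝓞 K ⧸ 𝔪)] : ℂ :=
  ∑ C : ClassGroup (𝓞 K), ((torsionOrder K : ℂ) * χ.ψ (cRep 𝔪 h𝔪 C))⁻¹ *
    (χ.G h𝔪 / (Ideal.absNorm 𝔪 : ℂ))

theorem exists_L_asymp [Fintype (𝓞 K ⧸ 𝔪)] (J : Ideal (𝓞 K)) (hJ : J ≠ ⊥) (hJc : IsCoprime J 𝔪) :
    ∃ C : ℝ, 0 ≤ C ∧ ∀ᶠ s in 𝓝[>] (1 : ℝ),
      ‖χ.L J s - χ.kap h𝔪 / (Ideal.absNorm J : ℂ) * ((ZL K s : ℝ) : ℂ)‖ ≤ C := by
  choose B hB hBs using fun C : ClassGroup (𝓞 K) =>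
    χ.exists_F_sum h𝔪 (J * cRep 𝔪 h𝔪 C) (mul_ne_zero hJ (cRep_ne_bot 𝔪 h𝔪 C))
      (IsCoprime.mul_left hJc (cRep_coprime 𝔪 h𝔪 C))
  have hN1 : ∀ C : ClassGroup (𝓞 K), (1 : ℝ) ≤ Ideal.absNorm (cRep 𝔪 h𝔪 C) := fun C => by
    exact_mod_cast Nat.one_le_iff_ne_zero.mpr
      (Ideal.absNorm_eq_zero_iff.not.mpr (cRep_ne_bot 𝔪 h𝔪 C))
  choose D hD hDs using fun C : ClassGroup (𝓞 K) => exists_rpow_sub_one_mul_ZL K (hN1 C)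
  set g0 : ℂ := χ.G h𝔪 / ((Ideal.absNorm J : ℂ) * Ideal.absNorm 𝔪) with hg0
  refine ⟨∑ C, (torsionOrder K : ℝ)⁻¹ *
    ((Ideal.absNorm (cRep 𝔪 h𝔪 C) : ℝ) ^ (2 : ℝ) * B C + ‖g0‖ * D C), ?_, ?_⟩
  · exact Finset.sum_nonneg fun C _ => mul_nonneg (by positivity)
      (add_nonneg (mul_nonneg (by positivity) (hB C)) (mul_nonneg (norm_nonneg _) (hD C)))
  have hall : ∀ᶠ s in 𝓝[>] (1 : ℝ), ∀ C : ClassGroup (𝓞 K),
      |(Ideal.absNorm (cRep 𝔪 h𝔪 C) : ℝ) ^ (s - 1) - 1| * ZL K s ≤ D C :=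
    eventually_all.mpr hDs
  filter_upwards [hall, eventually_Ioc] with s hs hs1
  rw [χ.hasSum_L h𝔪 J hs1.1 hs1.2, kap, Finset.sum_div, Finset.sum_mul, ← Finset.sum_sub_distrib]
  refine (norm_sum_le _ _).trans (Finset.sum_le_sum fun C _ => ?_)
  set N : ℝ := ((Ideal.absNorm (cRep 𝔪 h𝔪 C) : ℕ) : ℝ) with hN
  have hNpos : 0 < N := lt_of_lt_of_le one_pos (hN1 C)
  have hw0 : (0 : ℝ) < torsionOrder K := by exact_mod_cast torsionOrder_pos K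
  have hw : (torsionOrder K : ℂ) ≠ 0 := by exact_mod_cast (torsionOrder_pos K).ne'
  have hψ := χ.ne_zero (cRep_ne_bot 𝔪 h𝔪 C) (cRep_coprime 𝔪 h𝔪 C)
  have hψ1 := χ.norm_one _ (cRep_ne_bot 𝔪 h𝔪 C) (cRep_coprime 𝔪 h𝔪 C)
  set S : ℂ := ∑' x : 𝓞 K, χ.F (J * cRep 𝔪 h𝔪 C) (Ideal.span {x}) * (fs K s x : ℂ) with hS
  have hS1 : ‖S - χ.G h𝔪 / ((Ideal.absNorm (J * cRep 𝔪 h𝔪 C) : ℂ) * Ideal.absNorm 𝔪) *
      ((ZL K s : ℝ) : ℂ)‖ ≤ B C := hBs C s hs1.1 hs1.2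
  have hnrm : nrm K s (cRep 𝔪 h𝔪 C) = (N ^ s)⁻¹ := by rw [nrm, ← hN, Real.rpow_neg hNpos.le]
  have hNs : N ^ s = N * N ^ (s - 1) := by
    rw [show s = 1 + (s - 1) by ring, Real.rpow_add hNpos, Real.rpow_one]
    congr 2
    ring
  have key : (((torsionOrder K * nrm K s (cRep 𝔪 h𝔪 C) : ℝ) : ℂ) * χ.ψ (cRep 𝔪 h𝔪 C))⁻¹ * S -
      ((torsionOrder K : ℂ) * χ.ψ (cRep 𝔪 h𝔪 C))⁻¹ * (χ.G h𝔪 / (Ideal.absNorm 𝔪 : ℂ)) /
        (Ideal.absNorm J : ℂ) * ((ZL K s : ℝ) : ℂ) =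
      ((torsionOrder K : ℂ) * χ.ψ (cRep 𝔪 h𝔪 C))⁻¹ *
        (((N ^ s : ℝ) : ℂ) * (S - χ.G h𝔪 / ((Ideal.absNorm (J * cRep 𝔪 h𝔪 C) : ℂ) *
          Ideal.absNorm 𝔪) * ((ZL K s : ℝ) : ℂ)) +
          g0 * (((N ^ (s - 1) - 1) * ZL K s : ℝ) : ℂ)) := by
    have hJ0 : (Ideal.absNorm J : ℂ) ≠ 0 := by
      exact_mod_cast Ideal.absNorm_eq_zero_iff.not.mpr hJ
    have hm0 : (Ideal.absNorm 𝔪 : ℂ) ≠ 0 := by
      exact_mod_cast Ideal.absNorm_eq_zero_iff.not.mpr h𝔪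
    have hNC : ((Ideal.absNorm (cRep 𝔪 h𝔪 C) : ℕ) : ℂ) = ((N : ℝ) : ℂ) := by rw [hN]; simp
    have hN0 : ((N : ℝ) : ℂ) ≠ 0 := by exact_mod_cast hNpos.ne'
    have hNs0 : ((N ^ (s - 1) : ℝ) : ℂ) ≠ 0 := by
      exact_mod_cast (Real.rpow_pos_of_pos hNpos _).ne'
    rw [hnrm, hg0, map_mul, Nat.cast_mul, hNC, hNs]
    push_cast
    set t : ℂ := ((N : ℝ) : ℂ) ^ ((s : ℂ) - 1) with ht
    have ht0 : t ≠ 0 := by
      rw [ht, show ((s : ℂ) - 1) = ((s - 1 : ℝ) : ℂ) by push_cast; ring,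
        ← Complex.ofReal_cpow hNpos.le]
      exact hNs0
    field_simp
    ring
  rw [key, norm_mul, norm_inv, norm_mul, hψ1, mul_one, Complex.norm_natCast]
  refine mul_le_mul_of_nonneg_left ?_ (by positivity)
  refine (norm_add_le _ _).trans (add_le_add ?_ ?_)
  · rw [norm_mul, Complex.norm_real, Real.norm_of_nonneg (by positivity)]
    refine mul_le_mul ?_ hS1 (norm_nonneg _) (by positivity)
    exact Real.rpow_le_rpow_of_exponent_le (hN1 C) hs1.2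
  · rw [norm_mul, Complex.norm_real, Real.norm_eq_abs, abs_mul, abs_of_nonneg (ZL_nonneg K s)]
    exact mul_le_mul_of_nonneg_left (hs C) (norm_nonneg _)


theorem F_top (I : Ideal (𝓞 K)) : χ.F ⊤ I = χ.ψ I := by
  unfold F
  rw [if_pos]
  rw [Ideal.dvd_iff_le]
  exact le_top

theorem L_eq (J : Ideal (𝓞 K)) (hJ : J ≠ ⊥) {s : ℝ} (hs : 1 < s) (hs2 : s ≤ 2) :
    χ.L J s = χ.ψ J * (nrm K s J : ℂ) * χ.L ⊤ s := by
  have h1 : HasSum (fun 𝔞 : Ideal (𝓞 K) => χ.F J 𝔞 * (nrm K s 𝔞 : ℂ)) (χ.L J s) :=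
    (χ.summable_L J hs hs2).hasSum
  have inj : Function.Injective (fun 𝔞 : Ideal (𝓞 K) => J * 𝔞) := fun a b hab =>
    mul_left_cancel₀ hJ hab
  rw [← inj.hasSum_iff] at h1
  swap
  · intro I hI
    rw [F, if_neg, zero_mul]
    rintro ⟨c, rfl⟩
    exact hI ⟨c, rfl⟩
  have h2 : HasSum (fun 𝔞 : Ideal (𝓞 K) => χ.F ⊤ 𝔞 * (nrm K s 𝔞 : ℂ)) (χ.L ⊤ s) :=
    (χ.summable_L ⊤ hs hs2).hasSum
  have h3 := h2.mul_left (χ.ψ J * (nrm K s J : ℂ))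
  refine h1.unique (h3.congr_fun fun 𝔞 => ?_)
  simp only [Function.comp_apply, F_top]
  rw [F, if_pos (Dvd.intro _ rfl), map_mul, nrm_mul]
  push_cast
  ring

theorem kap_eq_zero [Fintype (𝓞 K ⧸ 𝔪)]
    (hχ : ∃ J : Ideal (𝓞 K), J ≠ ⊥ ∧ IsCoprime J 𝔪 ∧ χ.ψ J ≠ 1) : χ.kap h𝔪 = 0 := by
  obtain ⟨J, hJ, hJc, hJ1⟩ := hχ
  by_contra hk
  obtain ⟨C, hC, h1⟩ := χ.exists_L_asymp h𝔪 J hJ hJc
  obtain ⟨C', hC', h2⟩ := χ.exists_L_asymp h𝔪 ⊤ top_ne_bot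
    (Ideal.isCoprime_iff_sup_eq.mpr (by simp))
  set N : ℝ := ((Ideal.absNorm J : ℕ) : ℝ) with hN
  have hN1 : (1 : ℝ) ≤ N := by
    rw [hN]
    exact_mod_cast Nat.one_le_iff_ne_zero.mpr (Ideal.absNorm_eq_zero_iff.not.mpr hJ)
  have hNpos : 0 < N := by linarith
  -- the difference of the two expansions
  have h3 : ∀ᶠ s in 𝓝[>] (1 : ℝ), ‖χ.kap h𝔪 / (N : ℂ) - χ.ψ J * (nrm K s J : ℂ) * χ.kap h𝔪‖ *
      ZL K s ≤ C + C' := by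
    filter_upwards [h1, h2, eventually_Ioc] with s hs hs' hs1
    rw [χ.L_eq J hJ hs1.1 hs1.2] at hs
    have e : (χ.kap h𝔪 / (N : ℂ) - χ.ψ J * (nrm K s J : ℂ) * χ.kap h𝔪) * ((ZL K s : ℝ) : ℂ) =
        χ.ψ J * (nrm K s J : ℂ) * (χ.L ⊤ s - χ.kap h𝔪 / (Ideal.absNorm (⊤ : Ideal (𝓞 K)) : ℂ) *
          ((ZL K s : ℝ) : ℂ)) -
        (χ.ψ J * (nrm K s J : ℂ) * χ.L ⊤ s - χ.kap h𝔪 / (Ideal.absNorm J : ℂ) *
          ((ZL K s : ℝ) : ℂ)) := by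
      rw [Ideal.absNorm_top, hN]
      push_cast
      ring
    have e2 : ‖χ.kap h𝔪 / (N : ℂ) - χ.ψ J * (nrm K s J : ℂ) * χ.kap h𝔪‖ * ZL K s =
        ‖(χ.kap h𝔪 / (N : ℂ) - χ.ψ J * (nrm K s J : ℂ) * χ.kap h𝔪) * ((ZL K s : ℝ) : ℂ)‖ := by
      rw [norm_mul, Complex.norm_real, Real.norm_of_nonneg (ZL_nonneg K s)]
    rw [e2, e]
    refine (norm_sub_le _ _).trans ?_
    rw [add_comm]
    refine add_le_add hs ?_
    rw [norm_mul, norm_mul, χ.norm_one J hJ hJc, one_mul, Complex.norm_real,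
      Real.norm_of_nonneg (nrm_nonneg K s J)]
    have h5 : nrm K s J ≤ 1 := by
      rw [nrm]
      exact Real.rpow_le_one_of_one_le_of_nonpos hN1 (by linarith [hs1.1])
    exact (mul_le_of_le_one_left (norm_nonneg _) h5).trans hs'
  -- the factor has a nonzero limit
  have h4 : Tendsto (fun s : ℝ => ‖χ.kap h𝔪 / (N : ℂ) - χ.ψ J * (nrm K s J : ℂ) * χ.kap h𝔪‖)
      (𝓝[>] 1) (𝓝 ‖χ.kap h𝔪 / (N : ℂ) - χ.ψ J * ((N⁻¹ : ℝ) : ℂ) * χ.kap h𝔪‖) := by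
    refine Tendsto.norm (Tendsto.sub tendsto_const_nhds (Tendsto.mul_const _ (Tendsto.const_mul _ ?_)))
    refine (Complex.continuous_ofReal.tendsto _).comp ?_
    have hc : Continuous (fun s : ℝ => N ^ (-s)) := by
      refine Continuous.rpow continuous_const continuous_neg ?_
      intro s; left; exact hNpos.ne'
    have := hc.tendsto 1
    rw [Real.rpow_neg_one] at this
    exact this.mono_left nhdsWithin_le_nhds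
  have h5 : 0 < ‖χ.kap h𝔪 / (N : ℂ) - χ.ψ J * ((N⁻¹ : ℝ) : ℂ) * χ.kap h𝔪‖ := by
    rw [norm_pos_iff]
    have hN0 : (N : ℂ) ≠ 0 := by exact_mod_cast hNpos.ne'
    have : χ.kap h𝔪 / (N : ℂ) - χ.ψ J * ((N⁻¹ : ℝ) : ℂ) * χ.kap h𝔪 =
        (1 - χ.ψ J) * (χ.kap h𝔪 / (N : ℂ)) := by
      push_cast
      field_simp
    rw [this]
    exact mul_ne_zero (sub_ne_zero.mpr (Ne.symm hJ1)) (div_ne_zero hk hN0)
  have h6 := h4.pos_mul_atTop h5 (tendsto_ZL_atTop K)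
  have h7 := h6.eventually (eventually_gt_atTop (C + C'))
  obtain ⟨s, hs1, hs2⟩ := (h7.and h3).exists
  exact absurd hs2 (not_le.mpr hs1)

/-- **Boundedness** of `L(s, ψ) = ∑ ψ(I) N(I)^{-s}` near `s = 1` for nontrivial `ψ`. -/
theorem exists_L_bound (χ : HChar 𝔪) (h𝔪 : 𝔪 ≠ ⊥)
    (hχ : ∃ J : Ideal (𝓞 K), J ≠ ⊥ ∧ IsCoprime J 𝔪 ∧ χ.ψ J ≠ 1) :
    ∃ C : ℝ, 0 ≤ C ∧ ∀ᶠ s in 𝓝[>] (1 : ℝ), ‖∑' I : Ideal (𝓞 K), χ.ψ I * (nrm K s I : ℂ)‖ ≤ C := by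
  have : Finite (𝓞 K ⧸ 𝔪) := Ring.HasFiniteQuotients.finiteQuotient h𝔪
  have := Fintype.ofFinite (𝓞 K ⧸ 𝔪)
  obtain ⟨C, hC, h1⟩ := χ.exists_L_asymp h𝔪 ⊤ top_ne_bot
    (Ideal.isCoprime_iff_sup_eq.mpr (by simp))
  refine ⟨C, hC, ?_⟩
  filter_upwards [h1] with s hs
  rw [χ.kap_eq_zero h𝔪 hχ, zero_div, zero_mul, sub_zero, L] at hs
  simpa only [F_top] using hs

end HChar

end Fermat.Agent.H03
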