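import Fermat.Agent.H03.DS3D
import Fermat.Agent.H22.CharK

/-!
# Eigenclasses with coefficients in the residue field
-/

set_option autoImplicit false

noncomputable section

namespace Fermat.Agent.DS3

open CongruenceSubgroup Function
open Fermat.Agent.TC Fermat.Agent.H22
open scoped MatrixGroups

variable {N : ℕ} [NeZero N] {B : Type*} [CommRing B]

theorem ev_smul {K : Type*} [CommRing K] [Algebra B K] (t : FreeAlgebra B (Idx N)) (c : K)
    (ψ : HM (GamH N ⊥) K) : ev B K t (c • ψ) = c • ev B K t ψ := by
  unfold ev
  induction t using FreeAlgebra.induction generalizing ψ with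
  | grade0 r =>
    rw [AlgHom.commutes, Module.algebraMap_end_apply, Module.algebraMap_end_apply]
    exact smul_comm r c ψ
  | grade1 i =>
    rw [FreeAlgebra.lift_ι_apply]
    have e : ∀ ψ : HM (GamH N ⊥) K, op N B K i ψ = op N K K i ψ := fun ψ => by
      rcases i with q | g <;> rfl
    rw [e, e, map_smul]
  | mul a b ha hb => rw [map_mul, Module.End.mul_apply, Module.End.mul_apply, hb, ha]
  | add a b ha hb => rw [map_add, LinearMap.add_apply, LinearMap.add_apply, ha, hb, smul_add]

/-- A Hecke polynomial killing the parabolic homomorphisms with coefficients in `B` kills all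
parabolic homomorphisms. -/
theorem ev_eq_zero_of {K : Type*} [CommRing K] [Algebra B K] [Module.IsTorsionFree ℤ K]
    {t : FreeAlgebra B (Idx N)} (h : ∀ ψ : HM (GamH N ⊥) B, Par ψ → ev B B t ψ = 0)
    {ψ : HM (GamH N ⊥) K} (hψ : Par ψ) : ev B K t ψ = 0 := by
  obtain ⟨n, c, φ, h1, -, h2⟩ := exists_dec' hψ
  rw [h2, map_sum]
  refine Finset.sum_eq_zero fun i _ => ?_
  rw [ev_smul]
  have e : ofInt K (φ i) = (Algebra.linearMap B K).toAddMonoidHom.comp (ofInt B (φ i)) :=
    AddMonoidHom.ext fun g => by
      change ((φ i g : ℤ) : K) = algebraMap B K ((φ i g : ℤ) : B)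
      rw [map_intCast]
  rw [e, ev_map, h _ (ofInt_par (h1 i))]
  have : (Algebra.linearMap B K).toAddMonoidHom.comp (0 : HM (GamH N ⊥) B) = 0 :=
    AddMonoidHom.ext fun g => map_zero (algebraMap B K)
  rw [this, smul_zero]

theorem exists_eigenclass_of [Module.IsTorsionFree ℤ B] {k : Type*} [Field k] [Algebra B k]
    (hk : Function.Surjective (algebraMap B k)) {K : Type*} [CommRing K] [Algebra B K]
    [Module.IsTorsionFree ℤ K] (c : Idx N → B) {ψ₀ : HM (GamH N ⊥) K} (hψ₀ : Par ψ₀)
    (hA : ∀ t : FreeAlgebra B (Idx N), ev B K t ψ₀ = 0 →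
      algebraMap B k (FreeAlgebra.lift B c t) = 0) :
    ∃ φ : HM (GamH N ⊥) k, φ ≠ 0 ∧ Par φ ∧ ∀ i, op N k k i φ = algebraMap B k (c i) • φ := by
  have hfd : FiniteDimensional k (HM (GamH N ⊥) k) := finiteDimensional_hom k
  have hfd' : FiniteDimensional k (parS N k k) := inferInstance
  obtain ⟨v, hv0, hv⟩ := exists_common_eigenvector (B := B) hk (opP N k k)
    (fun i j => opP_comm i j) (fun i => algebraMap B k (c i)) fun t ht => by
      let m : Ideal B := RingHom.ker (algebraMap B k)
      -- the range of `t` is contained in `m • ⊤`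
      have h1 : ∀ ψ : HM (GamH N ⊥) B, Par ψ → ∀ g, ev B B t ψ g ∈ m := by
        intro ψ hψ g
        have e1 := ev_map (Algebra.linearMap B k) t ψ
        have hp : Par ((Algebra.linearMap B k).toAddMonoidHom.comp ψ) := fun γ hγ => by
          change algebraMap B k (ψ (Additive.ofMul γ)) = 0
          rw [hψ γ hγ, map_zero]
        have e2 := ev_opP (B := B) t (⟨_, hp⟩ : parS N k k)
        rw [ht] at e2
        rw [← e2] at e1
        exact (DFunLike.congr_fun e1 g).symm
      have hrange : LinearMap.range (FreeAlgebra.lift B (opP N B B) t) ≤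
          m • (⊤ : Submodule B (parS N B B)) := by
        rintro _ ⟨ψ, rfl⟩
        have e1 := ev_opP' (B := B) (A := B) t ψ
        obtain ⟨n, b, φ, h2, h3, h4⟩ := exists_dec' (FreeAlgebra.lift B (opP N B B) t ψ).2
        have h5 : ∀ i, b i ∈ m := by
          intro i
          obtain ⟨g, hg⟩ := h3 i
          rw [← hg, e1]
          exact h1 _ ψ.2 g
        have h6 : FreeAlgebra.lift B (opP N B B) t ψ =
            ∑ i, b i • (⟨ofInt B (φ i), ofInt_par (h2 i)⟩ : parS N B B) := by
          apply Subtype.ext
          rw [h4, AddSubmonoidClass.coe_finsetSum]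
          rfl
        rw [h6]
        exact sum_mem fun i _ => Submodule.smul_mem_smul (h5 i) trivial
      obtain ⟨p, hp1, -, hp2, hp3⟩ :=
        LinearMap.exists_monic_and_natDegree_eq_and_coeff_mem_pow_and_aeval_eq_zero B
          (FreeAlgebra.lift B (opP N B B) t) m hrange
      have h7 : ∀ ψ : HM (GamH N ⊥) B, Par ψ → ev B B (Polynomial.aeval t p) ψ = 0 := by
        intro ψ hψ
        have e1 := ev_opP' (B := B) (A := B) (Polynomial.aeval t p) (⟨ψ, hψ⟩ : parS N B B)
        have e2 : FreeAlgebra.lift B (opP N B B) (Polynomial.aeval t p) = 0 := by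
          rw [← Polynomial.aeval_algHom_apply]
          exact hp3
        rw [e2] at e1
        exact e1.symm
      have h8 := hA _ (ev_eq_zero_of h7 hψ₀)
      rw [← Polynomial.aeval_algHom_apply] at h8
      have h9 : p.map (algebraMap B k) = Polynomial.X ^ p.natDegree := by
        ext j
        rw [Polynomial.coeff_map, Polynomial.coeff_X_pow]
        rcases lt_trichotomy j p.natDegree with hj | hj | hj
        · rw [if_neg hj.ne]
          have h10 : p.coeff j ∈ m := by
            have := hp2 j
            have hpos : p.natDegree - j ≠ 0 := by omega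
            exact Ideal.pow_le_self hpos this
          exact h10
        · rw [if_pos hj, hj]
          have : p.coeff p.natDegree = 1 := hp1
          rw [this, map_one]
        · rw [if_neg hj.ne', Polynomial.coeff_eq_zero_of_natDegree_lt hj, map_zero]
      have h10 : algebraMap B k (FreeAlgebra.lift B c t) ^ p.natDegree = 0 := by
        have h11 := h8
        rw [Polynomial.aeval_def, Algebra.algebraMap_self, ← Polynomial.eval_map,
          Polynomial.map_id, ← Polynomial.eval_map_apply, h9, Polynomial.eval_pow,
          Polynomial.eval_X] at h11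
        exact h11
      have h12 : algebraMap B k (FreeAlgebra.lift B c t) = 0 := by
        by_contra hne
        exact pow_ne_zero _ hne h10
      have h13 : (FreeAlgebra.lift B fun i => algebraMap B k (c i)) t =
          algebraMap B k (FreeAlgebra.lift B c t) := by
        have : (FreeAlgebra.lift B fun i => algebraMap B k (c i)) =
            (Algebra.ofId B k).comp (FreeAlgebra.lift B c) := by
          apply FreeAlgebra.hom_ext
          funext i
          simp [Algebra.ofId_apply]
        rw [this]
        rfl
      rw [h13]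
      exact h12
  refine ⟨v, fun h => hv0 (Subtype.ext h), v.2, fun i => ?_⟩
  exact congrArg Subtype.val (hv i)

end Fermat.Agent.DS3
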