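import Fermat.Agent.H03.DS3C
import Fermat.Agent.H03.DS3E

/-!
# From congruences of q-expansions to eigenclasses
-/

set_option autoImplicit false

noncomputable section

namespace Fermat.Agent.DS3

open UpperHalfPlane hiding I
open CongruenceSubgroup Function
open Fermat.Agent.TC Fermat.Agent.H22
open ModularFormClass (qCoeff)
open scoped MatrixGroups ModularForm

variable {N : ℕ} [NeZero N] {B : Type*} [CommRing B] [Algebra B ℂ] {k : Type*} [Field k]
  [Algebra B k]

/-- Eigensystem data modulo the maximal ideal. -/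
structure EigData (N : ℕ) [NeZero N] (B : Type*) [CommRing B] [Algebra B ℂ]
    (χ : (ZMod N)ˣ →* ℂˣ) where
  /-- the inverse of the nebentypus at `q` -/
  e : {q : ℕ // q.Prime ∧ q.Coprime N} → B
  he : ∀ q, algebraMap B ℂ (e q) = ((χ (unitOf q.2.2))⁻¹ : ℂˣ)
  /-- the eigenvalues of `T_q` -/
  t : {q : ℕ // q.Prime ∧ q.Coprime N} → B
  /-- the eigenvalues of the diamond operators -/
  d : Gamma0 N → B
  hd : ∀ g, algebraMap B ℂ (d g) = χ (dChar N g)

variable {χ : (ZMod N)ˣ →* ℂˣ} (D : EigData N B χ)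

/-- the system of eigenvalues -/
def EigData.sys : Idx N → B := Sum.elim D.t D.d

/-- Integral forms that are eigenforms modulo the maximal ideal. -/
structure Good (k : Type*) [Field k] [Algebra B k] (F : ℍ → ℂ) (c : ℕ → B) : Prop where
  isF : IsF χ F
  coe : ∀ n, algebraMap B ℂ (c n) = qCoeff F n
  eig : ∀ (q : {q : ℕ // q.Prime ∧ q.Coprime N}) (n : ℕ),
    algebraMap B k ((if q.1 ∣ n then (q.1 : B) * c (n / q.1) else 0) + D.e q * c (n * q.1)) =
      algebraMap B k (D.t q) * algebraMap B k (c n)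

variable {D} {F G : ℍ → ℂ} {c c' : ℕ → B}

omit [Algebra B ℂ] in
theorem eig_congr {q : ℕ} {e t x : B} (h : ∀ n, algebraMap B k (c' n) =
    algebraMap B k x * algebraMap B k (c n)) (n : ℕ)
    (hc : algebraMap B k ((if q ∣ n then (q : B) * c (n / q) else 0) + e * c (n * q)) =
      algebraMap B k t * algebraMap B k (c n)) :
    algebraMap B k ((if q ∣ n then (q : B) * c' (n / q) else 0) + e * c' (n * q)) =
      algebraMap B k t * algebraMap B k (c' n) := by
  rw [map_add, map_mul, h (n * q), h n]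
  rw [map_add, map_mul] at hc
  split_ifs with hd
  · rw [if_pos hd, map_mul] at hc
    rw [map_mul, h (n / q)]
    linear_combination algebraMap B k x * hc
  · rw [if_neg hd, map_zero] at hc
    rw [map_zero]
    linear_combination algebraMap B k x * hc

theorem exists_act (t : FreeAlgebra B (Idx N)) : ∀ (F : ℍ → ℂ) (c : ℕ → B)
    (h : Good D k F c), ∃ (F' : ℍ → ℂ) (c' : ℕ → B) (h' : Good D k F' c'),
      h'.isF.psi = ev B ℂ t h.isF.psi ∧
      ∀ n, algebraMap B k (c' n) =
        algebraMap B k (FreeAlgebra.lift B D.sys t) * algebraMap B k (c n) := by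
  induction t using FreeAlgebra.induction with
  | grade0 r =>
    intro F c h
    have hc : ∀ n, algebraMap B k (r * c n) = algebraMap B k r * algebraMap B k (c n) :=
      fun n => map_mul _ _ _
    refine ⟨algebraMap B ℂ r • F, fun n => r * c n,
      ⟨h.isF.smul _, fun n => ?_, fun q n => eig_congr hc n (h.eig q n)⟩, ?_, fun n => ?_⟩
    · rw [map_mul, h.coe, h.isF.qCoeff_smul]
    · rw [IsF.psi_smul, ev, AlgHom.commutes, Module.algebraMap_end_apply]
      refine AddMonoidHom.ext fun γ => ?_
      exact (Algebra.smul_def r _).symm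
    · rw [AlgHom.commutes]
      exact hc n
  | grade1 i =>
    intro F c h
    rcases i with q | g
    · have : NeZero q.1 := ⟨q.2.1.ne_zero⟩
      have : Fact q.1.Prime := ⟨q.2.1⟩
      obtain ⟨h1, h2⟩ := h.isF.TF (q := q.1) q.2.2
      have hc : ∀ n, algebraMap B k ((if q.1 ∣ n then (q.1 : B) * c (n / q.1) else 0) +
          D.e q * c (n * q.1)) = algebraMap B k (D.t q) * algebraMap B k (c n) := h.eig q
      refine ⟨_, fun n => (if q.1 ∣ n then (q.1 : B) * c (n / q.1) else 0) + D.e q * c (n * q.1),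
        ⟨h1, fun n => ?_, fun q' n => eig_congr hc n (h.eig q' n)⟩, ?_, fun n => ?_⟩
      · rw [h.isF.qCoeff_TF q.2.1.ne_zero h1, map_add, map_mul, h.coe, D.he]
        split_ifs with hd
        · rw [map_mul, map_natCast, h.coe]
        · rw [map_zero]
      · rw [h2, ev, FreeAlgebra.lift_ι_apply]
        rfl
      · rw [FreeAlgebra.lift_ι_apply]
        exact hc n
    · have hc : ∀ n, algebraMap B k (D.d g * c n) = algebraMap B k (D.d g) *
          algebraMap B k (c n) := fun n => map_mul _ _ _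
      refine ⟨(χ (dChar N g) : ℂ) • F, fun n => D.d g * c n,
        ⟨h.isF.smul _, fun n => ?_, fun q n => eig_congr hc n (h.eig q n)⟩, ?_, fun n => ?_⟩
      · rw [map_mul, h.coe, h.isF.qCoeff_smul, D.hd]
      · rw [IsF.psi_smul, ev, FreeAlgebra.lift_ι_apply]
        exact (h.isF.dia_psi g).symm
      · rw [FreeAlgebra.lift_ι_apply]
        exact hc n
  | mul a b ha hb =>
    intro F c h
    obtain ⟨F1, c1, h1, h2, h3⟩ := hb F c h
    obtain ⟨F2, c2, h4, h5, h6⟩ := ha F1 c1 h1
    refine ⟨F2, c2, h4, ?_, fun n => ?_⟩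
    · rw [h5, h2, map_mul, Module.End.mul_apply]
    · rw [h6, h3, map_mul, map_mul, mul_assoc]
  | add a b ha hb =>
    intro F c h
    obtain ⟨F1, c1, h1, h2, h3⟩ := ha F c h
    obtain ⟨F2, c2, h4, h5, h6⟩ := hb F c h
    have hc : ∀ n, algebraMap B k (c1 n + c2 n) =
        algebraMap B k (FreeAlgebra.lift B D.sys (a + b)) * algebraMap B k (c n) := fun n => by
      rw [map_add, map_add, map_add, h3, h6, add_mul]
    refine ⟨F1 + F2, fun n => c1 n + c2 n,
      ⟨h1.isF.add h4.isF, fun n => ?_, fun q n => eig_congr hc n (h.eig q n)⟩, ?_, hc⟩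
    · rw [map_add, h1.coe, h4.coe, h1.isF.qCoeff_add h4.isF]
    · refine (IsF.psi_add h1.isF h4.isF).trans ?_
      rw [h2, h5, map_add]
      rfl

/-- **Deligne–Serre lifting in reverse**: a form whose `q`-expansion is an eigenform modulo the
maximal ideal gives an eigenclass modulo the maximal ideal. -/
theorem exists_eigenclass (hB : Injective (algebraMap B ℂ)) [Module.IsTorsionFree ℤ B]
    (hk : Function.Surjective (algebraMap B k)) (h : Good D k F c)
    (h1 : algebraMap B k (c 1) ≠ 0) :
    ∃ φ : HM (GamH N ⊥) k, φ ≠ 0 ∧ Par φ ∧ ∀ i, op N k k i φ = algebraMap B k (D.sys i) • φ := by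
  refine exists_eigenclass_of hk D.sys (ψ₀ := h.isF.psi) h.isF.psi_kills fun t ht => ?_
  obtain ⟨F', c', h', h2, h3⟩ := exists_act t F c h
  rw [ht] at h2
  have h4 := h'.isF.eq_zero h2
  have h5 : qCoeff F' 1 = 0 := by
    have := (h'.isF.unique (c := fun _ => 0) (fun τ => by
      rw [h4]
      simpa using hasSum_zero) 1)
    exact this
  have h6 : c' 1 = 0 := hB (by rw [h'.coe, h5, map_zero])
  have h7 := h3 1
  rw [h6, map_zero] at h7
  exact (mul_eq_zero.mp h7.symm).resolve_right h1

end Fermat.Agent.DS3
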