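import Fermat.Agent.H03.IdealSum
import Mathlib.RingTheory.DedekindDomain.Factorization

/-!
# Decomposition of sums over ideals according to ideal classes
-/

set_option autoImplicit false
set_option maxHeartbeats 400000

open scoped Classical nonZeroDivisors

namespace Fermat.Agent.H03

open NumberField NumberField.Units Module

variable {K : Type*} [Field K] [NumberField K]

/-- Every class contains an integral ideal prime to `𝔪` (whose class is the inverse of `C`). -/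
theorem exists_classRep (𝔪 : Ideal (𝓞 K)) (h𝔪 : 𝔪 ≠ ⊥) (C : ClassGroup (𝓞 K)) :
    ∃ 𝔟 : (Ideal (𝓞 K))⁰, IsCoprime (𝔟 : Ideal (𝓞 K)) 𝔪 ∧ ClassGroup.mk0 𝔟 = C⁻¹ := by
  obtain ⟨𝔠, h𝔠⟩ := ClassGroup.mk0_surjective C
  have h𝔠0 : (𝔠 : Ideal (𝓞 K)) ≠ ⊥ := nonZeroDivisors.ne_zero 𝔠.2
  obtain ⟨a, ha0, ha⟩ : ∃ a : 𝓞 K, a ≠ 0 ∧ (𝔠 * 𝔪 : Ideal (𝓞 K)) ⊔ Ideal.span {a} = 𝔠 := by
    obtain ⟨a, ha⟩ := IsDedekindDomain.exists_sup_span_eq (I := (𝔠 * 𝔪 : Ideal (𝓞 K)))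
      (J := (𝔠 : Ideal (𝓞 K))) Ideal.mul_le_left (mul_ne_zero h𝔠0 h𝔪)
    by_cases ha0 : a = 0
    · obtain ⟨b, hb, hb0⟩ := Submodule.exists_mem_ne_zero_of_ne_bot h𝔠0
      refine ⟨b, hb0, ?_⟩
      rw [ha0, Ideal.span_singleton_eq_bot.mpr rfl, sup_bot_eq] at ha
      rw [ha]
      exact sup_eq_left.mpr ((Ideal.span_singleton_le_iff_mem _).mpr hb)
    · exact ⟨a, ha0, ha⟩
  have hac : (𝔠 : Ideal (𝓞 K)) ∣ Ideal.span {a} := by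
    rw [Ideal.dvd_iff_le, ← ha]; exact le_sup_right
  obtain ⟨𝔟, h𝔟⟩ := hac
  have h𝔟0 : 𝔟 ≠ ⊥ := by
    rintro rfl
    rw [Ideal.mul_bot, Ideal.span_singleton_eq_bot] at h𝔟
    exact ha0 h𝔟
  refine ⟨⟨𝔟, mem_nonZeroDivisors_of_ne_zero h𝔟0⟩, ?_, ?_⟩
  · rw [h𝔟, ← Ideal.mul_sup] at ha
    have h1 : 𝔪 ⊔ 𝔟 = ⊤ := by
      have h2 : (𝔠 : Ideal (𝓞 K)) * (𝔪 ⊔ 𝔟) = 𝔠 * ⊤ := by rw [ha, Ideal.mul_top]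
      exact mul_left_cancel₀ h𝔠0 h2
    exact (Ideal.isCoprime_iff_sup_eq.mpr h1).symm
  · rw [← h𝔠, eq_inv_iff_mul_eq_one, ← map_mul, mul_comm, ClassGroup.mk0_eq_one_iff]
    refine ⟨a, ?_⟩
    rw [Ideal.submodule_span_eq, h𝔟]
    rfl

/-- Chosen representatives. -/
noncomputable def cRep (𝔪 : Ideal (𝓞 K)) (h𝔪 : 𝔪 ≠ ⊥) (C : ClassGroup (𝓞 K)) : Ideal (𝓞 K) :=
  (exists_classRep 𝔪 h𝔪 C).choose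

theorem cRep_ne_bot (𝔪 : Ideal (𝓞 K)) (h𝔪 : 𝔪 ≠ ⊥) (C : ClassGroup (𝓞 K)) :
    cRep 𝔪 h𝔪 C ≠ ⊥ :=
  nonZeroDivisors.ne_zero (exists_classRep 𝔪 h𝔪 C).choose.2

theorem cRep_coprime (𝔪 : Ideal (𝓞 K)) (h𝔪 : 𝔪 ≠ ⊥) (C : ClassGroup (𝓞 K)) :
    IsCoprime (cRep 𝔪 h𝔪 C) 𝔪 :=
  (exists_classRep 𝔪 h𝔪 C).choose_spec.1

theorem isPrincipal_mul_cRep_iff (𝔪 : Ideal (𝓞 K)) (h𝔪 : 𝔪 ≠ ⊥) (C : ClassGroup (𝓞 K))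
    {𝔞 : Ideal (𝓞 K)} (h𝔞 : 𝔞 ≠ ⊥) :
    (𝔞 * cRep 𝔪 h𝔪 C).IsPrincipal ↔ ClassGroup.mk0 ⟨𝔞, mem_nonZeroDivisors_of_ne_zero h𝔞⟩ = C := by
  have h1 := (exists_classRep 𝔪 h𝔪 C).choose_spec.2
  rw [← ClassGroup.mk0_eq_one_iff (I := 𝔞 * cRep 𝔪 h𝔪 C)
    (mem_nonZeroDivisors_of_ne_zero (mul_ne_zero h𝔞 (cRep_ne_bot 𝔪 h𝔪 C)))]
  have h2 : ClassGroup.mk0 ⟨𝔞 * cRep 𝔪 h𝔪 C,
      mem_nonZeroDivisors_of_ne_zero (mul_ne_zero h𝔞 (cRep_ne_bot 𝔪 h𝔪 C))⟩ =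
      ClassGroup.mk0 ⟨𝔞, mem_nonZeroDivisors_of_ne_zero h𝔞⟩ * C⁻¹ := by
    rw [← h1, ← map_mul]
    rfl
  rw [h2, mul_inv_eq_one]

/-- a function on ideals vanishing at zero is the sum of its parts -/
theorem sum_class (𝔪 : Ideal (𝓞 K)) (h𝔪 : 𝔪 ≠ ⊥) {T : Ideal (𝓞 K) → ℂ} (hT : T ⊥ = 0)
    (𝔞 : Ideal (𝓞 K)) :
    ∑ C : ClassGroup (𝓞 K), (if (𝔞 * cRep 𝔪 h𝔪 C).IsPrincipal then T 𝔞 else 0) = T 𝔞 := by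
  by_cases h : 𝔞 = ⊥
  · subst h; simp [hT]
  · simp only [isPrincipal_mul_cRep_iff 𝔪 h𝔪 _ h]
    simp

end Fermat.Agent.H03
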