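import Mathlib.Analysis.Normed.Group.InfiniteSum
import Mathlib.Topology.Algebra.InfiniteSum.Real
import Mathlib.Analysis.SpecialFunctions.Exp
import Mathlib.Analysis.SpecificLimits.Normed
import Mathlib.Tactic

/-!
# Tent functions and partitions of unity
-/

set_option autoImplicit false

namespace Fermat.Agent.H03

/-- The tent function. -/
noncomputable def tent (t : ℝ) : ℝ := max 0 (1 - |t|)

theorem tent_nonneg (t : ℝ) : 0 ≤ tent t := le_max_left _ _

theorem tent_le_one (t : ℝ) : tent t ≤ 1 := by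
  unfold tent
  exact max_le zero_le_one (by linarith [abs_nonneg t])

theorem tent_eq_zero {t : ℝ} (h : 1 ≤ |t|) : tent t = 0 := by
  unfold tent
  exact max_eq_left (by linarith)

theorem abs_lt_one_of_tent_ne_zero {t : ℝ} (h : tent t ≠ 0) : |t| < 1 := by
  by_contra h'
  exact h (tent_eq_zero (not_lt.mp h'))

theorem abs_tent_sub_tent_le (t u : ℝ) : |tent t - tent u| ≤ |t - u| := by
  unfold tent
  have h1 := abs_max_sub_max_le_max 0 (1 - |t|) 0 (1 - |u|)
  refine h1.trans ?_
  rw [sub_self, abs_zero, max_le_iff]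
  refine ⟨abs_nonneg _, ?_⟩
  have : (1 - |t|) - (1 - |u|) = |u| - |t| := by ring
  rw [this, abs_sub_comm t u]
  exact abs_abs_sub_abs_le_abs_sub u t

/-- The tent functions form a partition of unity. -/
theorem hasSum_tent (t : ℝ) : HasSum (fun n : ℤ => tent (t + n)) 1 := by
  -- only two terms matter: `n = -⌊t⌋` and `n = -⌊t⌋ - 1`
  have h0 : ∀ n : ℤ, n ∉ ({-⌊t⌋, -⌊t⌋ - 1} : Finset ℤ) → tent (t + n) = 0 := by
    intro n hn
    simp only [Finset.mem_insert, Finset.mem_singleton, not_or] at hn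
    apply tent_eq_zero
    have h1 := Int.floor_le t
    have h2 := Int.lt_floor_add_one t
    rcases lt_or_gt_of_ne hn.1 with h | h
    · have h3 : n < -⌊t⌋ - 1 := lt_of_le_of_ne (by omega) hn.2
      have h4 : (n : ℝ) ≤ -⌊t⌋ - 2 := by
        have : n ≤ -⌊t⌋ - 2 := by omega
        exact_mod_cast this
      rw [abs_of_nonpos (by linarith)]
      linarith
    · have h4 : (-⌊t⌋ : ℝ) + 1 ≤ n := by
        have : -⌊t⌋ + 1 ≤ n := by omega
        exact_mod_cast this
      rw [abs_of_nonneg (by linarith)]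
      linarith
  have h1 : HasSum (fun n : ℤ => tent (t + n)) _ := hasSum_sum_of_ne_finset_zero h0
  convert h1 using 1
  have hne : -⌊t⌋ ≠ -⌊t⌋ - 1 := by omega
  rw [Finset.sum_pair hne]
  have h1 := Int.floor_le t
  have h2 := Int.lt_floor_add_one t
  unfold tent
  push_cast
  rw [abs_of_nonneg (by linarith : 0 ≤ t + -(⌊t⌋ : ℝ)),
    abs_of_nonpos (by linarith : t + (-(⌊t⌋ : ℝ) - 1) ≤ 0),
    max_eq_right (by linarith), max_eq_right (by linarith)]
  ring

/-- Product of tent functions. -/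
noncomputable def tentProd {ι : Type*} [Fintype ι] (y : ι → ℝ) : ℝ := ∏ i, tent (y i)

theorem tentProd_nonneg {ι : Type*} [Fintype ι] (y : ι → ℝ) : 0 ≤ tentProd y :=
  Finset.prod_nonneg fun _ _ => tent_nonneg _

theorem tentProd_le_one {ι : Type*} [Fintype ι] (y : ι → ℝ) : tentProd y ≤ 1 :=
  Finset.prod_le_one (fun _ _ => tent_nonneg _) fun _ _ => tent_le_one _

theorem abs_lt_one_of_tentProd_ne_zero {ι : Type*} [Fintype ι] {y : ι → ℝ}
    (h : tentProd y ≠ 0) (i : ι) : |y i| < 1 :=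
  abs_lt_one_of_tent_ne_zero (Finset.prod_ne_zero_iff.mp h i (Finset.mem_univ i))

theorem abs_prod_sub_prod_le {ι : Type*} (s : Finset ι) (a b : ι → ℝ)
    (ha : ∀ i, |a i| ≤ 1) (hb : ∀ i, |b i| ≤ 1) :
    |∏ i ∈ s, a i - ∏ i ∈ s, b i| ≤ ∑ i ∈ s, |a i - b i| := by
  classical
  induction s using Finset.induction_on with
  | empty => simp
  | @insert j s hj ih =>
    rw [Finset.prod_insert hj, Finset.prod_insert hj, Finset.sum_insert hj]
    have e : a j * ∏ i ∈ s, a i - b j * ∏ i ∈ s, b i =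
        (a j - b j) * ∏ i ∈ s, a i + b j * (∏ i ∈ s, a i - ∏ i ∈ s, b i) := by ring
    rw [e]
    refine (abs_add_le _ _).trans (add_le_add ?_ ?_)
    · rw [abs_mul]
      refine mul_le_of_le_one_right (abs_nonneg _) ?_
      rw [Finset.abs_prod]
      exact Finset.prod_le_one (fun _ _ => abs_nonneg _) fun i _ => ha i
    · rw [abs_mul]
      exact (mul_le_of_le_one_left (abs_nonneg _) (hb j)).trans ih

theorem abs_tentProd_sub_le {ι : Type*} [Fintype ι] (y y' : ι → ℝ) :
    |tentProd y - tentProd y'| ≤ ∑ i, |y i - y' i| := by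
  refine (abs_prod_sub_prod_le _ _ _ ?_ ?_).trans (Finset.sum_le_sum fun i _ =>
    abs_tent_sub_tent_le _ _)
  · intro i; rw [abs_of_nonneg (tent_nonneg _)]; exact tent_le_one _
  · intro i; rw [abs_of_nonneg (tent_nonneg _)]; exact tent_le_one _

/-- `∑_{n ∈ ℤ^r} ∏ tent (y_i + n_i) = 1`. -/
theorem hasSum_tentProd (r : ℕ) (y : Fin r → ℝ) :
    HasSum (fun n : Fin r → ℤ => tentProd (fun i => y i + n i)) 1 := by
  induction r with
  | zero =>
    convert hasSum_fintype (fun n : Fin 0 → ℤ => tentProd (fun i => y i + n i)) using 1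
    simp [tentProd]
  | succ r ih =>
    have h1 := hasSum_tent (y 0)
    have h2 := ih (fun i => y i.succ)
    set f : ℤ → ℝ := fun n => tent (y 0 + n) with hf
    set g : (Fin r → ℤ) → ℝ := fun n => tentProd (fun i => y i.succ + n i) with hg
    have hs : Summable (fun p : ℤ × (Fin r → ℤ) => f p.1 * g p.2) :=
      Summable.mul_of_nonneg h1.summable h2.summable (fun n => tent_nonneg _)
        (fun n => tentProd_nonneg _)
    have h3 : HasSum (fun p : ℤ × (Fin r → ℤ) => f p.1 * g p.2) (1 * 1) := HasSum.mul h1 h2 hs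
    rw [one_mul] at h3
    rw [← (Fin.consEquiv (fun _ : Fin (r + 1) => ℤ)).hasSum_iff]
    convert h3 using 1
    ext ⟨a, b⟩
    simp [hf, hg, tentProd, Fin.prod_univ_succ, Fin.consEquiv]

end Fermat.Agent.H03
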