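import Mathlib.NumberTheory.NumberField.CanonicalEmbedding.FundamentalCone
import Mathlib.Algebra.Module.ZLattice.Summable
import Mathlib.NumberTheory.NumberField.Ideal.Asymptotics
import Fermat.Agent.H03.Tent

/-!
# A homogeneous Lipschitz function on the mixed space which is a partition of unity for the units
-/

set_option autoImplicit false

open scoped Classical

namespace Fermat.Agent.H03

open NumberField NumberField.mixedEmbedding NumberField.Units
  NumberField.Units.dirichletUnitTheorem NumberField.InfinitePlace Module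

variable (K : Type*) [Field K] [NumberField K]

/-- real basis of the log space coming from the fundamental units. -/
noncomputable def logBasis : Basis (Fin (rank K)) ℝ (logSpace K) :=
  (basisUnitLattice K).ofZLatticeBasis ℝ (unitLattice K)

theorem logBasis_apply (i : Fin (rank K)) :
    logBasis K i = logEmbedding K (Additive.ofMul (fundSystem K i)) := by
  rw [logEmbedding_fundSystem, logBasis, Basis.ofZLatticeBasis_apply]

/-- coordinates of `logMap` with respect to the fundamental units. -/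
noncomputable def coordY (x : mixedSpace K) (i : Fin (rank K)) : ℝ :=
  (logBasis K).repr (logMap x) i

/-- the partition of unity. -/
noncomputable def Phi (x : mixedSpace K) : ℝ := tentProd (coordY K x)

/-- the homogeneous function. -/
noncomputable def Fs (s : ℝ) (x : mixedSpace K) : ℝ := Phi K x * (mixedEmbedding.norm x) ^ (-s)

theorem Phi_nonneg (x : mixedSpace K) : 0 ≤ Phi K x := tentProd_nonneg _

theorem Phi_le_one (x : mixedSpace K) : Phi K x ≤ 1 := tentProd_le_one _

theorem Fs_nonneg (s : ℝ) (x : mixedSpace K) : 0 ≤ Fs K s x :=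
  mul_nonneg (Phi_nonneg K x) (Real.rpow_nonneg (mixedEmbedding.norm_nonneg _) _)

variable {K}

theorem normAtPlace_le_norm (w : InfinitePlace K) (x : mixedSpace K) : normAtPlace w x ≤ ‖x‖ := by
  rw [norm_eq_sup'_normAtPlace]
  exact Finset.le_sup' (fun w => normAtPlace w x) (Finset.mem_univ w)

theorem exists_normAtPlace_eq_norm (x : mixedSpace K) : ∃ w, normAtPlace w x = ‖x‖ := by
  rw [norm_eq_sup'_normAtPlace]
  obtain ⟨w, -, hw⟩ := Finset.exists_mem_eq_sup' Finset.univ_nonempty (fun w => normAtPlace w x)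
  exact ⟨w, hw.symm⟩

theorem log_norm_eq {x : mixedSpace K} (hx : mixedEmbedding.norm x ≠ 0) :
    Real.log (mixedEmbedding.norm x) = ∑ w, (mult w : ℝ) * Real.log (normAtPlace w x) := by
  rw [mixedEmbedding.norm_apply, Real.log_prod]
  · exact Finset.sum_congr rfl fun w _ => by rw [Real.log_pow]
  · intro w _
    exact pow_ne_zero _ (mixedEmbedding.norm_ne_zero_iff.mp hx w)

theorem sum_mult_cast : ∑ w : InfinitePlace K, (mult w : ℝ) = finrank ℚ K := by
  rw [← sum_mult_eq (K := K)]
  push_cast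
  rfl

variable (K) in
/-- on the support of `Phi` all absolute values are comparable. -/
theorem exists_bound_of_Phi_ne_zero : ∃ R : ℝ, 0 ≤ R ∧ ∀ x : mixedSpace K,
    mixedEmbedding.norm x ≠ 0 → Phi K x ≠ 0 → ∀ w,
      |Real.log (normAtPlace w x) - Real.log (mixedEmbedding.norm x) * (finrank ℚ K : ℝ)⁻¹| ≤ R := by
  classical
  set R0 : ℝ := ∑ i, ∑ w, |logBasis K i w| with hR0
  have hR0' : 0 ≤ R0 := Finset.sum_nonneg fun _ _ => Finset.sum_nonneg fun _ _ => abs_nonneg _
  refine ⟨(Fintype.card (InfinitePlace K) + 1) * R0, by positivity, ?_⟩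
  intro x hx hPhi w
  have hn : (finrank ℚ K : ℝ) ≠ 0 := Nat.cast_ne_zero.mpr finrank_pos.ne'
  set d : InfinitePlace K → ℝ := fun w =>
    Real.log (normAtPlace w x) - Real.log (mixedEmbedding.norm x) * (finrank ℚ K : ℝ)⁻¹ with hd
  have h1 : ∀ w : {w : InfinitePlace K // w ≠ w₀}, |(mult w.1 : ℝ) * d w.1| ≤ R0 := by
    intro w
    have e1 : (mult w.1 : ℝ) * d w.1 = logMap x w := rfl
    have e2 : logMap x w = ∑ i, coordY K x i * logBasis K i w := by
      conv_lhs => rw [← (logBasis K).sum_repr (logMap x)]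
      simp [coordY, Finset.sum_apply]
    rw [e1, e2]
    refine (Finset.abs_sum_le_sum_abs _ _).trans (Finset.sum_le_sum fun i _ => ?_)
    rw [abs_mul]
    have h3 := abs_lt_one_of_tentProd_ne_zero hPhi i
    refine (mul_le_of_le_one_left (abs_nonneg _) h3.le).trans ?_
    exact Finset.single_le_sum (f := fun w => |logBasis K i w|) (fun _ _ => abs_nonneg _)
      (Finset.mem_univ w)
  have h1' : ∀ w : InfinitePlace K, w ≠ w₀ → |d w| ≤ R0 := by
    intro w hw
    refine le_trans ?_ (h1 ⟨w, hw⟩)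
    rw [abs_mul]
    have : (1 : ℝ) ≤ |(mult w : ℝ)| := by
      rw [abs_of_nonneg (Nat.cast_nonneg _)]; exact one_le_mult
    exact le_mul_of_one_le_left (abs_nonneg _) this
  have h2 : ∑ w, (mult w : ℝ) * d w = 0 := by
    simp only [hd, mul_sub, Finset.sum_sub_distrib, ← Finset.sum_mul]
    rw [← log_norm_eq hx, sum_mult_cast]
    field_simp
    ring
  by_cases hw : w = w₀
  · subst hw
    have h3 : (mult (w₀ : InfinitePlace K) : ℝ) * d w₀ =
        - ∑ w : {w : InfinitePlace K // w ≠ w₀}, (mult w.1 : ℝ) * d w.1 := by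
      have h4 := Fintype.sum_eq_add_sum_subtype_ne (fun w => (mult w : ℝ) * d w) w₀
      rw [h2] at h4
      linarith
    have h5 : |(mult (w₀ : InfinitePlace K) : ℝ) * d w₀| ≤ Fintype.card (InfinitePlace K) * R0 := by
      rw [h3, abs_neg]
      refine (Finset.abs_sum_le_sum_abs _ _).trans ?_
      refine (Finset.sum_le_card_nsmul _ _ R0 fun w _ => h1 w).trans ?_
      rw [nsmul_eq_mul]
      refine mul_le_mul_of_nonneg_right ?_ hR0'
      rw [Finset.card_univ]
      exact_mod_cast Fintype.card_subtype_le _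
    have h6 : |d w₀| ≤ |(mult (w₀ : InfinitePlace K) : ℝ) * d w₀| := by
      rw [abs_mul]
      have : (1 : ℝ) ≤ |(mult (w₀ : InfinitePlace K) : ℝ)| := by
        rw [abs_of_nonneg (Nat.cast_nonneg _)]; exact one_le_mult
      exact le_mul_of_one_le_left (abs_nonneg _) this
    change |d w₀| ≤ _
    linarith
  · change |d w| ≤ _
    have := h1' w hw
    have h7 : 0 ≤ (Fintype.card (InfinitePlace K) : ℝ) * R0 :=
      mul_nonneg (Nat.cast_nonneg _) hR0'
    linarith

/-- elementary bound for `exp`. -/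
theorem abs_exp_sub_one_le' (u : ℝ) : |Real.exp u - 1| ≤ |u| * Real.exp |u| := by
  rcases le_total 0 u with h | h
  · rw [abs_of_nonneg h, abs_of_nonneg (by linarith [Real.add_one_le_exp u])]
    have h1 := Real.add_one_le_exp (-u)
    have h2 : Real.exp (-u) * Real.exp u = 1 := by rw [← Real.exp_add]; simp
    nlinarith [Real.exp_pos u, Real.exp_pos (-u)]
  · have h0 : Real.exp u ≤ 1 := Real.exp_le_one_iff.mpr h
    rw [abs_of_nonpos h, abs_of_nonpos (by linarith)]
    have h1 := Real.add_one_le_exp u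
    have h2 : 1 ≤ Real.exp (-u) := Real.one_le_exp (by linarith)
    nlinarith

/-- elementary bound for `log`. -/
theorem abs_log_sub_log_le {a b δ : ℝ} (ha : 0 < a) (hδ : δ ≤ 1)
    (h : |b - a| ≤ δ / 2 * a) : 0 < b ∧ |Real.log b - Real.log a| ≤ δ := by
  have h1 := abs_le.mp h
  have hb : a / 2 ≤ b := by nlinarith
  have hb0 : 0 < b := by linarith
  refine ⟨hb0, ?_⟩
  rw [← Real.log_div hb0.ne' ha.ne', abs_le]
  have hδ0 : 0 ≤ δ := by
    have := (abs_nonneg (b - a)).trans h
    nlinarith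
  constructor
  · have h2 := Real.one_sub_inv_le_log_of_pos (div_pos hb0 ha)
    refine le_trans ?_ h2
    rw [inv_div]
    have h3 : a / b ≤ 1 + δ := by
      rw [div_le_iff₀ hb0]
      nlinarith
    linarith
  · refine (Real.log_le_sub_one_of_pos (div_pos hb0 ha)).trans ?_
    have h3 : b / a ≤ 1 + δ := by
      rw [div_le_iff₀ ha]
      nlinarith
    linarith

omit [NumberField K] in
theorem mult_le_two (w : InfinitePlace K) : (mult w : ℝ) ≤ 2 := by
  unfold mult
  split_ifs <;> norm_num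

variable (K) in
theorem exists_bound_coordY : ∃ M : ℝ, 0 ≤ M ∧ ∀ (x y : mixedSpace K) (η : ℝ), 0 ≤ η →
    (∀ w, |logMap x w - logMap y w| ≤ η) →
      ∑ i, |coordY K x i - coordY K y i| ≤ M * η := by
  set M : ℝ := ∑ i, ∑ w, |(logBasis K).repr (Pi.single w 1) i| with hM
  refine ⟨M, Finset.sum_nonneg fun _ _ => Finset.sum_nonneg fun _ _ => abs_nonneg _, ?_⟩
  intro x y η hη h
  rw [hM, Finset.sum_mul]
  refine Finset.sum_le_sum fun i _ => ?_
  have e1 : coordY K x i - coordY K y i = (logBasis K).repr (logMap x - logMap y) i := by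
    simp [coordY]
  have e2 : logMap x - logMap y = ∑ w, (logMap x w - logMap y w) • (Pi.single w (1 : ℝ)) := by
    ext v
    simp [Finset.sum_apply, Pi.single_apply]
  rw [e1, e2, map_sum, Finsupp.finsetSum_apply, Finset.sum_mul]
  refine (Finset.abs_sum_le_sum_abs _ _).trans (Finset.sum_le_sum fun w _ => ?_)
  rw [map_smul, Finsupp.smul_apply, smul_eq_mul, abs_mul, mul_comm]
  exact mul_le_mul_of_nonneg_left (h w) (abs_nonneg _)

set_option maxHeartbeats 1000000 in
variable (K) in
/-- the local Lipschitz estimate on the cone. -/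
theorem exists_lipschitz_of_Phi_ne_zero : ∃ C c : ℝ, 0 ≤ C ∧ 0 < c ∧ ∀ (s : ℝ) (x h : mixedSpace K),
    1 ≤ s → s ≤ 2 → mixedEmbedding.norm x ≠ 0 → Phi K x ≠ 0 → 1 ≤ ‖x‖ → ‖h‖ ≤ c * ‖x‖ →
      |Fs K s (x + h) - Fs K s x| ≤ C * ‖h‖ * ‖x‖ ^ (-(finrank ℚ K : ℝ) - 1) := by
  obtain ⟨R, hR, hbd⟩ := exists_bound_of_Phi_ne_zero K
  obtain ⟨M, hM, hY⟩ := exists_bound_coordY K
  set n : ℝ := (finrank ℚ K : ℝ) with hn
  have hn0 : 0 < n := by rw [hn]; exact_mod_cast finrank_pos
  have hn1 : 1 ≤ n := by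
    rw [hn]; exact_mod_cast (finrank_pos : 0 < finrank ℚ K)
  set c : ℝ := Real.exp (-(2 * R)) with hc
  have hc0 : 0 < c := Real.exp_pos _
  refine ⟨2 / c * (Real.exp (2 * n + 2 * n * R) * (4 * M + 2 * n)), c / 2, by positivity,
    by positivity, ?_⟩
  intro s x h hs1 hs2 hx hPhi hx1 hh
  have hxpos : 0 < ‖x‖ := by linarith
  have hNpos : 0 < mixedEmbedding.norm x :=
    lt_of_le_of_ne (mixedEmbedding.norm_nonneg _) (Ne.symm hx)
  have hwpos : ∀ w, 0 < normAtPlace w x := fun w =>
    lt_of_le_of_ne (normAtPlace_nonneg w x) (Ne.symm (mixedEmbedding.norm_ne_zero_iff.mp hx w))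
  have hb := hbd x hx hPhi
  set lN : ℝ := Real.log (mixedEmbedding.norm x) with hlN
  -- `log ‖x‖ ≤ logN / n + R`
  have hxup : Real.log ‖x‖ ≤ lN * n⁻¹ + R := by
    obtain ⟨w, hw⟩ := exists_normAtPlace_eq_norm x
    have := (abs_le.mp (hb w)).2
    rw [← hw]; linarith
  have hlow : ∀ w, c * ‖x‖ ≤ normAtPlace w x := by
    intro w
    have h1 := (abs_le.mp (hb w)).1
    have h2 : Real.log ‖x‖ - 2 * R ≤ Real.log (normAtPlace w x) := by linarith
    have h3 := Real.exp_le_exp.mpr h2
    rw [Real.exp_log (hwpos w), Real.exp_sub, Real.exp_log hxpos] at h3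
    rw [hc, Real.exp_neg]
    calc (Real.exp (2 * R))⁻¹ * ‖x‖ = ‖x‖ / Real.exp (2 * R) := by ring
      _ ≤ _ := h3
  -- the relative size of the perturbation
  set δ : ℝ := 2 * ‖h‖ / (c * ‖x‖) with hδ
  have hδ0 : 0 ≤ δ := by positivity
  have hδ1 : δ ≤ 1 := by
    rw [hδ, div_le_one (by positivity)]
    linarith
  have hδh : δ / 2 * (c * ‖x‖) = ‖h‖ := by
    rw [hδ]; field_simp
  have hw' : ∀ w, 0 < normAtPlace w (x + h) ∧
      |Real.log (normAtPlace w (x + h)) - Real.log (normAtPlace w x)| ≤ δ := by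
    intro w
    refine abs_log_sub_log_le (hwpos w) hδ1 ?_
    have h1 : |normAtPlace w (x + h) - normAtPlace w x| ≤ normAtPlace w h := by
      rw [abs_le]
      constructor
      · have h2 := normAtPlace_add_le w (x + h) (-h)
        rw [add_neg_cancel_right, normAtPlace_neg] at h2
        linarith
      · have h2 := normAtPlace_add_le w x h
        linarith
    refine h1.trans ((normAtPlace_le_norm w h).trans ?_)
    rw [← hδh]
    exact mul_le_mul_of_nonneg_left (hlow w) (by positivity)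
  have hx' : mixedEmbedding.norm (x + h) ≠ 0 :=
    mixedEmbedding.norm_ne_zero_iff.mpr fun w => (hw' w).1.ne'
  set lN' : ℝ := Real.log (mixedEmbedding.norm (x + h)) with hlN'
  have hlNN : |lN' - lN| ≤ n * δ := by
    rw [hlN', hlN, log_norm_eq hx, log_norm_eq hx', ← Finset.sum_sub_distrib]
    refine (Finset.abs_sum_le_sum_abs _ _).trans ?_
    rw [hn, ← sum_mult_cast, Finset.sum_mul]
    refine Finset.sum_le_sum fun w _ => ?_
    rw [← mul_sub, abs_mul, abs_of_nonneg (Nat.cast_nonneg _)]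
    exact mul_le_mul_of_nonneg_left (hw' w).2 (Nat.cast_nonneg _)
  have hlogmap : ∀ w, |logMap (x + h) w - logMap x w| ≤ 4 * δ := by
    intro w
    rw [logMap_apply, logMap_apply, ← mul_sub, abs_mul, abs_of_nonneg (Nat.cast_nonneg _)]
    have h1 : |(Real.log (normAtPlace w.1 (x + h)) - lN' * (finrank ℚ K : ℝ)⁻¹) -
        (Real.log (normAtPlace w.1 x) - lN * (finrank ℚ K : ℝ)⁻¹)| ≤ 2 * δ := by
      have e : (Real.log (normAtPlace w.1 (x + h)) - lN' * (finrank ℚ K : ℝ)⁻¹) -
        (Real.log (normAtPlace w.1 x) - lN * (finrank ℚ K : ℝ)⁻¹) =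
        (Real.log (normAtPlace w.1 (x + h)) - Real.log (normAtPlace w.1 x)) -
          (lN' - lN) * n⁻¹ := by rw [hn]; ring
      rw [e]
      refine (abs_sub _ _).trans ?_
      have h2 : |(lN' - lN) * n⁻¹| ≤ δ := by
        rw [abs_mul, abs_of_pos (inv_pos.mpr hn0), ← div_eq_mul_inv, div_le_iff₀ hn0]
        linarith
      have h3 := (hw' w.1).2
      linarith
    calc (mult w.1 : ℝ) * _ ≤ 2 * (2 * δ) :=
          mul_le_mul (mult_le_two w.1) h1 (abs_nonneg _) (by norm_num)
      _ = 4 * δ := by ring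
  have hPhidiff : |Phi K (x + h) - Phi K x| ≤ M * (4 * δ) :=
    (abs_tentProd_sub_le _ _).trans (hY _ _ _ (by positivity) hlogmap)
  -- the norm factor
  set u : ℝ := -s * (lN' - lN) with hu
  have hu1 : |u| ≤ 2 * n * δ := by
    rw [hu, abs_mul, abs_neg, abs_of_nonneg (by linarith : 0 ≤ s)]
    calc s * |lN' - lN| ≤ 2 * (n * δ) := mul_le_mul hs2 hlNN (abs_nonneg _) (by norm_num)
      _ = 2 * n * δ := by ring
  have hu2 : |u| ≤ 2 * n := hu1.trans (by nlinarith)
  have hNs : mixedEmbedding.norm x ^ (-s) = Real.exp (-s * lN) := by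
    rw [Real.rpow_def_of_pos hNpos, mul_comm]
  have hNs' : mixedEmbedding.norm (x + h) ^ (-s) = Real.exp (-s * lN) * Real.exp u := by
    rw [Real.rpow_def_of_pos (lt_of_le_of_ne (mixedEmbedding.norm_nonneg _) (Ne.symm hx')),
      ← Real.exp_add]
    congr 1
    rw [hu]; ring
  have hexpu : Real.exp u ≤ Real.exp (2 * n) := Real.exp_le_exp.mpr ((le_abs_self u).trans hu2)
  have hexpu' : |Real.exp u - 1| ≤ 2 * n * δ * Real.exp (2 * n) :=
    (abs_exp_sub_one_le' u).trans (mul_le_mul hu1 (Real.exp_le_exp.mpr hu2) (Real.exp_pos _).le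
      (by positivity))
  have hmain : |Fs K s (x + h) - Fs K s x| ≤
      Real.exp (-s * lN) * (δ * (Real.exp (2 * n) * (4 * M + 2 * n))) := by
    have e : Fs K s (x + h) - Fs K s x = Real.exp (-s * lN) *
        ((Phi K (x + h) - Phi K x) * Real.exp u + Phi K x * (Real.exp u - 1)) := by
      rw [Fs, Fs, hNs, hNs']; ring
    rw [e, abs_mul, abs_of_pos (Real.exp_pos _)]
    refine mul_le_mul_of_nonneg_left ?_ (Real.exp_pos _).le
    refine (abs_add_le _ _).trans ?_
    rw [abs_mul, abs_mul, abs_of_pos (Real.exp_pos u), abs_of_nonneg (Phi_nonneg K x)]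
    have h1 : |Phi K (x + h) - Phi K x| * Real.exp u ≤ M * (4 * δ) * Real.exp (2 * n) :=
      mul_le_mul hPhidiff hexpu (Real.exp_pos _).le (by positivity)
    have h2 : Phi K x * |Real.exp u - 1| ≤ 1 * (2 * n * δ * Real.exp (2 * n)) :=
      mul_le_mul (Phi_le_one K x) hexpu' (abs_nonneg _) (by norm_num)
    calc _ ≤ M * (4 * δ) * Real.exp (2 * n) + 1 * (2 * n * δ * Real.exp (2 * n)) :=
          add_le_add h1 h2
      _ = _ := by ring
  -- size of the norm factor
  have hsize : Real.exp (-s * lN) ≤ ‖x‖ ^ (-n) * Real.exp (2 * n * R) := by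
    have h1 : n * (Real.log ‖x‖ - R) ≤ lN := by
      have h2 : Real.log ‖x‖ - R ≤ lN * n⁻¹ := by linarith
      calc n * (Real.log ‖x‖ - R) ≤ n * (lN * n⁻¹) := mul_le_mul_of_nonneg_left h2 hn0.le
        _ = lN := by field_simp
    have hlogx : 0 ≤ Real.log ‖x‖ := Real.log_nonneg hx1
    rw [Real.rpow_def_of_pos hxpos, ← Real.exp_add]
    refine Real.exp_le_exp.mpr ?_
    have h3 : s * (n * (Real.log ‖x‖ - R)) ≤ s * lN := mul_le_mul_of_nonneg_left h1 (by linarith)
    have h4 : n * Real.log ‖x‖ ≤ s * (n * Real.log ‖x‖) :=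
      le_mul_of_one_le_left (by positivity) hs1
    have h5 : s * (n * R) ≤ 2 * (n * R) := mul_le_mul_of_nonneg_right hs2 (by positivity)
    nlinarith
  refine hmain.trans ?_
  have h6 : Real.exp (-s * lN) * (δ * (Real.exp (2 * n) * (4 * M + 2 * n))) ≤
      (‖x‖ ^ (-n) * Real.exp (2 * n * R)) * (δ * (Real.exp (2 * n) * (4 * M + 2 * n))) :=
    mul_le_mul_of_nonneg_right hsize (by positivity)
  refine h6.trans (le_of_eq ?_)
  rw [Real.rpow_sub hxpos, Real.rpow_one, hδ, Real.exp_add]
  field_simp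

end Fermat.Agent.H03
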