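import Fermat.Agent.H03.Cone

/-!
# Sums of the homogeneous function over lattices
-/

set_option autoImplicit false

open scoped Classical

namespace Fermat.Agent.H03

open NumberField NumberField.mixedEmbedding NumberField.Units
  NumberField.Units.dirichletUnitTheorem NumberField.InfinitePlace Module

variable (K : Type*) [Field K] [NumberField K]

theorem Fs_eq_zero {s : ℝ} (hs : s ≠ 0) {x : mixedSpace K}
    (h : ¬ (mixedEmbedding.norm x ≠ 0 ∧ Phi K x ≠ 0)) : Fs K s x = 0 := by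
  rw [not_and_or, not_not, not_not] at h
  rcases h with h | h
  · rw [Fs, h, Real.zero_rpow (neg_ne_zero.mpr hs), mul_zero]
  · rw [Fs, h, zero_mul]

set_option maxHeartbeats 1000000 in
/-- the global Lipschitz estimate. -/
theorem exists_lipschitz (h : mixedSpace K) : ∃ C ρ : ℝ, 0 ≤ C ∧ 1 ≤ ρ ∧
    ∀ (s : ℝ) (x : mixedSpace K), 1 ≤ s → s ≤ 2 → ρ ≤ ‖x‖ →
      |Fs K s (x + h) - Fs K s x| ≤ C * ‖x‖ ^ (-(finrank ℚ K : ℝ) - 1) := by
  obtain ⟨C, c, hC, hc, hmain⟩ := exists_lipschitz_of_Phi_ne_zero K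
  set n : ℝ := (finrank ℚ K : ℝ) with hn
  have hn0 : 0 ≤ n := Nat.cast_nonneg _
  refine ⟨C * ‖h‖ * 2 ^ (n + 1), 2 + ‖h‖ / c + 2 * ‖h‖ , by positivity, ?_, ?_⟩
  · have : 0 ≤ ‖h‖ / c + 2 * ‖h‖ := by positivity
    linarith
  intro s x hs1 hs2 hx
  have h1 : 0 ≤ ‖h‖ / c := by positivity
  have h2 : 0 ≤ ‖h‖ := norm_nonneg h
  have hx0 : 0 < ‖x‖ := by linarith
  have hpow : (0 : ℝ) ≤ ‖x‖ ^ (-n - 1) := by positivity
  have hone : (1 : ℝ) ≤ 2 ^ (n + 1) := Real.one_le_rpow (by norm_num) (by linarith)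
  by_cases hA : mixedEmbedding.norm x ≠ 0 ∧ Phi K x ≠ 0
  · have h3 := hmain s x h hs1 hs2 hA.1 hA.2 (by linarith) (by
      have : ‖h‖ / c ≤ ‖x‖ := by linarith
      rw [div_le_iff₀ hc] at this
      linarith)
    refine h3.trans ?_
    have : C * ‖h‖ * ‖x‖ ^ (-n - 1) * 1 ≤ C * ‖h‖ * ‖x‖ ^ (-n - 1) * 2 ^ (n + 1) :=
      mul_le_mul_of_nonneg_left hone (by positivity)
    linarith
  · by_cases hB : mixedEmbedding.norm (x + h) ≠ 0 ∧ Phi K (x + h) ≠ 0
    · have h4 : ‖x‖ - ‖h‖ ≤ ‖x + h‖ := by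
        have := norm_sub_le (x + h) h
        rw [add_sub_cancel_right] at this
        linarith
      have h3 := hmain s (x + h) (-h) hs1 hs2 hB.1 hB.2 (by linarith) (by
        have : ‖h‖ / c ≤ ‖x + h‖ := by linarith
        rw [div_le_iff₀ hc] at this
        rw [norm_neg]
        linarith)
      rw [add_neg_cancel_right, norm_neg, abs_sub_comm] at h3
      refine h3.trans ?_
      have h5 : ‖x‖ / 2 ≤ ‖x + h‖ := by linarith
      have h6 : ‖x + h‖ ^ (-n - 1) ≤ (‖x‖ / 2) ^ (-n - 1) :=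
        Real.rpow_le_rpow_of_nonpos (by positivity) h5 (by linarith)
      have h7 : (‖x‖ / 2) ^ (-n - 1) = 2 ^ (n + 1) * ‖x‖ ^ (-n - 1) := by
        rw [Real.div_rpow hx0.le (by norm_num), div_eq_mul_inv, ← Real.rpow_neg (by norm_num),
          mul_comm]
        congr 2
        ring
      rw [h7] at h6
      calc C * ‖h‖ * ‖x + h‖ ^ (-n - 1) ≤ C * ‖h‖ * (2 ^ (n + 1) * ‖x‖ ^ (-n - 1)) :=
            mul_le_mul_of_nonneg_left h6 (by positivity)
        _ = _ := by ring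
    · rw [Fs_eq_zero K (by linarith) hA, Fs_eq_zero K (by linarith) hB, sub_self, abs_zero]
      positivity

set_option maxHeartbeats 1000000 in
/-- decay estimate. -/
theorem exists_Fs_le : ∃ C : ℝ, 0 ≤ C ∧ ∀ (s : ℝ) (x : mixedSpace K), 0 < s → s ≤ 2 → x ≠ 0 →
    Fs K s x ≤ C * ‖x‖ ^ (-((finrank ℚ K : ℝ) * s)) := by
  obtain ⟨R, hR, hbd⟩ := exists_bound_of_Phi_ne_zero K
  set n : ℝ := (finrank ℚ K : ℝ) with hn
  have hn0 : 0 < n := by rw [hn]; exact_mod_cast finrank_pos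
  refine ⟨Real.exp (2 * n * R), (Real.exp_pos _).le, ?_⟩
  intro s x hs1 hs2 hx
  have hxpos : 0 < ‖x‖ := norm_pos_iff.mpr hx
  by_cases hA : mixedEmbedding.norm x ≠ 0 ∧ Phi K x ≠ 0
  · have hb := hbd x hA.1 hA.2
    have hNpos : 0 < mixedEmbedding.norm x :=
      lt_of_le_of_ne (mixedEmbedding.norm_nonneg _) (Ne.symm hA.1)
    set lN : ℝ := Real.log (mixedEmbedding.norm x) with hlN
    have hxup : Real.log ‖x‖ ≤ lN * n⁻¹ + R := by
      obtain ⟨w, hw⟩ := exists_normAtPlace_eq_norm x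
      have := (abs_le.mp (hb w)).2
      rw [← hw]; linarith
    have h1 : n * (Real.log ‖x‖ - R) ≤ lN := by
      have h2 : Real.log ‖x‖ - R ≤ lN * n⁻¹ := by linarith
      calc n * (Real.log ‖x‖ - R) ≤ n * (lN * n⁻¹) := mul_le_mul_of_nonneg_left h2 hn0.le
        _ = lN := by field_simp
    have h3 : s * (n * (Real.log ‖x‖ - R)) ≤ s * lN := mul_le_mul_of_nonneg_left h1 (by linarith)
    have h5 : s * (n * R) ≤ 2 * (n * R) := mul_le_mul_of_nonneg_right hs2 (by positivity)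
    have h6 : mixedEmbedding.norm x ^ (-s) ≤ Real.exp (2 * n * R) * ‖x‖ ^ (-(n * s)) := by
      rw [Real.rpow_def_of_pos hNpos, Real.rpow_def_of_pos hxpos, ← Real.exp_add]
      refine Real.exp_le_exp.mpr ?_
      nlinarith
    calc Fs K s x ≤ 1 * mixedEmbedding.norm x ^ (-s) :=
          mul_le_mul_of_nonneg_right (Phi_le_one K x) (by positivity)
      _ ≤ _ := by rw [one_mul]; exact h6
  · rw [Fs_eq_zero K (by linarith) hA]
    positivity

end Fermat.Agent.H03
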