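import Fermat.Agent.H03.ElemSum

/-!
# Sums of periodic functions against `fs`
-/

set_option autoImplicit false
set_option maxHeartbeats 400000

open scoped Classical

namespace Fermat.Agent.H03

open NumberField Module

variable {K : Type*} [Field K] [NumberField K]

/-- chosen representatives -/
noncomputable def rep (I : Ideal (𝓞 K)) (q : 𝓞 K ⧸ I) : 𝓞 K :=
  Function.surjInv Ideal.Quotient.mk_surjective q

theorem mk_rep (I : Ideal (𝓞 K)) (q : 𝓞 K ⧸ I) : Ideal.Quotient.mk I (rep I q) = q :=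
  Function.surjInv_eq _ _

/-- coset decomposition -/
noncomputable def cosetEquiv (I : Ideal (𝓞 K)) : (𝓞 K ⧸ I) × I ≃ 𝓞 K where
  toFun p := p.2 + rep I p.1
  invFun x := (Ideal.Quotient.mk I x, ⟨x - rep I (Ideal.Quotient.mk I x), by
    rw [← Ideal.Quotient.eq, mk_rep]⟩)
  left_inv := by
    rintro ⟨q, ⟨y, hy⟩⟩
    have h1 : Ideal.Quotient.mk I (y + rep I q) = q := by
      rw [map_add, mk_rep, Ideal.Quotient.eq_zero_iff_mem.mpr hy, zero_add]
    simp only [Prod.mk.injEq, Subtype.mk.injEq]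
    refine ⟨h1, ?_⟩
    rw [h1]
    ring
  right_inv := by
    intro x
    simp

theorem mk_cosetEquiv (I : Ideal (𝓞 K)) (p : (𝓞 K ⧸ I) × I) :
    Ideal.Quotient.mk I (cosetEquiv I p) = p.1 := by
  obtain ⟨q, ⟨y, hy⟩⟩ := p
  change Ideal.Quotient.mk I (y + rep I q) = q
  rw [map_add, mk_rep, Ideal.Quotient.eq_zero_iff_mem.mpr hy, zero_add]

variable (K) in
theorem summable_fs_coset {s : ℝ} (hs : 1 < s) (hs2 : s ≤ 2) (I : Ideal (𝓞 K)) (r : 𝓞 K) :
    Summable (fun y : I => fs K s (y + r)) := by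
  refine (summable_fs K hs hs2).comp_injective (i := fun y : I => (y : 𝓞 K) + r) ?_
  intro a b h
  exact Subtype.ext (add_right_cancel h)

/-- two cosets of `I` have nearly the same sum -/
theorem exists_coset_diff (I : Ideal (𝓞 K)) (a b : 𝓞 K) : ∃ C : ℝ, 0 ≤ C ∧ ∀ s : ℝ, 1 < s → s ≤ 2 →
    |∑' y : I, fs K s (y + a) - ∑' y : I, fs K s (y + b)| ≤ C := by
  obtain ⟨C, hC, h⟩ := exists_tsum_abs_sub_le K (a - b)
  refine ⟨C, hC, fun s hs hs2 => ?_⟩
  obtain ⟨h1, h2⟩ := h s hs hs2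
  have inj : Function.Injective (fun y : I => (y : 𝓞 K) + b) := fun x y h =>
    Subtype.ext (add_right_cancel h)
  have h3 := h1.comp_injective inj
  have e : ∀ y : I, ((y : 𝓞 K) + b) + (a - b) = y + a := fun y => by ring
  have h4 : Summable fun y : I => |fs K s (y + a) - fs K s (y + b)| := by
    refine h3.congr fun y => ?_
    simp only [Function.comp_apply, e]
  rw [← (summable_fs_coset K hs hs2 I a).tsum_sub (summable_fs_coset K hs hs2 I b)]
  calc |∑' y : I, (fs K s (y + a) - fs K s (y + b))|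
      ≤ ∑' y : I, |fs K s (y + a) - fs K s (y + b)| := by
        have := norm_tsum_le_tsum_norm (f := fun y : I => fs K s (y + a) - fs K s (y + b))
          (by simpa only [Real.norm_eq_abs] using h4)
        simpa only [Real.norm_eq_abs] using this
    _ ≤ ∑' x : 𝓞 K, |fs K s (x + (a - b)) - fs K s x| := by
        refine h4.tsum_le_tsum_of_inj (fun y : I => (y : 𝓞 K) + b) inj (fun _ _ => abs_nonneg _)
          (fun y => ?_) h1
        simp only [e, le_refl]
    _ ≤ C := h2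

theorem absNorm_eq_card (I : Ideal (𝓞 K)) [Fintype (𝓞 K ⧸ I)] :
    Ideal.absNorm I = Fintype.card (𝓞 K ⧸ I) := by
  rw [Ideal.absNorm_apply, Submodule.cardQuot_apply, Nat.card_eq_fintype_card]

/-- Periodic functions: the sum is the mean value times the full sum, up to `O(1)`. -/
theorem exists_periodic_bound (I : Ideal (𝓞 K)) (hI : I ≠ ⊥) [Fintype (𝓞 K ⧸ I)]
    (g : (𝓞 K ⧸ I) → ℂ) : ∃ C : ℝ, 0 ≤ C ∧ ∀ s : ℝ, 1 < s → s ≤ 2 →
      Summable (fun x : 𝓞 K => g (Ideal.Quotient.mk I x) * (fs K s x : ℂ)) ∧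
      ‖∑' x : 𝓞 K, g (Ideal.Quotient.mk I x) * (fs K s x : ℂ) -
        (∑ q, g q) / (Ideal.absNorm I : ℂ) * ((∑' x : 𝓞 K, fs K s x : ℝ) : ℂ)‖ ≤ C := by
  choose C hC hdiff using fun a b : 𝓞 K ⧸ I => exists_coset_diff I (rep I a) (rep I b)
  set N : ℂ := (Ideal.absNorm I : ℂ) with hN
  have hNcard : N = Fintype.card (𝓞 K ⧸ I) := by rw [hN, absNorm_eq_card]
  have hN0 : N ≠ 0 := by
    rw [hN]
    exact_mod_cast (Ideal.absNorm_eq_zero_iff.not.mpr hI)
  refine ⟨‖N⁻¹‖ * ∑ q, ∑ q', ‖g q‖ * C q q', ?_, fun s hs hs2 => ?_⟩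
  · refine mul_nonneg (norm_nonneg _) (Finset.sum_nonneg fun q _ => Finset.sum_nonneg fun q' _ => ?_)
    exact mul_nonneg (norm_nonneg _) (hC q q')
  obtain ⟨B, hB⟩ : ∃ B, ∀ q, ‖g q‖ ≤ B := by
    refine ⟨∑ q, ‖g q‖, fun q => ?_⟩
    exact Finset.single_le_sum (f := fun q => ‖g q‖) (fun _ _ => norm_nonneg _) (Finset.mem_univ q)
  have hs1 := summable_fs K hs hs2
  have hsC : Summable (fun x : 𝓞 K => (fs K s x : ℂ)) := Complex.ofRealCLM.summable hs1
  have hsg : Summable (fun x : 𝓞 K => g (Ideal.Quotient.mk I x) * (fs K s x : ℂ)) := by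
    refine Summable.of_norm_bounded (hs1.mul_left B) fun x => ?_
    rw [norm_mul, Complex.norm_real, Real.norm_of_nonneg (fs_nonneg K s x)]
    exact mul_le_mul_of_nonneg_right (hB _) (fs_nonneg K s x)
  refine ⟨hsg, ?_⟩
  -- decomposition
  set Z : (𝓞 K ⧸ I) → ℝ := fun q => ∑' y : I, fs K s (y + rep I q) with hZ
  have hfull : ∀ h : (𝓞 K ⧸ I) → ℂ, Summable (fun x : 𝓞 K => h (Ideal.Quotient.mk I x) * (fs K s x : ℂ)) →
      ∑' x : 𝓞 K, h (Ideal.Quotient.mk I x) * (fs K s x : ℂ) = ∑ q, h q * (Z q : ℂ) := by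
    intro h hh
    rw [← (cosetEquiv I).tsum_eq]
    have hh' := (cosetEquiv I).summable_iff.mpr hh
    refine (Summable.tsum_prod hh').trans ?_
    rw [tsum_fintype]
    refine Finset.sum_congr rfl fun q _ => ?_
    have e : ∀ y : I, (h (Ideal.Quotient.mk I ((cosetEquiv I) (q, y))) *
        (fs K s ((cosetEquiv I) (q, y)) : ℂ)) = h q * ((fs K s (y + rep I q) : ℝ) : ℂ) := by
      intro y
      rw [mk_cosetEquiv]
      rfl
    refine (tsum_congr e).trans ?_
    rw [tsum_mul_left, hZ, Complex.ofReal_tsum]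
  have h1 : ((∑' x : 𝓞 K, fs K s x : ℝ) : ℂ) = ∑ q, (Z q : ℂ) := by
    rw [Complex.ofReal_tsum]
    have := hfull (fun _ => 1) (by simpa using hsC)
    simpa using this
  rw [hfull g hsg, h1]
  have h2 : ∑ q, g q * (Z q : ℂ) - (∑ q, g q) / N * ∑ q, (Z q : ℂ) =
      N⁻¹ * ∑ q, ∑ q', g q * ((Z q : ℂ) - Z q') := by
    have e1 : ∑ q, ∑ q', g q * ((Z q : ℂ) - Z q') =
        N * ∑ q, g q * (Z q : ℂ) - (∑ q, g q) * ∑ q, (Z q : ℂ) := by
      simp only [mul_sub, Finset.sum_sub_distrib, Finset.sum_const, Finset.card_univ,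
        nsmul_eq_mul, ← hNcard]
      rw [Finset.mul_sum, Finset.sum_mul]
      simp only [Finset.mul_sum]
    rw [e1]
    field_simp
  rw [h2, norm_mul]
  refine mul_le_mul_of_nonneg_left ?_ (norm_nonneg _)
  refine (norm_sum_le _ _).trans (Finset.sum_le_sum fun q _ => ?_)
  refine (norm_sum_le _ _).trans (Finset.sum_le_sum fun q' _ => ?_)
  rw [norm_mul]
  refine mul_le_mul_of_nonneg_left ?_ (norm_nonneg _)
  rw [← Complex.ofReal_sub, Complex.norm_real, Real.norm_eq_abs]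
  exact hdiff q q' s hs hs2

end Fermat.Agent.H03
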