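import Fermat.Agent.H16.Weight2
import Fermat.Agent.H22.StarG

/-!
# Periods of weight two cusp forms on general congruence subgroups
-/

set_option autoImplicit false

noncomputable section

namespace Fermat.Agent.DS3

open UpperHalfPlane hiding I
open Complex Filter Topology Function CongruenceSubgroup
open Fermat.Agent.H16 Fermat.Agent.TC Fermat.Agent.H22
open scoped Manifold MatrixGroups ModularForm

local notation "ι" => Matrix.SpecialLinearGroup.mapGL ℝ

section Cusp

theorem cuspidal_add {f g : ℍ → ℂ} (hf : Cuspidal f) (hg : Cuspidal g) : Cuspidal (f + g) where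
  holo := hf.holo.add hg.holo
  per := by
    obtain ⟨n, hn, h1⟩ := hf.per
    obtain ⟨m, hm, h2⟩ := hg.per
    refine ⟨n * m, Nat.mul_pos hn hm, ?_⟩
    have h3 : Periodic (f ∘ ofComplex) ((n * m : ℕ) : ℝ) := by
      have := h1.nat_mul m
      have e : (((n * m : ℕ) : ℝ) : ℂ) = (m : ℂ) * ((n : ℝ) : ℂ) := by push_cast; ring
      rw [e]
      exact this
    have h4 : Periodic (g ∘ ofComplex) ((n * m : ℕ) : ℝ) := by
      have := h2.nat_mul n
      have e : (((n * m : ℕ) : ℝ) : ℂ) = (n : ℂ) * ((m : ℝ) : ℂ) := by push_cast; ring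
      rw [e]
      exact this
    exact h3.add h4
  zero := by
    have := Tendsto.add (hf.zero : Tendsto f atImInfty (𝓝 0)) (hg.zero : Tendsto g atImInfty (𝓝 0))
    rw [add_zero] at this
    exact this

theorem cuspidal_smul (c : ℂ) {f : ℍ → ℂ} (hf : Cuspidal f) : Cuspidal (c • f) where
  holo := hf.holo.const_smul c
  per := by
    obtain ⟨n, hn, h1⟩ := hf.per
    exact ⟨n, hn, fun x => by
      have := h1 x
      simp only [Function.comp_apply, Pi.smul_apply] at this ⊢
      rw [this]⟩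
  zero := by
    have := Tendsto.const_smul (hf.zero : Tendsto f atImInfty (𝓝 0)) c
    rw [smul_zero] at this
    exact this

theorem cuspidal_zero : Cuspidal (0 : ℍ → ℂ) where
  holo := mdifferentiable_const
  per := ⟨1, one_pos, fun _ => rfl⟩
  zero := tendsto_const_nhds

/-- All slash translates are cuspidal. -/
def CuspAll (F : ℍ → ℂ) : Prop := ∀ γ ∈ intMat, Cuspidal (F ∣[(2 : ℤ)] γ)

variable {F G : ℍ → ℂ}

theorem CuspAll.adm (h : CuspAll F) : Adm F := fun γ hγ => (h γ hγ).hasPrim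

theorem CuspAll.cuspidal (h : CuspAll F) : Cuspidal F := by
  have := h 1 (one_mem _)
  rwa [SlashAction.slash_one] at this

theorem CuspAll.slash (h : CuspAll F) {γ : GL (Fin 2) ℝ} (hγ : γ ∈ intMat) :
    CuspAll (F ∣[(2 : ℤ)] γ) := fun δ hδ => by
  rw [← SlashAction.slash_mul]
  exact h _ (mul_mem hγ hδ)

theorem CuspAll.add (h : CuspAll F) (h' : CuspAll G) : CuspAll (F + G) := fun δ hδ => by
  rw [SlashAction.add_slash]
  exact cuspidal_add (h _ hδ) (h' _ hδ)

theorem smul_slash_int (c : ℂ) (F : ℍ → ℂ) {γ : GL (Fin 2) ℝ} (hγ : γ ∈ intMat) (k : ℤ) :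
    (c • F) ∣[k] γ = c • (F ∣[k] γ) := by
  have hσ : UpperHalfPlane.σ γ c = c := by
    rw [UpperHalfPlane.σ, if_pos (det_pos_of_mem hγ)]; rfl
  rw [ModularForm.smul_slash, hσ]

theorem CuspAll.smul (c : ℂ) (h : CuspAll F) : CuspAll (c • F) := fun δ hδ => by
  rw [smul_slash_int c F hδ]
  exact cuspidal_smul c (h _ hδ)

theorem CuspAll.zero : CuspAll 0 := fun δ _ => by
  rw [SlashAction.zero_slash]
  exact cuspidal_zero

theorem CuspAll.sum {J : Type*} (s : Finset J) {F : J → ℍ → ℂ} (h : ∀ i ∈ s, CuspAll (F i)) :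
    CuspAll (∑ i ∈ s, F i) := by
  classical
  induction s using Finset.induction_on with
  | empty => simpa using CuspAll.zero
  | insert a s ha ih =>
    rw [Finset.sum_insert ha]
    exact (h a (Finset.mem_insert_self _ _)).add
      (ih fun i hi ↦ h i (Finset.mem_insert_of_mem hi))

theorem CuspAll.sub (h : CuspAll F) (h' : CuspAll G) : CuspAll (F - G) := by
  have e : F - G = F + (-1 : ℂ) • G := by
    funext z
    simp [sub_eq_add_neg]
  rw [e]
  exact h.add (h'.smul _)

end Cusp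

section Psi

variable (Γ : Subgroup SL(2, ℤ))

/-- The period homomorphism. -/
def psi {F : ℍ → ℂ} (h : CuspAll F) (hi : ∀ γ ∈ Γ, F ∣[(2 : ℤ)] ι γ = F) : HM Γ ℂ :=
  AddMonoidHom.mk' (fun γ => per F (ι (γ.toMul : SL(2, ℤ)))) fun a b => by
    change per F (ι ((a.toMul : SL(2, ℤ)) * (b.toMul : SL(2, ℤ)))) = _
    rw [map_mul, per_mul h.adm (mapGL_mem _) (mapGL_mem _), hi _ a.toMul.2]

variable {Γ} {F : ℍ → ℂ} (h : CuspAll F) (hi : ∀ γ ∈ Γ, F ∣[(2 : ℤ)] ι γ = F)

theorem psi_apply (γ : Γ) : psi Γ h hi (Additive.ofMul γ) = per F (ι (γ : SL(2, ℤ))) := rfl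

include hi in
theorem prim_smul {γ : SL(2, ℤ)} (hγ : γ ∈ Γ) (z : ℍ) :
    prim F (ι γ • z) = psi Γ h hi (Additive.ofMul ⟨γ, hγ⟩) + prim F z := by
  have := per_eq h.adm (mapGL_mem γ) z
  rw [hi γ hγ] at this
  rw [psi_apply]
  linear_combination this

theorem isAut_psi (z : ℍ) : IsAut (psi Γ h hi) (fun x => prim F (toR x • z)) := by
  intro γ x
  change prim F (toR (emb γ * x) • z) = _
  rw [map_mul, toR_emb, mul_smul]
  exact prim_smul h hi γ.2 _

theorem psi_congr {G : ℍ → ℂ} (hG : CuspAll G) (hiG : ∀ γ ∈ Γ, G ∣[(2 : ℤ)] ι γ = G) (e : F = G) :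
    psi Γ h hi = psi Γ hG hiG := by
  subst e
  rfl

/-- The period homomorphism kills parabolic elements. -/
theorem psi_eq_zero_of_trace (γ : Γ) (ht : tr2 (γ : SL(2, ℤ)) ^ 2 = 4) :
    psi Γ h hi (Additive.ofMul γ) = 0 := by
  obtain ⟨g, β, hβ, h10, he⟩ := exists_fix_cusp (γ := (γ : SL(2, ℤ))) ht
  have h1 := per_mul h.adm (mapGL_mem (γ : SL(2, ℤ))) (mapGL_mem g)
  have h2 := per_mul h.adm (mapGL_mem g) hβ
  rw [hi _ γ.2] at h1
  rw [per_upper (h.adm.slash (mapGL_mem g)) hβ h10, add_zero, ← he, h1] at h2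
  rw [psi_apply]
  linear_combination h2

/-- The period homomorphism determines the form. -/
theorem eq_zero_of_psi [Γ.FiniteIndex] (h0 : psi Γ h hi = 0) : F = 0 := by
  have hf := h.cuspidal
  let P : ModularForm (Γ : Subgroup (GL (Fin 2) ℝ)) 0 :=
    { toFun := prim F
      slash_action_eq' := by
        rintro _ ⟨g, hg, rfl⟩
        funext z
        have h1 := prim_smul h hi hg z
        rw [h0, AddMonoidHom.zero_apply, zero_add] at h1
        have h2 := ModularForm.SL_slash_apply (k := 0) (prim F) g z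
        rw [neg_zero, zpow_zero, mul_one] at h2
        exact h2.trans h1
      holo' := hf.prim.holo
      bdd_at_cusps' := by
        intro c hc
        rw [Subgroup.IsArithmetic.isCusp_iff_isCusp_SL2Z] at hc
        rw [OnePoint.isBoundedAt_iff_forall_SL2Z hc]
        intro g _
        have h1 : (prim F) ∣[(0 : ℤ)] g =
            fun w : ℍ ↦ prim (F ∣[(2 : ℤ)] ι g) w + per F (ι g) := by
          funext w
          have h3 := per_eq h.adm (mapGL_mem g) w
          rw [← h3, ModularForm.SL_slash_apply, neg_zero, zpow_zero, mul_one]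
          change prim F (ι g • w) = _
          ring
        change IsBoundedAtImInfty ((prim F) ∣[(0 : ℤ)] g)
        rw [h1]
        have h2 : IsBoundedAtImInfty (prim (F ∣[(2 : ℤ)] ι g)) :=
          (h _ (mapGL_mem g)).prim.zero.isBoundedAtImInfty
        exact h2.add (Filter.const_boundedAtFilter _ _) }
  obtain ⟨c, hc⟩ := ModularForm.eq_const_of_weight_zero P
  have hc' : prim F = fun _ => c := hc
  funext τ
  have h1 := hf.hasPrim.isPrim.deriv τ
  rw [hc'] at h1
  have h2 : HasDerivAt ((fun _ : ℍ => c) ∘ ofComplex) 0 (τ : ℂ) := hasDerivAt_const (τ : ℂ) c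
  exact h1.unique h2

theorem psi_sub {G : ℍ → ℂ} (hG : CuspAll G) (hiG : ∀ γ ∈ Γ, G ∣[(2 : ℤ)] ι γ = G)
    (hiFG : ∀ γ ∈ Γ, (F - G) ∣[(2 : ℤ)] ι γ = F - G) :
    psi Γ (h.sub hG) hiFG = psi Γ h hi - psi Γ hG hiG := by
  refine AddMonoidHom.ext fun γ => ?_
  have h1 := prim_smul (h.sub hG) hiFG γ.toMul.2 UpperHalfPlane.I
  have h2 := prim_smul h hi γ.toMul.2 UpperHalfPlane.I
  have h3 := prim_smul hG hiG γ.toMul.2 UpperHalfPlane.I
  have h4 : prim (F - G) = prim F - prim G :=
    (h.adm.hasPrim.isPrim.sub hG.adm.hasPrim.isPrim).prim_eq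
  rw [h4] at h1
  simp only [Pi.sub_apply] at h1
  rw [AddMonoidHom.sub_apply]
  change psi Γ (h.sub hG) hiFG (Additive.ofMul γ.toMul) =
    psi Γ h hi (Additive.ofMul γ.toMul) - psi Γ hG hiG (Additive.ofMul γ.toMul)
  linear_combination h2 - h3 - h1

theorem psi_smul (c : ℂ) (hic : ∀ γ ∈ Γ, (c • F) ∣[(2 : ℤ)] ι γ = c • F) :
    psi Γ (h.smul c) hic = c • psi Γ h hi := by
  refine AddMonoidHom.ext fun γ => ?_
  exact per_smul c h.adm (mapGL_mem _)

end Psi

end Fermat.Agent.DS3
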