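import Mathlib

/-!
# Common eigenvectors of commuting families
-/

set_option autoImplicit false

noncomputable section

namespace Fermat.Agent.DS3

section Ann

variable {A V : Type*} [CommRing A] [AddCommGroup V] [Module A V]

theorem exists_ann [IsNoetherian A V] [IsArtinian A V] (n : Ideal A) (h1 : n ≠ ⊤)
    (hann : ∀ a : A, (∀ v : V, a • v = 0) → a ∈ n) : ∃ v : V, v ≠ 0 ∧ ∀ a ∈ n, a • v = 0 := by
  classical
  let f : ℕ →o (Submodule A V)ᵒᵈ :=
    { toFun := fun s => OrderDual.toDual (n ^ s • (⊤ : Submodule A V))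
      monotone' := fun s t hst => by
        change n ^ t • (⊤ : Submodule A V) ≤ n ^ s • (⊤ : Submodule A V)
        exact Submodule.smul_mono_left (Ideal.pow_le_pow_right hst) }
  obtain ⟨m, hm⟩ := IsArtinian.monotone_stabilizes f
  have h2 : n ^ m • (⊤ : Submodule A V) ≤ n • (n ^ m • (⊤ : Submodule A V)) := by
    have h3 : n ^ m • (⊤ : Submodule A V) = n ^ (m + 1) • (⊤ : Submodule A V) :=
      hm (m + 1) (Nat.le_succ m)
    rw [← mul_smul, ← pow_succ', ← h3]
  obtain ⟨u, hu1, hu2⟩ := Submodule.exists_sub_one_mem_and_smul_eq_zero_of_fg_of_le_smul n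
    (n ^ m • (⊤ : Submodule A V)) (IsNoetherian.noetherian _) h2
  have hun : u ∉ n := fun h => h1 ((Ideal.eq_top_iff_one _).mpr (by
    have := n.sub_mem h hu1
    rwa [sub_sub_cancel] at this))
  have hex : ∃ s, ∀ w ∈ n ^ s • (⊤ : Submodule A V), u • w = 0 := ⟨m, hu2⟩
  obtain ⟨s, hs, hmin⟩ : ∃ s, (∀ w ∈ n ^ s • (⊤ : Submodule A V), u • w = 0) ∧
      ∀ t < s, ¬ ∀ w ∈ n ^ t • (⊤ : Submodule A V), u • w = 0 :=
    ⟨Nat.find hex, Nat.find_spec hex, fun t ht => Nat.find_min hex ht⟩
  cases s with
  | zero =>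
    exact absurd (hann u fun v => hs v (by rw [pow_zero, Ideal.one_eq_top, Submodule.top_smul]; trivial))
      hun
  | succ s =>
    have h4 := hmin s (Nat.lt_succ_self s)
    push Not at h4
    obtain ⟨w, hw, hw0⟩ := h4
    refine ⟨u • w, hw0, fun a ha => ?_⟩
    rw [smul_comm]
    apply hs
    rw [pow_succ', mul_smul]
    exact Submodule.smul_mem_smul ha hw

end Ann

section Eig

variable {k : Type*} [Field k] {V : Type*} [AddCommGroup V] [Module k V] {I : Type*}

theorem lift_comm (T : I → Module.End k V) (hc : ∀ i j, T i * T j = T j * T i)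
    (s t : FreeAlgebra k I) : FreeAlgebra.lift k T s * FreeAlgebra.lift k T t =
      FreeAlgebra.lift k T t * FreeAlgebra.lift k T s := by
  have h1 : ∀ (i : I) (t : FreeAlgebra k I), T i * FreeAlgebra.lift k T t =
      FreeAlgebra.lift k T t * T i := by
    intro i t
    induction t using FreeAlgebra.induction with
    | grade0 r => rw [AlgHom.commutes]; exact (Algebra.commutes r (T i)).symm
    | grade1 j => rw [FreeAlgebra.lift_ι_apply]; exact hc i j
    | mul a b ha hb => rw [map_mul, ← mul_assoc, ha, mul_assoc, hb, mul_assoc]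
    | add a b ha hb => rw [map_add, mul_add, add_mul, ha, hb]
  induction s using FreeAlgebra.induction with
  | grade0 r => rw [AlgHom.commutes]; exact Algebra.commutes r _
  | grade1 j => rw [FreeAlgebra.lift_ι_apply]; exact h1 j t
  | mul a b ha hb => rw [map_mul, mul_assoc, hb, ← mul_assoc, ha, mul_assoc]
  | add a b ha hb => rw [map_add, mul_add, add_mul, ha, hb]

theorem exists_ann' {A : Type*} [CommRing A] [Algebra k A] [FiniteDimensional k V]
    (φ : A →ₐ[k] Module.End k V) (n : Ideal A) (h1 : n ≠ ⊤) (hann : ∀ a : A, φ a = 0 → a ∈ n) :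
    ∃ v : V, v ≠ 0 ∧ ∀ a ∈ n, φ a v = 0 := by
  letI : Module A V := Module.compHom V (φ : A →+* Module.End k V)
  have : IsScalarTower k A V := ⟨fun x a v => by
    change φ (x • a) v = x • φ a v
    rw [map_smul]
    rfl⟩
  have : IsNoetherian A V := isNoetherian_of_tower k inferInstance
  have : IsArtinian A V := isArtinian_of_tower k inferInstance
  exact exists_ann n h1 fun a ha => hann a (LinearMap.ext ha)

theorem exists_common_eigenvector₀ [FiniteDimensional k V] (T : I → Module.End k V)
    (hcomm : ∀ i j, T i * T j = T j * T i) (c : I → k)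
    (h : ∀ t : FreeAlgebra k I, FreeAlgebra.lift k T t = 0 → FreeAlgebra.lift k c t = 0) :
    ∃ v : V, v ≠ 0 ∧ ∀ i, T i v = c i • v := by
  let A : Subalgebra k (Module.End k V) := (FreeAlgebra.lift k T).range
  have hA : ∀ x y : A, x * y = y * x := by
    rintro ⟨_, s, rfl⟩ ⟨_, t, rfl⟩
    exact Subtype.ext (lift_comm T hcomm s t)
  letI : CommRing A := { (inferInstance : Ring A) with mul_comm := hA }
  let n : Ideal A :=
    { carrier := {a | ∃ t : FreeAlgebra k I, FreeAlgebra.lift k T t = a ∧
        FreeAlgebra.lift k c t = 0}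
      add_mem' := by
        rintro a b ⟨s, hs, hs'⟩ ⟨t, ht, ht'⟩
        refine ⟨s + t, ?_, by rw [map_add, hs', ht', add_zero]⟩
        rw [map_add, hs, ht]
        rfl
      zero_mem' := ⟨0, by rw [map_zero]; rfl, map_zero _⟩
      smul_mem' := by
        rintro ⟨_, s, rfl⟩ a ⟨t, ht, ht'⟩
        refine ⟨s * t, ?_, by rw [map_mul, ht', mul_zero]⟩
        rw [map_mul, ht]
        rfl }
  have h1 : n ≠ ⊤ := by
    intro htop
    have h2 : (1 : A) ∈ n := by rw [htop]; trivial
    obtain ⟨t, ht, ht'⟩ := h2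
    have h3 := h (t - 1) (by rw [map_sub, map_one, ht]; exact sub_self _)
    rw [map_sub, map_one, ht', zero_sub, neg_eq_zero] at h3
    exact one_ne_zero h3
  let φ : A →ₐ[k] Module.End k V :=
    { toFun := fun a => a
      map_one' := rfl
      map_mul' := fun _ _ => rfl
      map_zero' := rfl
      map_add' := fun _ _ => rfl
      commutes' := fun _ => rfl }
  have hann : ∀ a : A, φ a = 0 → a ∈ n := by
    rintro ⟨_, s, rfl⟩ ha
    exact ⟨s, rfl, h s ha⟩
  obtain ⟨v, hv0, hv⟩ := exists_ann' φ n h1 hann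
  refine ⟨v, hv0, fun i => ?_⟩
  have hT : FreeAlgebra.lift k T (FreeAlgebra.ι k i - algebraMap k _ (c i)) =
      T i - algebraMap k _ (c i) := by
    rw [map_sub, FreeAlgebra.lift_ι_apply, AlgHom.commutes]
  let a : A := ⟨T i - algebraMap k _ (c i), FreeAlgebra.ι k i - algebraMap k _ (c i), hT⟩
  have ha : a ∈ n := ⟨FreeAlgebra.ι k i - algebraMap k _ (c i), hT, by
    rw [map_sub, FreeAlgebra.lift_ι_apply, AlgHom.commutes]
    exact sub_self _⟩
  have h4 := hv a ha
  change (T i - algebraMap k (Module.End k V) (c i)) v = 0 at h4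
  rw [LinearMap.sub_apply, sub_eq_zero, Module.algebraMap_end_apply] at h4
  exact h4

/-- Common eigenvector lemma, with polynomials over a ring `B` surjecting onto `k`. -/
theorem exists_common_eigenvector {B : Type*} [CommRing B] [Algebra B k]
    (hB : Function.Surjective (algebraMap B k)) [FiniteDimensional k V]
    [Module B V] [IsScalarTower B k V] (T : I → Module.End k V)
    (hcomm : ∀ i j, T i * T j = T j * T i) (c : I → k)
    (h : ∀ t : FreeAlgebra B I, (∀ v, FreeAlgebra.lift B T t v = 0) →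
      FreeAlgebra.lift B c t = 0) :
    ∃ v : V, v ≠ 0 ∧ ∀ i, T i v = c i • v := by
  refine exists_common_eigenvector₀ T hcomm c fun t ht => ?_
  let φ : FreeAlgebra B I →ₐ[B] FreeAlgebra k I := FreeAlgebra.lift B (FreeAlgebra.ι k)
  have hφ : Function.Surjective φ := by
    intro t
    induction t using FreeAlgebra.induction with
    | grade0 r =>
      obtain ⟨b, rfl⟩ := hB r
      refine ⟨algebraMap B _ b, ?_⟩
      rw [AlgHom.commutes]
      exact IsScalarTower.algebraMap_apply B k _ b
    | grade1 j => exact ⟨FreeAlgebra.ι B j, FreeAlgebra.lift_ι_apply _ _⟩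
    | mul a b ha hb =>
      obtain ⟨a, rfl⟩ := ha
      obtain ⟨b, rfl⟩ := hb
      exact ⟨a * b, map_mul _ _ _⟩
    | add a b ha hb =>
      obtain ⟨a, rfl⟩ := ha
      obtain ⟨b, rfl⟩ := hb
      exact ⟨a + b, map_add _ _ _⟩
  obtain ⟨s, rfl⟩ := hφ t
  have e1 : ∀ s, FreeAlgebra.lift k T (φ s) = FreeAlgebra.lift B T s := by
    intro s
    have : ((FreeAlgebra.lift k T).restrictScalars B).comp φ = FreeAlgebra.lift B T := by
      apply FreeAlgebra.hom_ext
      funext i
      simp [φ]
    exact DFunLike.congr_fun this s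
  have e2 : ∀ s, FreeAlgebra.lift k c (φ s) = FreeAlgebra.lift B c s := by
    intro s
    have : ((FreeAlgebra.lift k c).restrictScalars B).comp φ = FreeAlgebra.lift B c := by
      apply FreeAlgebra.hom_ext
      funext i
      simp [φ]
    exact DFunLike.congr_fun this s
  rw [e1] at ht
  rw [e2]
  exact h s fun v => by rw [ht]; rfl

end Eig

end Fermat.Agent.DS3
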