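import Fermat.Agent.H03.DS3A

/-!
# Hecke operators on weight two cusp forms with nebentypus
-/

set_option autoImplicit false

noncomputable section

namespace Fermat.Agent.DS3

open UpperHalfPlane hiding I
open Complex Filter Topology Function CongruenceSubgroup ModularForm
open Fermat.Agent.H16 Fermat.Agent.TC Fermat.Agent.H22
open scoped Manifold MatrixGroups ModularForm

local notation "ι" => Matrix.SpecialLinearGroup.mapGL ℝ

variable {N : ℕ} [NeZero N]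

/-- Nebentypus `χ`. -/
def Neb (χ : (ZMod N)ˣ →* ℂˣ) (F : ℍ → ℂ) : Prop :=
  ∀ σ : Gamma0 N, F ∣[(2 : ℤ)] ι (σ : SL(2, ℤ)) = (χ (dChar N σ) : ℂ) • F

variable {χ : (ZMod N)ˣ →* ℂˣ} {F : ℍ → ℂ}

omit [NeZero N] in
theorem Neb.inv (hχ : Neb χ F) : ∀ γ ∈ GamH N ⊥, F ∣[(2 : ℤ)] ι γ = F := by
  intro γ hγ
  obtain ⟨h1, h2⟩ := mem_GamH.mp hγ
  have h3 := hχ ⟨γ, h1⟩
  rw [Subgroup.mem_bot.mp h2, map_one, Units.val_one, one_smul] at h3
  exact h3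

omit [NeZero N] in
/-- The period homomorphism on `Γ₁(N)`. -/
def psiN (h : CuspAll F) (hχ : Neb χ F) : HM (GamH N ⊥) ℂ := psi (GamH N ⊥) h hχ.inv

theorem dia_psiN (h : CuspAll F) (hχ : Neb χ F) (g : Gamma0 N) :
    dia ℂ N ⊥ ℂ g (psiN h hχ) = (χ (dChar N g) : ℂ) • psiN h hχ := by
  refine AddMonoidHom.ext fun γ => ?_
  change per F (ι ((conjG N ⊥ g γ.toMul : GamH N ⊥) : SL(2, ℤ))) =
    (χ (dChar N g) : ℂ) * per F (ι (γ.toMul : SL(2, ℤ)))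
  have e : ((conjG N ⊥ g γ.toMul : GamH N ⊥) : SL(2, ℤ)) * (g : SL(2, ℤ)) =
      (g : SL(2, ℤ)) * (γ.toMul : SL(2, ℤ)) := by
    rw [coe_conjG]
    group
  have h1 := per_mul h.adm (mapGL_mem (g : SL(2, ℤ))) (mapGL_mem (γ.toMul : SL(2, ℤ)))
  have h2 := per_mul h.adm (mapGL_mem ((conjG N ⊥ g γ.toMul : GamH N ⊥) : SL(2, ℤ)))
    (mapGL_mem (g : SL(2, ℤ)))
  rw [hχ.inv _ (conjG N ⊥ g γ.toMul).2, ← map_mul, e, map_mul, h1, hχ g,
    per_smul _ h.adm (mapGL_mem _)] at h2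
  linear_combination -h2

/-- The (twisted) Hecke operator on functions. -/
def TF (q : ℕ) (e : ℂ) (F : ℍ → ℂ) : ℍ → ℂ :=
  F ∣[(2 : ℤ)] heckeDiagMatrix q + e • ∑ i ∈ Finset.range q, F ∣[(2 : ℤ)] heckeMatrix q i

theorem CuspAll.TF (h : CuspAll F) {q : ℕ} (hq : q ≠ 0) (e : ℂ) : CuspAll (TF q e F) :=
  (h.slash (heckeDiagMatrix_mem hq)).add
    ((CuspAll.sum _ fun i _ => h.slash (heckeMatrix_mem hq i)).smul e)

theorem prim_TF (h : CuspAll F) {q : ℕ} (hq : q ≠ 0) (e : ℂ) (w : ℍ) :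
    prim (TF q e F) w = prim F (heckeDiagMatrix q • w) +
      e * ∑ i ∈ Finset.range q, prim F (heckeMatrix q i • w) := by
  have h0 := h.adm.hasPrim.isPrim
  have h1 := h0.smul_upper (det_pos_of_mem (heckeDiagMatrix_mem hq)) (heckeDiagMatrix_one_zero hq)
  have h2 : IsPrim (∑ i ∈ Finset.range q, F ∣[(2 : ℤ)] heckeMatrix q i)
      (∑ i ∈ Finset.range q, fun w : ℍ => prim F (heckeMatrix q i • w)) :=
    IsPrim.sum _ fun i _ => h0.smul_upper (det_pos_of_mem (heckeMatrix_mem hq i))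
      (heckeMatrix_one_zero hq i)
  have h3 := (h1.add (h2.smul e)).prim_eq
  unfold DS3.TF
  rw [h3]
  simp only [Pi.add_apply, Pi.smul_apply, Finset.sum_apply, smul_eq_mul]

theorem exists_gamma {ℓ : ℕ} [hℓ : Fact ℓ.Prime] {z : SL(2, ℤ)} (hz : z ∈ CongruenceSubgroup.Gamma N) {i : ZMod ℓ}
    (h2 : ((z 1 0 : ℤ) : ZMod ℓ) = 1) (h3 : ((z 1 1 : ℤ) : ZMod ℓ) = i) :
    ∃ γ : Gamma0 N, del ℓ * emb z = emb (γ : SL(2, ℤ)) * hm ℓ i.val ∧
      ((dChar N γ : (ZMod N)ˣ) : ZMod N) * (ℓ : ZMod N) = 1 := by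
  have hm' := hz
  rw [Gamma_mem] at hm'
  obtain ⟨a, ha⟩ : ∃ a, a = z 0 0 := ⟨_, rfl⟩
  obtain ⟨b, hb⟩ : ∃ b, b = z 0 1 := ⟨_, rfl⟩
  obtain ⟨c, hc⟩ : ∃ c, c = z 1 0 := ⟨_, rfl⟩
  obtain ⟨d, hd⟩ : ∃ d, d = z 1 1 := ⟨_, rfl⟩
  have hdet := det_eq z
  rw [← ha, ← hb, ← hc, ← hd] at hdet
  rw [← hc] at h2
  rw [← hd] at h3
  rw [← ha, ← hb, ← hc, ← hd] at hm'
  have h4 : (ℓ : ℤ) ∣ d - c * i.val := by
    rw [← ZMod.intCast_zmod_eq_zero_iff_dvd]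
    push_cast
    rw [h2, h3]
    simp
  obtain ⟨x, hx⟩ := h4
  have hℓ0 : (ℓ : ℚ) ≠ 0 := by exact_mod_cast hℓ.out.ne_zero
  have hcN : (N : ℤ) ∣ c := (ZMod.intCast_zmod_eq_zero_iff_dvd _ _).mp hm'.2.2.1
  let γ : SL(2, ℤ) := sl (ℓ * a) (b - a * i.val) c x (by linear_combination hdet - a * hx)
  have hγN : γ ∈ Gamma0 N := sl_mem_Gamma0 hcN
  refine ⟨⟨γ, hγN⟩, ?_, ?_⟩
  · apply Units.ext
    rw [Units.val_mul, Units.val_mul, del_val, emb_val, emb_sl, hm_val, ← ha, ← hb, ← hc, ← hd,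
      Matrix.mul_fin_two, Matrix.mul_fin_two]
    have hxq : (d : ℚ) - c * i.val = ℓ * x := by exact_mod_cast hx
    ext r s
    fin_cases r <;> fin_cases s
    · simp
    · simp
      ring
    · simp
    · simp [-ZMod.natCast_val]
      linear_combination hxq
  · have h5 : ((dChar N ⟨γ, hγN⟩ : (ZMod N)ˣ) : ZMod N) = ((x : ℤ) : ZMod N) := rfl
    rw [h5]
    have h6 : ((d - c * i.val : ℤ) : ZMod N) = ((ℓ * x : ℤ) : ZMod N) := by rw [hx]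
    push_cast at h6
    rw [hm'.2.2.1, hm'.2.2.2, zero_mul, sub_zero] at h6
    rw [mul_comm]
    exact h6.symm

/-- the eigenvalue factor -/
def unitOf {q : ℕ} (hqN : Nat.Coprime q N) : (ZMod N)ˣ := ZMod.unitOfCoprime q hqN

theorem TF_key (h : CuspAll F) (hχ : Neb χ F) {q : ℕ} [hq : Fact q.Prime] [NeZero q]
    (hqN : Nat.Coprime q N) : ∃ C : ℂ, ∀ (γ : GamH N ⊥) (w : ℍ),
      prim (TF q ((χ (unitOf hqN))⁻¹ : ℂˣ) F) (ι (γ : SL(2, ℤ)) • w) + C =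
        TH ℂ N ⊥ ℂ q (psiN h hχ) (Additive.ofMul γ) +
          (prim (TF q ((χ (unitOf hqN))⁻¹ : ℂˣ) F) w + C) := by
  have hq0 : q ≠ 0 := hq.out.ne_zero
  obtain ⟨z, hz, hz0, hz1⟩ := exists_zreps (ℓ := q) N hqN.symm
  have h1 : CongruenceSubgroup.Gamma N ≤ GamH N ⊥ := Gamma_le_GamH N ⊥
  have hrep := rep_TH (R := ℂ) (A := ℂ) (zreps_isReps h1 GamH_le_Gamma0 hqN.symm hz hz0 hz1)
  choose g hg hg' using fun i : ZMod q => exists_gamma (hz (some i)) (hz1 i).1 (hz1 i).2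
  have hgχ : ∀ i, (χ (dChar N (g i)) : ℂ) = ((χ (unitOf hqN))⁻¹ : ℂˣ) := by
    intro i
    congr 1
    have h2 : dChar N (g i) = (unitOf hqN)⁻¹ := by
      rw [eq_inv_iff_mul_eq_one]
      apply Units.ext
      exact hg' i
    rw [h2, map_inv]
  obtain ⟨e, he⟩ : ∃ e : ℂ, e = ((χ (unitOf hqN))⁻¹ : ℂˣ) := ⟨_, rfl⟩
  rw [← he]
  refine ⟨∑ i : ZMod q, per F (ι ((g i : Gamma0 N) : SL(2, ℤ))), ?_⟩
  -- the sum over the representatives
  have hS : ∀ (x : GG) (w : ℍ), (∑ j : Option (ZMod q), (1 : ℂ) •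
      prim F (toR (del q * emb (z j) * x) • w)) = prim (TF q e F) (toR x • w) +
        ∑ i : ZMod q, per F (ι ((g i : Gamma0 N) : SL(2, ℤ))) := by
    intro x w
    rw [Fintype.sum_option, prim_TF h hq0, hz0, map_one, mul_one, one_smul, map_mul, toR_del,
      mul_smul, add_assoc]
    congr 1
    have h3 : ∀ i : ZMod q, (1 : ℂ) • prim F (toR (del q * emb (z (some i)) * x) • w) =
        e * prim F (heckeMatrix q i.val • toR x • w) +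
          per F (ι ((g i : Gamma0 N) : SL(2, ℤ))) := by
      intro i
      rw [one_smul, hg i, mul_assoc, map_mul, map_mul, toR_emb, toR_hm, mul_smul, mul_smul]
      have h4 := per_eq h.adm (mapGL_mem ((g i : Gamma0 N) : SL(2, ℤ)))
        (heckeMatrix q i.val • toR x • w)
      rw [hχ (g i), hgχ i, ← he, (h.adm.hasPrim.isPrim.smul e).prim_eq] at h4
      simp only [Pi.smul_apply, smul_eq_mul] at h4
      linear_combination h4
    rw [Finset.sum_congr rfl fun i _ => h3 i, Finset.sum_add_distrib, ← Finset.mul_sum]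
    congr 2
    exact (sum_range_zmod (fun i => prim F (heckeMatrix q i • toR x • w))).symm
  intro γ w
  have h2 := hrep (psiN h hχ) (fun x => prim F (toR x • w)) (isAut_psi h hχ.inv w) γ 1
  simp only at h2
  have h3 : ∀ j, del q * emb (z j) * (emb ((γ : GamH N ⊥) : SL(2, ℤ)) * 1) =
      del q * emb (z j) * emb ((γ : GamH N ⊥) : SL(2, ℤ)) := fun j => by rw [mul_one]
  simp only [h3] at h2
  have h4 := hS (emb (γ : SL(2, ℤ))) w
  have h5 := hS 1 w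
  rw [toR_emb] at h4
  rw [map_one, one_smul] at h5
  rw [← h4, ← h5]
  exact h2

theorem eq_of_prim_eq_add {F G : ℍ → ℂ} (hF : HasPrim F) (hG : HasPrim G) (c : ℂ)
    (h : ∀ w, prim F w = prim G w + c) : F = G := by
  funext τ
  have h1 := hF.isPrim.deriv τ
  have h2 := (hG.isPrim.deriv τ).add_const c
  have h3 : (prim F ∘ ofComplex) = fun x => (prim G ∘ ofComplex) x + c := by
    funext x
    exact h _
  rw [h3] at h1
  exact h1.unique h2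

theorem slash_conj_inv {G : ℍ → ℂ} (hi : ∀ γ ∈ GamH N ⊥, G ∣[(2 : ℤ)] ι γ = G) (g : Gamma0 N) :
    ∀ γ ∈ GamH N ⊥, (G ∣[(2 : ℤ)] ι (g : SL(2, ℤ))) ∣[(2 : ℤ)] ι γ =
      G ∣[(2 : ℤ)] ι (g : SL(2, ℤ)) := by
  intro γ hγ
  have e : (g : SL(2, ℤ)) * γ =
      ((conjG N ⊥ g ⟨γ, hγ⟩ : GamH N ⊥) : SL(2, ℤ)) * (g : SL(2, ℤ)) := by
    rw [coe_conjG]
    group
  rw [← SlashAction.slash_mul, ← map_mul, e, map_mul, SlashAction.slash_mul,
    hi _ (conjG N ⊥ g ⟨γ, hγ⟩).2]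

theorem dia_psi {G : ℍ → ℂ} (h : CuspAll G) (hi : ∀ γ ∈ GamH N ⊥, G ∣[(2 : ℤ)] ι γ = G)
    (g : Gamma0 N) : dia ℂ N ⊥ ℂ g (psi (GamH N ⊥) h hi) =
      psi (GamH N ⊥) (h.slash (mapGL_mem (g : SL(2, ℤ)))) (slash_conj_inv hi g) := by
  refine AddMonoidHom.ext fun γ => ?_
  change per G (ι ((conjG N ⊥ g γ.toMul : GamH N ⊥) : SL(2, ℤ))) =
    per (G ∣[(2 : ℤ)] ι (g : SL(2, ℤ))) (ι (γ.toMul : SL(2, ℤ)))
  have e : ((conjG N ⊥ g γ.toMul : GamH N ⊥) : SL(2, ℤ)) * (g : SL(2, ℤ)) =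
      (g : SL(2, ℤ)) * (γ.toMul : SL(2, ℤ)) := by
    rw [coe_conjG]
    group
  have h1 := per_mul h.adm (mapGL_mem (g : SL(2, ℤ))) (mapGL_mem (γ.toMul : SL(2, ℤ)))
  have h2 := per_mul h.adm (mapGL_mem ((conjG N ⊥ g γ.toMul : GamH N ⊥) : SL(2, ℤ)))
    (mapGL_mem (g : SL(2, ℤ)))
  rw [hi _ (conjG N ⊥ g γ.toMul).2, ← map_mul, e, map_mul, h1] at h2
  linear_combination -h2

/-- The Hecke operator preserves the space of cusp forms with nebentypus and is compatible with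
the period homomorphism. -/
theorem TF_spec (h : CuspAll F) (hχ : Neb χ F) {q : ℕ} [hq : Fact q.Prime] [NeZero q]
    (hqN : Nat.Coprime q N) :
    ∃ (h' : CuspAll (TF q ((χ (unitOf hqN))⁻¹ : ℂˣ) F))
      (hχ' : Neb χ (TF q ((χ (unitOf hqN))⁻¹ : ℂˣ) F)),
      psiN h' hχ' = TH ℂ N ⊥ ℂ q (psiN h hχ) := by
  have hq0 : q ≠ 0 := hq.out.ne_zero
  obtain ⟨C, hC⟩ := TF_key h hχ (q := q) hqN
  have h' := h.TF hq0 ((χ (unitOf hqN))⁻¹ : ℂˣ)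
  obtain ⟨F', hF'⟩ : ∃ F', F' = TF q ((χ (unitOf hqN))⁻¹ : ℂˣ) F := ⟨_, rfl⟩
  rw [← hF'] at hC h' ⊢
  have hkey : ∀ (γ : GamH N ⊥) (w : ℍ), prim F' (ι (γ : SL(2, ℤ)) • w) =
      TH ℂ N ⊥ ℂ q (psiN h hχ) (Additive.ofMul γ) + prim F' w := fun γ w => by
    linear_combination hC γ w
  have hi : ∀ γ ∈ GamH N ⊥, F' ∣[(2 : ℤ)] ι γ = F' := by
    intro γ hγ
    refine eq_of_prim_eq_add (h' _ (mapGL_mem γ)).hasPrim h'.adm.hasPrim
      (TH ℂ N ⊥ ℂ q (psiN h hχ) (Additive.ofMul ⟨γ, hγ⟩) - per F' (ι γ)) fun w => ?_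
    have h1 := per_eq h'.adm (mapGL_mem γ) w
    have h2 := hkey ⟨γ, hγ⟩ w
    simp only at h2
    linear_combination h2 - h1
  have hpsi : psi (GamH N ⊥) h' hi = TH ℂ N ⊥ ℂ q (psiN h hχ) := by
    refine AddMonoidHom.ext fun γ => ?_
    have h1 := prim_smul h' hi γ.toMul.2 UpperHalfPlane.I
    have h2 := hkey γ.toMul UpperHalfPlane.I
    rw [h2] at h1
    exact (add_right_cancel h1).symm
  have hneb : Neb χ F' := by
    intro g
    have hd := dia_psi h' hi g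
    rw [hpsi, ← TH_dia, dia_psiN, map_smul, ← hpsi] at hd
    have hs : ∀ γ ∈ GamH N ⊥, ((χ (dChar N g) : ℂ) • F') ∣[(2 : ℤ)] ι γ =
        (χ (dChar N g) : ℂ) • F' := fun γ hγ => by
      rw [smul_slash_int _ _ (mapGL_mem γ), hi γ hγ]
    have hd2 := psi_smul h' hi (χ (dChar N g) : ℂ) hs
    have hs2 : ∀ γ ∈ GamH N ⊥, (F' ∣[(2 : ℤ)] ι (g : SL(2, ℤ)) - (χ (dChar N g) : ℂ) • F')
        ∣[(2 : ℤ)] ι γ = F' ∣[(2 : ℤ)] ι (g : SL(2, ℤ)) - (χ (dChar N g) : ℂ) • F' :=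
      fun γ hγ => by
        rw [sub_eq_add_neg, SlashAction.add_slash, SlashAction.neg_slash,
          slash_conj_inv hi g γ hγ, hs γ hγ]
    have hd3 := psi_sub (h'.slash (mapGL_mem (g : SL(2, ℤ)))) (slash_conj_inv hi g)
      (h'.smul (χ (dChar N g) : ℂ)) hs hs2
    rw [hd2, ← hd, sub_self] at hd3
    exact sub_eq_zero.mp (eq_zero_of_psi _ hs2 hd3)
  exact ⟨h', hneb, hpsi⟩

end Fermat.Agent.DS3
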