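import Fermat.Agent.H03.DS3B

/-!
# q-expansions of weight two cusp forms with nebentypus
-/

set_option autoImplicit false

noncomputable section

namespace Fermat.Agent.DS3

open UpperHalfPlane hiding I
open Complex Filter Topology Function CongruenceSubgroup ModularForm
open Fermat.Agent.H16 Fermat.Agent.TC Fermat.Agent.H22
open ModularFormClass (qCoeff)
open scoped Manifold MatrixGroups ModularForm
open P2MW.S_UpperHalfPlane_qCoeff_heckeT.M4cP1W2

local notation "ι" => Matrix.SpecialLinearGroup.mapGL ℝ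

variable {N : ℕ} [NeZero N] {χ : (ZMod N)ˣ →* ℂˣ} {F G : ℍ → ℂ}

omit [NeZero N] in
theorem T_mem : ModularGroup.T ∈ GamH N ⊥ := by
  rw [GamH_bot, Gamma1_mem]
  simp [ModularGroup.T]

omit [NeZero N] in
theorem Neb.periodic (hχ : Neb χ F) : Periodic (F ∘ ofComplex) 1 := by
  have h1 := hχ.inv _ T_mem
  have key : Periodic (F ∘ ofComplex) ((1 : ℝ) : ℂ) := by
    apply periodic_comp_ofComplex_of
    intro τ hw
    have h2 := congrFun h1 τ
    have h3 : (F ∣[(2 : ℤ)] ι ModularGroup.T) τ = F (ModularGroup.T • τ) := by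
      have := ModularForm.SL_slash_apply (k := 2) F ModularGroup.T τ
      rw [show (F ∣[(2 : ℤ)] ι ModularGroup.T) τ = (F ∣[(2 : ℤ)] ModularGroup.T) τ from rfl, this]
      simp [ModularGroup.denom_apply, ModularGroup.T]
    rw [h3] at h2
    rw [← h2]
    congr 1
    apply UpperHalfPlane.ext
    rw [UpperHalfPlane.modular_T_smul]
    simp [add_comm]
  simpa using key

/-- A weight two cusp form with nebentypus `χ`. -/
structure IsF (χ : (ZMod N)ˣ →* ℂˣ) (F : ℍ → ℂ) : Prop where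
  cusp : CuspAll F
  neb : Neb χ F

omit [NeZero N] in
theorem IsF.hasSum (h : IsF χ F) (τ : ℍ) :
    HasSum (fun m ↦ qCoeff F m • Periodic.qParam 1 τ ^ m) (F τ) :=
  hasSum_qExpansion one_pos h.neb.periodic h.cusp.cuspidal.holo
    h.cusp.cuspidal.zero.isBoundedAtImInfty τ

omit [NeZero N] in
theorem IsF.unique (h : IsF χ F) {c : ℕ → ℂ}
    (hc : ∀ τ : ℍ, HasSum (fun m ↦ c m • Periodic.qParam 1 τ ^ m) (F τ)) (n : ℕ) :
    qCoeff F n = c n :=
  (qExpansion_coeff_unique' h.cusp.cuspidal.holo.continuous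
    (analyticAt_cuspFunction_zero one_pos h.neb.periodic h.cusp.cuspidal.holo
      h.cusp.cuspidal.zero.isBoundedAtImInfty) hc n).symm

omit [NeZero N] in
theorem IsF.add (h : IsF χ F) (h' : IsF χ G) : IsF χ (F + G) where
  cusp := h.cusp.add h'.cusp
  neb := fun g => by rw [SlashAction.add_slash, h.neb g, h'.neb g, smul_add]

omit [NeZero N] in
theorem IsF.smul (c : ℂ) (h : IsF χ F) : IsF χ (c • F) where
  cusp := h.cusp.smul c
  neb := fun g => by rw [smul_slash_int c F (mapGL_mem _), h.neb g, smul_comm]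

omit [NeZero N] in
theorem IsF.qCoeff_add (h : IsF χ F) (h' : IsF χ G) (n : ℕ) :
    qCoeff (F + G) n = qCoeff F n + qCoeff G n :=
  (h.add h').unique (c := fun n => qCoeff F n + qCoeff G n) (fun τ => by
    simp only [add_smul]
    exact (h.hasSum τ).add (h'.hasSum τ)) n

omit [NeZero N] in
theorem IsF.qCoeff_smul (c : ℂ) (h : IsF χ F) (n : ℕ) :
    qCoeff (c • F) n = c * qCoeff F n :=
  (h.smul c).unique (c := fun n => c * qCoeff F n) (fun τ => by
    have := (h.hasSum τ).mul_left c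
    simpa only [smul_eq_mul, mul_assoc, Pi.smul_apply] using this) n

/-- The period homomorphism. -/
def IsF.psi (h : IsF χ F) : HM (GamH N ⊥) ℂ := psiN h.cusp h.neb

omit [NeZero N] in
theorem IsF.psi_add (h : IsF χ F) (h' : IsF χ G) : (h.add h').psi = h.psi + h'.psi := by
  refine AddMonoidHom.ext fun γ => ?_
  exact per_add h.cusp.adm h'.cusp.adm (mapGL_mem _)

omit [NeZero N] in
theorem IsF.psi_smul (c : ℂ) (h : IsF χ F) : (h.smul c).psi = c • h.psi := by
  refine AddMonoidHom.ext fun γ => ?_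
  exact per_smul c h.cusp.adm (mapGL_mem _)

theorem IsF.dia_psi (h : IsF χ F) (g : Gamma0 N) :
    dia ℂ N ⊥ ℂ g h.psi = (χ (dChar N g) : ℂ) • h.psi := dia_psiN h.cusp h.neb g

omit [NeZero N] in
theorem IsF.psi_kills (h : IsF χ F) (γ : GamH N ⊥) (ht : tr2 (γ : SL(2, ℤ)) ^ 2 = 4) :
    h.psi (Additive.ofMul γ) = 0 := psi_eq_zero_of_trace h.cusp h.neb.inv γ ht

theorem IsF.eq_zero (h : IsF χ F) (h0 : h.psi = 0) : F = 0 :=
  eq_zero_of_psi h.cusp h.neb.inv h0

theorem IsF.TF (h : IsF χ F) {q : ℕ} [hq : Fact q.Prime] [NeZero q] (hqN : Nat.Coprime q N) :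
    ∃ h' : IsF χ (TF q ((χ (unitOf hqN))⁻¹ : ℂˣ) F), h'.psi = TH ℂ N ⊥ ℂ q h.psi := by
  obtain ⟨h1, h2, h3⟩ := TF_spec h.cusp h.neb (q := q) hqN
  exact ⟨⟨h1, h2⟩, h3⟩

omit [NeZero N] in
theorem IsF.qCoeff_TF (h : IsF χ F) {q : ℕ} (hq : q ≠ 0) {e : ℂ} (h' : IsF χ (DS3.TF q e F))
    (n : ℕ) : qCoeff (DS3.TF q e F) n =
      (if q ∣ n then (q : ℂ) * qCoeff F (n / q) else 0) + e * qCoeff F (n * q) := by
  refine h'.unique (c := fun n => (if q ∣ n then (q : ℂ) * qCoeff F (n / q) else 0) +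
    e * qCoeff F (n * q)) (fun τ => ?_) n
  have h1 := hasSum_diag hq h.neb.periodic h.cusp.cuspidal.holo
    h.cusp.cuspidal.zero.isBoundedAtImInfty 2 τ
  have h2 := (hasSum_average hq h.neb.periodic h.cusp.cuspidal.holo
    h.cusp.cuspidal.zero.isBoundedAtImInfty τ).mul_left e
  have h3 := h1.add h2
  have e1 : DS3.TF q e F τ = (q : ℂ) ^ ((2 : ℤ) - 1) * F (heckeDiagMatrix q • τ) +
      e * ((q : ℂ)⁻¹ * ∑ j ∈ Finset.range q, F (heckeMatrix q j • τ)) := by
    have e2 : (∑ j ∈ Finset.range q, (F ∣[(2 : ℤ)] heckeMatrix q j) τ) =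
        (q : ℂ)⁻¹ * ∑ j ∈ Finset.range q, F (heckeMatrix q j • τ) := by
      rw [Finset.mul_sum]
      exact Finset.sum_congr rfl fun j _ => slash_heckeMatrix_apply 2 hq j F τ
    unfold DS3.TF
    rw [Pi.add_apply, Pi.smul_apply, slash_heckeDiagMatrix_apply 2 hq, Finset.sum_apply,
      smul_eq_mul, e2]
  rw [e1]
  refine h3.congr_fun ?_
  intro m
  rw [show (2 : ℤ) - 1 = 1 by norm_num, zpow_one]
  simp only [smul_eq_mul]
  split_ifs <;> ring

end Fermat.Agent.DS3
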