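import Fermat.Agent.TC.Deg
import Fermat.Agent.H22.Lattice
import Fermat.Agent.H03.DS3Alg

/-!
# Hecke polynomials acting on `Hom(Γ₁(N), A)`
-/

set_option autoImplicit false

noncomputable section

namespace Fermat.Agent.DS3

open CongruenceSubgroup Function
open Fermat.Agent.TC Fermat.Agent.H22
open scoped MatrixGroups

variable (N : ℕ) [NeZero N]

/-- Indices of the Hecke and diamond operators. -/
abbrev Idx : Type := {q : ℕ // q.Prime ∧ q.Coprime N} ⊕ Gamma0 N

section Op

variable (R : Type*) [CommRing R] (A : Type*) [AddCommGroup A] [Module R A]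

/-- The Hecke and diamond operators. -/
def op : Idx N → Module.End R (HM (GamH N ⊥) A)
  | Sum.inl q => haveI : NeZero q.1 := ⟨q.2.1.ne_zero⟩; TH R N ⊥ A q.1
  | Sum.inr g => dia R N ⊥ A g

variable {N R A}

theorem op_comm (i j : Idx N) (ψ : HM (GamH N ⊥) A) :
    op N R A i (op N R A j ψ) = op N R A j (op N R A i ψ) := by
  rcases i with q | g <;> rcases j with q' | g'
  · haveI : NeZero q.1 := ⟨q.2.1.ne_zero⟩
    haveI : NeZero q'.1 := ⟨q'.2.1.ne_zero⟩
    exact TH_comm q'.2.1 q.2.1 ψ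
  · haveI : NeZero q.1 := ⟨q.2.1.ne_zero⟩
    exact TH_dia q.1 g' ψ
  · haveI : NeZero q'.1 := ⟨q'.2.1.ne_zero⟩
    exact (TH_dia q'.1 g ψ).symm
  · exact dia_comm g g' ψ

theorem op_map {R' : Type*} [CommRing R'] {A' : Type*} [AddCommGroup A'] [Module R' A']
    (f : A →+ A') (i : Idx N) (ψ : HM (GamH N ⊥) A) :
    op N R' A' i (f.comp ψ) = f.comp (op N R A i ψ) := by
  rcases i with q | g
  · haveI : NeZero q.1 := ⟨q.2.1.ne_zero⟩
    exact congrArg MonoidHom.toAdditiveLeft
      (heckeH_comp N ⊥ q.1 f.toMultiplicative ψ.toMultiplicativeRight)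
  · rfl

/-- Vanishing on parabolic elements. -/
def Par (ψ : HM (GamH N ⊥) A) : Prop :=
  ∀ γ : GamH N ⊥, tr2 (γ : SL(2, ℤ)) ^ 2 = 4 → ψ (Additive.ofMul γ) = 0

omit [NeZero N] in
theorem par_iff (ψ : HM (GamH N ⊥) A) :
    Par ψ ↔ KillsPar (A := Multiplicative A) ψ.toMultiplicativeRight := Iff.rfl

theorem Par.op {ψ : HM (GamH N ⊥) A} (h : Par ψ) (i : Idx N) : Par (op N R A i ψ) := by
  rcases i with q | g
  · haveI : NeZero q.1 := ⟨q.2.1.ne_zero⟩
    exact KillsPar.heckeH q.1 (ψ := ψ.toMultiplicativeRight) h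
  · intro γ hγ
    change ψ (Additive.ofMul (conjG N ⊥ g γ)) = 0
    apply h
    have e : tr2 ((conjG N ⊥ g γ : GamH N ⊥) : SL(2, ℤ)) = tr2 (γ : SL(2, ℤ)) := by
      rw [coe_conjG]
      have := tr2_conj (γ : SL(2, ℤ)) ((g : SL(2, ℤ))⁻¹)
      rwa [inv_inv] at this
    rw [e]
    exact hγ

variable (N R A) in
/-- Parabolic homomorphisms. -/
def parS : Submodule R (HM (GamH N ⊥) A) where
  carrier := {ψ | Par ψ}
  add_mem' := fun ha hb γ hγ => by
    rw [AddMonoidHom.add_apply, ha γ hγ, hb γ hγ, add_zero]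
  zero_mem' := fun _ _ => rfl
  smul_mem' := fun c ψ hψ γ hγ => by
    change c • ψ (Additive.ofMul γ) = 0
    rw [hψ γ hγ, smul_zero]

omit [NeZero N] in
theorem mem_parS {ψ : HM (GamH N ⊥) A} : ψ ∈ parS N R A ↔ Par ψ := Iff.rfl

variable (N R A) in
/-- The operators on parabolic homomorphisms. -/
def opP (i : Idx N) : Module.End R (parS N R A) :=
  (op N R A i).restrict fun _ hψ => Par.op hψ i

theorem coe_opP (i : Idx N) (ψ : parS N R A) : (opP N R A i ψ : HM (GamH N ⊥) A) =
    op N R A i ψ := rfl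

theorem opP_comm (i j : Idx N) : opP N R A i * opP N R A j = opP N R A j * opP N R A i :=
  LinearMap.ext fun ψ => Subtype.ext (op_comm i j (ψ : HM (GamH N ⊥) A))

end Op

section Ev

variable {N} (B : Type*) [CommRing B] (A : Type*) [AddCommGroup A] [Module B A]

/-- Evaluation of Hecke polynomials. -/
def ev : FreeAlgebra B (Idx N) →ₐ[B] Module.End B (HM (GamH N ⊥) A) :=
  FreeAlgebra.lift B (op N B A)

variable {B A}

theorem ev_map {A' : Type*} [AddCommGroup A'] [Module B A'] (f : A →ₗ[B] A')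
    (t : FreeAlgebra B (Idx N)) (ψ : HM (GamH N ⊥) A) :
    ev B A' t (f.toAddMonoidHom.comp ψ) = f.toAddMonoidHom.comp (ev B A t ψ) := by
  unfold ev
  induction t using FreeAlgebra.induction generalizing ψ with
  | grade0 r =>
    rw [AlgHom.commutes, AlgHom.commutes, Module.algebraMap_end_apply,
      Module.algebraMap_end_apply]
    refine AddMonoidHom.ext fun γ => ?_
    exact (f.map_smul r (ψ γ)).symm
  | grade1 i =>
    rw [FreeAlgebra.lift_ι_apply, FreeAlgebra.lift_ι_apply]
    exact op_map f.toAddMonoidHom i ψ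
  | mul a b ha hb => rw [map_mul, map_mul, Module.End.mul_apply, Module.End.mul_apply, hb, ha]
  | add a b ha hb =>
    rw [map_add, map_add, LinearMap.add_apply, LinearMap.add_apply, ha, hb]
    refine AddMonoidHom.ext fun γ => ?_
    exact (f.map_add _ _).symm

theorem ev_opP {k : Type*} [Field k] [Algebra B k] (t : FreeAlgebra B (Idx N))
    (ψ : parS N k k) :
    ((FreeAlgebra.lift B (opP N k k) t ψ : parS N k k) : HM (GamH N ⊥) k) =
      ev B k t (ψ : HM (GamH N ⊥) k) := by
  unfold ev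
  induction t using FreeAlgebra.induction generalizing ψ with
  | grade0 r =>
    rw [AlgHom.commutes, AlgHom.commutes, Module.algebraMap_end_apply,
      Module.algebraMap_end_apply]
    rfl
  | grade1 i =>
    rw [FreeAlgebra.lift_ι_apply, FreeAlgebra.lift_ι_apply]
    rcases i with q | g <;> rfl
  | mul a b ha hb => rw [map_mul, map_mul, Module.End.mul_apply, Module.End.mul_apply, ← hb, ← ha]
  | add a b ha hb =>
    rw [map_add, map_add, LinearMap.add_apply, LinearMap.add_apply, Submodule.coe_add, ha, hb]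

theorem ev_opP' (t : FreeAlgebra B (Idx N)) (ψ : parS N B A) :
    ((FreeAlgebra.lift B (opP N B A) t ψ : parS N B A) : HM (GamH N ⊥) A) =
      ev B A t (ψ : HM (GamH N ⊥) A) := by
  unfold ev
  induction t using FreeAlgebra.induction generalizing ψ with
  | grade0 r =>
    rw [AlgHom.commutes, AlgHom.commutes, Module.algebraMap_end_apply,
      Module.algebraMap_end_apply]
    rfl
  | grade1 i =>
    rw [FreeAlgebra.lift_ι_apply, FreeAlgebra.lift_ι_apply]
    rfl
  | mul a b ha hb => rw [map_mul, map_mul, Module.End.mul_apply, Module.End.mul_apply, ← hb, ← ha]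
  | add a b ha hb =>
    rw [map_add, map_add, LinearMap.add_apply, LinearMap.add_apply, Submodule.coe_add, ha, hb]

end Ev

section Lattice

variable {N} {B : Type*} [CommRing B]

instance fg_GamH : Group.FG (GamH N ⊥) := by
  exact Subgroup.fg_of_index_ne_zero _

/-- Decomposition of a parabolic homomorphism with values in a torsion free group. -/
theorem exists_dec {A : Type*} [AddCommGroup A] [Module.IsTorsionFree ℤ A]
    {ψ : HM (GamH N ⊥) A} (h : Par ψ) :
    ∃ (n : ℕ) (c : Fin n → A) (φ : Fin n → HM (GamH N ⊥) ℤ), (∀ i, Par (φ i)) ∧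
      (∀ i, c i ∈ ψ.range) ∧ ∀ g, ψ g = ∑ i, φ i g • c i := by
  have hfg : ((ψ.range.toIntSubmodule : Submodule ℤ A)).FG := by
    have h1 : ψ.range.FG := by
      have : AddGroup.FG (Additive (GamH N ⊥)) := inferInstance
      exact AddGroup.fg_iff_addSubgroup_fg _ |>.mp (AddGroup.fg_range ψ)
    rw [Submodule.fg_iff_addSubgroup_fg]
    exact h1
  set L : Submodule ℤ A := ψ.range.toIntSubmodule with hL
  have : Module.Finite ℤ L := Module.Finite.iff_fg.mpr hfg
  have : Module.Free ℤ L := inferInstance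
  let b := Module.finBasis ℤ L
  have hmem : ∀ g, ψ g ∈ L := fun g => ⟨g, rfl⟩
  refine ⟨_, fun i => (b i : A), fun i =>
    { toFun := fun g => b.repr ⟨ψ g, hmem g⟩ i
      map_zero' := ?_
      map_add' := ?_ }, ?_, ?_, ?_⟩
  · have : (⟨ψ 0, hmem 0⟩ : L) = 0 := Subtype.ext ψ.map_zero
    rw [this]
    simp
  · intro x y
    have : (⟨ψ (x + y), hmem (x + y)⟩ : L) = ⟨ψ x, hmem x⟩ + ⟨ψ y, hmem y⟩ :=
      Subtype.ext (ψ.map_add x y)
    rw [this, map_add, Finsupp.add_apply]
  · intro i γ hγ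
    have h1 : (⟨ψ (Additive.ofMul γ), hmem _⟩ : L) = 0 := Subtype.ext (h γ hγ)
    change b.repr ⟨ψ (Additive.ofMul γ), hmem _⟩ i = 0
    rw [h1, map_zero]
    rfl
  · intro i
    exact (b i).2
  · intro g
    have h := congrArg Subtype.val (b.sum_repr ⟨ψ g, hmem g⟩)
    rw [AddSubmonoidClass.coe_finsetSum] at h
    exact h.symm

/-- Change of coefficients of an integral homomorphism. -/
def ofInt (A : Type*) [Ring A] (φ : HM (GamH N ⊥) ℤ) : HM (GamH N ⊥) A :=
  (Int.castAddHom A).comp φ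

omit [NeZero N] in
theorem ofInt_par {A : Type*} [Ring A] {φ : HM (GamH N ⊥) ℤ} (h : Par φ) : Par (ofInt A φ) :=
  fun γ hγ => by
    change ((φ (Additive.ofMul γ) : ℤ) : A) = 0
    rw [h γ hγ, Int.cast_zero]

theorem exists_dec' {A : Type*} [CommRing A] [Module.IsTorsionFree ℤ A]
    {ψ : HM (GamH N ⊥) A} (h : Par ψ) :
    ∃ (n : ℕ) (c : Fin n → A) (φ : Fin n → HM (GamH N ⊥) ℤ), (∀ i, Par (φ i)) ∧
      (∀ i, c i ∈ ψ.range) ∧ ψ = ∑ i, c i • ofInt A (φ i) := by
  obtain ⟨n, c, φ, h1, h2, h3⟩ := exists_dec h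
  refine ⟨n, c, φ, h1, h2, AddMonoidHom.ext fun g => ?_⟩
  rw [h3, AddMonoidHom.finset_sum_apply]
  refine Finset.sum_congr rfl fun i _ => ?_
  change _ = c i * ((φ i g : ℤ) : A)
  rw [zsmul_eq_mul, mul_comm]

instance finite_parS [Module.IsTorsionFree ℤ B] : Module.Finite B (parS N B B) := by
  have h1 : IsNoetherian ℤ (HM (GamH N ⊥) ℤ) := inferInstance
  have h2 : (parS N ℤ ℤ).FG := IsNoetherian.noetherian _
  obtain ⟨s, hs⟩ := h2
  classical
  refine ⟨?_⟩
  have key : ∀ φ : HM (GamH N ⊥) ℤ, Par φ →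
      ofInt B φ ∈ Submodule.span B ((fun φ => ofInt B φ) '' (s : Set (HM (GamH N ⊥) ℤ))) := by
    intro φ hφ
    have h3 : φ ∈ Submodule.span ℤ (s : Set (HM (GamH N ⊥) ℤ)) := by rw [hs]; exact hφ
    clear hφ
    induction h3 using Submodule.span_induction with
    | mem x hx => exact Submodule.subset_span ⟨x, hx, rfl⟩
    | zero =>
      have : ofInt B (0 : HM (GamH N ⊥) ℤ) = 0 := AddMonoidHom.ext fun g => Int.cast_zero
      rw [this]
      exact zero_mem _
    | add x y _ _ hx hy =>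
      have : ofInt B (x + y) = ofInt B x + ofInt B y :=
        AddMonoidHom.ext fun g => Int.cast_add _ _
      rw [this]
      exact add_mem hx hy
    | smul a x _ hx =>
      have : ofInt B (a • x) = (a : B) • ofInt B x :=
        AddMonoidHom.ext fun g => by
          change ((a * x g : ℤ) : B) = (a : B) * ((x g : ℤ) : B)
          exact Int.cast_mul _ _
      rw [this]
      exact Submodule.smul_mem _ _ hx
  have hspan : parS N B B =
      Submodule.span B ((fun φ => ofInt B φ) '' (s : Set (HM (GamH N ⊥) ℤ))) := by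
    apply le_antisymm
    · intro ψ hψ
      obtain ⟨n, c, φ, h1, -, h3⟩ := exists_dec' hψ
      rw [h3]
      exact sum_mem fun i _ => Submodule.smul_mem _ _ (key _ (h1 i))
    · rw [Submodule.span_le]
      rintro _ ⟨φ, hφ, rfl⟩
      apply ofInt_par
      have : φ ∈ parS N ℤ ℤ := by rw [← hs]; exact Submodule.subset_span hφ
      exact this
  have h4 : (parS N B B).FG := by
    rw [hspan]
    exact Submodule.fg_span ((s.finite_toSet).image _)
  exact (Submodule.fg_top _).mpr h4

end Lattice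

end Fermat.Agent.DS3
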