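import Fermat.Agent.H03.ConeSum

/-!
# Sums of the homogeneous Lipschitz function over the ring of integers
-/

set_option autoImplicit false
set_option maxHeartbeats 400000

open scoped Classical

namespace Fermat.Agent.H03

open NumberField NumberField.mixedEmbedding NumberField.Units
  NumberField.Units.dirichletUnitTheorem NumberField.InfinitePlace Module

variable (K : Type*) [Field K] [NumberField K]

/-- `Fs` on integers. -/
noncomputable def fs (s : ℝ) (x : 𝓞 K) : ℝ := Fs K s (mixedEmbedding K (x : K))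

theorem fs_nonneg (s : ℝ) (x : 𝓞 K) : 0 ≤ fs K s x := Fs_nonneg K s _

theorem norm_int (x : 𝓞 K) :
    mixedEmbedding.norm (mixedEmbedding K (x : K)) = (Ideal.absNorm (Ideal.span {x}) : ℝ) := by
  rw [mixedEmbedding.norm_eq_norm, Ideal.absNorm_span_singleton, ← Algebra.coe_norm_int,
    Nat.cast_natAbs]
  push_cast
  rfl

theorem fs_eq (s : ℝ) (x : 𝓞 K) :
    fs K s x = Phi K (mixedEmbedding K (x : K)) * (Ideal.absNorm (Ideal.span {x}) : ℝ) ^ (-s) := by
  rw [fs, Fs, norm_int]

theorem fs_zero {s : ℝ} (hs : s ≠ 0) : fs K s 0 = 0 := by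
  rw [fs_eq]
  simp [Real.zero_rpow (neg_ne_zero.mpr hs)]

theorem one_le_norm_int {x : 𝓞 K} (hx : x ≠ 0) : (1 : ℝ) ≤ Ideal.absNorm (Ideal.span {x}) := by
  have : Ideal.absNorm (Ideal.span {x}) ≠ 0 := by
    rw [Ne, Ideal.absNorm_eq_zero_iff, Ideal.span_singleton_eq_bot]
    exact hx
  exact_mod_cast Nat.one_le_iff_ne_zero.mpr this

theorem fs_le_one {s : ℝ} (hs : 0 < s) (x : 𝓞 K) : fs K s x ≤ 1 := by
  by_cases hx : x = 0
  · subst hx; rw [fs_zero K hs.ne']; exact zero_le_one
  · rw [fs_eq]
    refine mul_le_one₀ (Phi_le_one K _) (by positivity) ?_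
    exact Real.rpow_le_one_of_one_le_of_nonpos (one_le_norm_int K hx) (by linarith)

/-- the integers as elements of the lattice -/
noncomputable def toLat : 𝓞 K → mixedEmbedding.integerLattice K := fun x =>
  ⟨mixedEmbedding K (x : K), by
    simp only [mixedEmbedding.integerLattice, LinearMap.mem_range]
    exact ⟨x, rfl⟩⟩

theorem toLat_injective : Function.Injective (toLat K) := by
  intro x y h
  have h1 := congrArg Subtype.val h
  exact RingOfIntegers.coe_injective (mixedEmbedding_injective K h1)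

theorem finrank_lat : Module.finrank ℤ (mixedEmbedding.integerLattice K) = finrank ℚ K := by
  rw [ZLattice.rank ℝ (mixedEmbedding.integerLattice K), mixedEmbedding.finrank]

theorem summable_lat {r : ℝ} (hr : r < -(finrank ℚ K : ℝ)) :
    Summable fun x : mixedEmbedding.integerLattice K => ‖x‖ ^ r := by
  refine ZLattice.summable_norm_rpow (mixedEmbedding.integerLattice K) r ?_
  rw [finrank_lat]; exact hr

theorem summable_norm_rpow {r : ℝ} (hr : r < -(finrank ℚ K : ℝ)) :
    Summable fun x : 𝓞 K => ‖mixedEmbedding K (x : K)‖ ^ r := by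
  have h := (summable_lat K hr).comp_injective (toLat_injective K)
  have e : (fun x : 𝓞 K => ‖mixedEmbedding K (x : K)‖ ^ r) =
    (fun x : mixedEmbedding.integerLattice K => ‖x‖ ^ r) ∘ toLat K := by
    funext x
    rfl
  rw [e]
  exact h

theorem summable_fs {s : ℝ} (hs : 1 < s) (hs2 : s ≤ 2) : Summable (fs K s) := by
  obtain ⟨C, hC, h⟩ := exists_Fs_le K
  have hn : (0 : ℝ) < finrank ℚ K := by exact_mod_cast finrank_pos
  have h1 := (summable_norm_rpow K (r := -((finrank ℚ K : ℝ) * s)) (by nlinarith)).mul_left C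
  refine Summable.of_nonneg_of_le (fun x => fs_nonneg K s x) (fun x => ?_) h1
  by_cases hx : x = 0
  · subst hx
    rw [fs_zero K (by linarith)]
    positivity
  · refine h s _ (by linarith) hs2 ?_
    simpa using hx

/-- Translates differ by a bounded amount. -/
theorem exists_tsum_abs_sub_le (h : 𝓞 K) : ∃ C : ℝ, 0 ≤ C ∧ ∀ s : ℝ, 1 < s → s ≤ 2 →
    Summable (fun x : 𝓞 K => |fs K s (x + h) - fs K s x|) ∧
    ∑' x : 𝓞 K, |fs K s (x + h) - fs K s x| ≤ C := by
  obtain ⟨C, ρ, hC, hρ, hL⟩ := exists_lipschitz K (mixedEmbedding K (h : K))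
  set n : ℝ := (finrank ℚ K : ℝ) with hn
  have hsum : Summable fun x : 𝓞 K => ‖mixedEmbedding K (x : K)‖ ^ (-n - 1) :=
    summable_norm_rpow K (by linarith)
  have hfin : {x : 𝓞 K | ‖mixedEmbedding K (x : K)‖ < ρ}.Finite := by
    have h1 := hsum.tendsto_cofinite_zero
    have hpos : (0 : ℝ) < ρ ^ (-n - 1) := Real.rpow_pos_of_pos (by linarith) _
    have h2 := h1.eventually (gt_mem_nhds hpos)
    rw [Filter.eventually_cofinite] at h2
    refine (h2.union (Set.finite_singleton (0 : 𝓞 K))).subset ?_
    intro x hx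
    by_cases hx0 : x = 0
    · right; exact hx0
    · left
      simp only [Set.mem_setOf_eq, not_lt] at hx ⊢
      have hx1 : 0 < ‖mixedEmbedding K (x : K)‖ := by
        rw [norm_pos_iff]; simpa using hx0
      exact Real.rpow_le_rpow_of_nonpos hx1 hx.le (by linarith)
  set T : Finset (𝓞 K) := hfin.toFinset with hT
  set g : 𝓞 K → ℝ := fun x => (if x ∈ T then 1 else 0) +
    C * ‖mixedEmbedding K (x : K)‖ ^ (-n - 1) with hg
  have hgsum : Summable g := by
    refine Summable.add ?_ (hsum.mul_left C)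
    exact summable_of_ne_finset_zero (s := T) (fun x hx => if_neg hx)
  have hle : ∀ s : ℝ, 1 < s → s ≤ 2 → ∀ x, |fs K s (x + h) - fs K s x| ≤ g x := by
    intro s hs hs2 x
    by_cases hx : ‖mixedEmbedding K (x : K)‖ < ρ
    · have hxT : x ∈ T := by simpa [hT] using hx
      have h1 : |fs K s (x + h) - fs K s x| ≤ 1 := by
        rw [abs_le]
        have a1 := fs_nonneg K s (x + h)
        have a2 := fs_nonneg K s x
        have a3 := fs_le_one K (by linarith : 0 < s) (x + h)
        have a4 := fs_le_one K (by linarith : 0 < s) x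
        constructor <;> linarith
      simp only [hg, if_pos hxT]
      have : 0 ≤ C * ‖mixedEmbedding K (x : K)‖ ^ (-n - 1) := by positivity
      linarith
    · have h1 := hL s (mixedEmbedding K (x : K)) hs.le hs2 (not_lt.mp hx)
      have e : fs K s (x + h) = Fs K s (mixedEmbedding K (x : K) + mixedEmbedding K (h : K)) := by
        simp [fs]
      rw [e]
      refine h1.trans ?_
      simp only [hg]
      have : (0 : ℝ) ≤ if x ∈ T then 1 else 0 := by split_ifs <;> norm_num
      linarith
  refine ⟨∑' x, g x, tsum_nonneg fun x => ?_, fun s hs hs2 => ?_⟩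
  · simp only [hg]
    have : (0 : ℝ) ≤ if x ∈ T then 1 else 0 := by split_ifs <;> norm_num
    positivity
  · have h1 : Summable (fun x : 𝓞 K => |fs K s (x + h) - fs K s x|) :=
      Summable.of_nonneg_of_le (fun x => abs_nonneg _) (hle s hs hs2) hgsum
    exact ⟨h1, h1.tsum_le_tsum (hle s hs hs2) hgsum⟩

end Fermat.Agent.H03
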