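import Fermat.Agent.H03.UnitSum
import Mathlib.NumberTheory.NumberField.DedekindZeta

/-!
# Summation over ideals
-/

set_option autoImplicit false
set_option maxHeartbeats 400000

open scoped Classical

namespace Fermat.Agent.H03

open NumberField NumberField.Units Module

variable (K : Type*) [Field K] [NumberField K]

theorem norm_F_mul_fs_le {F : Ideal (𝓞 K) → ℂ} (hF : ∀ I, ‖F I‖ ≤ 1) (s : ℝ) (x : 𝓞 K) :
    ‖F (Ideal.span {x}) * (fs K s x : ℂ)‖ ≤ fs K s x := by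
  rw [norm_mul, Complex.norm_real, Real.norm_of_nonneg (fs_nonneg K s x)]
  exact mul_le_of_le_one_left (fs_nonneg K s x) (hF _)

theorem summable_F_mul_fs {F : Ideal (𝓞 K) → ℂ} (hF : ∀ I, ‖F I‖ ≤ 1) {s : ℝ} (hs : 1 < s)
    (hs2 : s ≤ 2) : Summable fun x : 𝓞 K => F (Ideal.span {x}) * (fs K s x : ℂ) :=
  Summable.of_norm_bounded (summable_fs K hs hs2) (norm_F_mul_fs_le K hF s)

/-- The fibre over an ideal of `x ↦ (x)`. -/
theorem hasSum_fiber {s : ℝ} (hs : s ≠ 0) (I : Ideal (𝓞 K)) :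
    HasSum (fun x : {x : 𝓞 K // Ideal.span {x} = I} => fs K s x.1)
      (if I.IsPrincipal then (torsionOrder K * (Ideal.absNorm I : ℝ) ^ (-s)) else 0) := by
  by_cases hI : I.IsPrincipal
  · rw [if_pos hI]
    obtain ⟨y, hy⟩ := hI.principal
    rw [Ideal.submodule_span_eq] at hy
    by_cases hy0 : y = 0
    · subst hy0
      have hI0 : I = ⊥ := by rw [hy]; simp
      have hz : ∀ x : {x : 𝓞 K // Ideal.span {x} = I}, fs K s x.1 = 0 := by
        rintro ⟨x, hx⟩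
        have : x = 0 := by
          rw [hI0, Ideal.span_singleton_eq_bot] at hx; exact hx
        subst this
        exact fs_zero K hs
      rw [hI0]
      simp only [Ideal.absNorm_bot, Nat.cast_zero, Real.zero_rpow (neg_ne_zero.mpr hs), mul_zero]
      rw [hI0] at hz
      rw [show (fun x : {x : 𝓞 K // Ideal.span {x} = (⊥ : Ideal (𝓞 K))} => fs K s x.1) =
        fun _ => 0 from funext hz]
      exact hasSum_zero
    · have h := hasSum_fs_unit K s hy0
      have hbij : Function.Bijective (fun u : (𝓞 K)ˣ =>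
          (⟨u * y, by rw [hy]; exact Ideal.span_singleton_mul_left_unit u.isUnit y⟩ :
            {x : 𝓞 K // Ideal.span {x} = I})) := by
        constructor
        · intro u v huv
          have h1 := congrArg Subtype.val huv
          exact Units.ext (mul_right_cancel₀ hy0 h1)
        · rintro ⟨x, hx⟩
          rw [hy, Ideal.span_singleton_eq_span_singleton] at hx
          obtain ⟨u, hu⟩ := hx.symm
          exact ⟨u, Subtype.ext ((mul_comm _ _).trans hu)⟩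
      rw [← (Equiv.ofBijective _ hbij).hasSum_iff]
      have e : (Ideal.absNorm I : ℝ) = Ideal.absNorm (Ideal.span {y}) := by rw [hy]
      rw [e]
      exact h
  · rw [if_neg hI]
    have : IsEmpty {x : 𝓞 K // Ideal.span {x} = I} := by
      refine ⟨?_⟩
      rintro ⟨x, hx⟩
      exact hI ⟨x, by rw [Ideal.submodule_span_eq, hx]⟩
    exact hasSum_empty

/-- Sum over elements as a sum over principal ideals. -/
theorem hasSum_principal {F : Ideal (𝓞 K) → ℂ} (hF : ∀ I, ‖F I‖ ≤ 1) {s : ℝ} (hs : 1 < s)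
    (hs2 : s ≤ 2) :
    HasSum (fun I : Ideal (𝓞 K) => F I *
      ((if I.IsPrincipal then (torsionOrder K * (Ideal.absNorm I : ℝ) ^ (-s)) else 0 : ℝ) : ℂ))
      (∑' x : 𝓞 K, F (Ideal.span {x}) * (fs K s x : ℂ)) := by
  have h1 := (summable_F_mul_fs K hF hs hs2).hasSum
  rw [← (Equiv.sigmaFiberEquiv (fun x : 𝓞 K => Ideal.span {x})).hasSum_iff] at h1
  refine h1.sigma fun I => ?_
  have h2 := (Complex.hasSum_ofReal.mpr (hasSum_fiber K (by linarith : s ≠ 0) I)).mul_left (F I)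
  refine h2.congr_fun ?_
  rintro ⟨x, hx⟩
  simp only [Function.comp_apply, Equiv.sigmaFiberEquiv, Equiv.coe_fn_mk]
  rw [hx]

/-- the norm function -/
noncomputable def nrm (s : ℝ) (I : Ideal (𝓞 K)) : ℝ := (Ideal.absNorm I : ℝ) ^ (-s)

theorem nrm_nonneg (s : ℝ) (I : Ideal (𝓞 K)) : 0 ≤ nrm K s I := by unfold nrm; positivity

theorem nrm_bot {s : ℝ} (hs : s ≠ 0) : nrm K s ⊥ = 0 := by
  simp [nrm, Real.zero_rpow (neg_ne_zero.mpr hs)]

theorem nrm_mul (s : ℝ) (I J : Ideal (𝓞 K)) : nrm K s (I * J) = nrm K s I * nrm K s J := by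
  simp only [nrm, map_mul, Nat.cast_mul]
  exact Real.mul_rpow (Nat.cast_nonneg _) (Nat.cast_nonneg _)

theorem nrm_pos {s : ℝ} {I : Ideal (𝓞 K)} (hI : I ≠ ⊥) : 0 < nrm K s I := by
  have : (0 : ℝ) < Ideal.absNorm I := by
    exact_mod_cast Nat.pos_of_ne_zero (Ideal.absNorm_eq_zero_iff.not.mpr hI)
  exact Real.rpow_pos_of_pos this _

/-- Sum over the ideals `𝔞` such that `𝔞𝔟` is principal. -/
theorem hasSum_class {𝔟 : Ideal (𝓞 K)} (h𝔟 : 𝔟 ≠ ⊥) {F : Ideal (𝓞 K) → ℂ} (hF : ∀ I, ‖F I‖ ≤ 1)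
    (hF' : ∀ I, ¬ 𝔟 ∣ I → F I = 0) {s : ℝ} (hs : 1 < s) (hs2 : s ≤ 2) :
    HasSum (fun 𝔞 : Ideal (𝓞 K) => if (𝔞 * 𝔟).IsPrincipal then F (𝔞 * 𝔟) * (nrm K s 𝔞 : ℂ) else 0)
      (((torsionOrder K * nrm K s 𝔟 : ℝ) : ℂ)⁻¹ * ∑' x : 𝓞 K, F (Ideal.span {x}) * (fs K s x : ℂ)) := by
  have h1 := hasSum_principal K hF hs hs2
  have inj : Function.Injective (fun 𝔞 : Ideal (𝓞 K) => 𝔞 * 𝔟) := fun a b hab =>
    mul_right_cancel₀ h𝔟 hab
  rw [← inj.hasSum_iff] at h1
  swap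
  · intro I hI
    rw [hF' I, zero_mul]
    rintro ⟨c, rfl⟩
    exact hI ⟨c, mul_comm _ _⟩
  have hw : (0 : ℝ) < torsionOrder K := by exact_mod_cast torsionOrder_pos K
  have hc : (torsionOrder K * nrm K s 𝔟 : ℝ) ≠ 0 := (mul_pos hw (nrm_pos K h𝔟)).ne'
  have h2 := h1.mul_left (((torsionOrder K * nrm K s 𝔟 : ℝ) : ℂ)⁻¹)
  refine h2.congr_fun ?_
  intro 𝔞
  simp only [Function.comp_apply]
  split_ifs with hp
  · have e : (torsionOrder K * (Ideal.absNorm (𝔞 * 𝔟) : ℝ) ^ (-s)) =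
        (torsionOrder K * nrm K s 𝔟) * nrm K s 𝔞 := by
      change torsionOrder K * nrm K s (𝔞 * 𝔟) = _
      rw [nrm_mul]; ring
    rw [e]
    push_cast
    have hw' : ((torsionOrder K : ℕ) : ℂ) ≠ 0 := by exact_mod_cast (torsionOrder_pos K).ne'
    have hn' : ((nrm K s 𝔟 : ℝ) : ℂ) ≠ 0 := Complex.ofReal_ne_zero.mpr (nrm_pos K h𝔟).ne'
    field_simp
  · simp

end Fermat.Agent.H03
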