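import Fermat.Agent.H03.Coset

/-!
# Summation over units, and over ideals
-/

set_option autoImplicit false
set_option maxHeartbeats 400000

open scoped Classical

namespace Fermat.Agent.H03

open NumberField NumberField.mixedEmbedding NumberField.Units
  NumberField.Units.dirichletUnitTheorem NumberField.InfinitePlace Module

theorem hasSum_prod_of_finite {T β : Type*} [Finite T] {g : β → ℝ} {a : ℝ} (hg : HasSum g a)
    (h0 : ∀ b, 0 ≤ g b) : HasSum (fun p : T × β => g p.2) (Nat.card T * a) := by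
  haveI := Fintype.ofFinite T
  have h4 : HasSum (fun _ : T => (1 : ℝ)) (Nat.card T) := by
    have := hasSum_fintype (fun _ : T => (1 : ℝ))
    simpa [Nat.card_eq_fintype_card] using this
  have h5 : HasSum (fun p : T × β => (1 : ℝ) * g p.2) (Nat.card T * a) :=
    h4.mul hg (h4.summable.mul_of_nonneg hg.summable (fun _ => zero_le_one) h0)
  simpa using h5

variable (K : Type*) [Field K] [NumberField K]

/-- units as torsion times powers of the fundamental units -/
noncomputable def unitEquiv : torsion K × (Fin (rank K) → ℤ) ≃ (𝓞 K)ˣ :=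
  Equiv.ofBijective (fun ζe => (ζe.1 : (𝓞 K)ˣ) * ∏ i, (fundSystem K i) ^ (ζe.2 i)) (by
    rw [Function.bijective_iff_existsUnique]
    intro x
    obtain ⟨ζe, h1, h2⟩ := exist_unique_eq_mul_prod K x
    exact ⟨ζe, h1.symm, fun y hy => h2 y hy.symm⟩)

theorem coordY_unit_smul (p : torsion K × (Fin (rank K) → ℤ)) {x : mixedSpace K}
    (hx : mixedEmbedding.norm x ≠ 0) (i : Fin (rank K)) :
    coordY K (unitEquiv K p • x) i = coordY K x i + p.2 i := by
  rw [coordY, logMap_unit_smul _ hx, map_add, Finsupp.add_apply, add_comm]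
  congr 1
  change (logBasis K).repr (logEmbedding K (Additive.ofMul
    ((p.1 : (𝓞 K)ˣ) * ∏ i, (fundSystem K i) ^ (p.2 i)))) i = _
  have h1 : logEmbedding K (Additive.ofMul
      ((p.1 : (𝓞 K)ˣ) * ∏ i, (fundSystem K i) ^ (p.2 i))) = ∑ i, (p.2 i : ℝ) • logBasis K i := by
    rw [ofMul_mul, map_add, ofMul_prod, map_sum]
    have h2 : logEmbedding K (Additive.ofMul (p.1 : (𝓞 K)ˣ)) = 0 :=
      logEmbedding_eq_zero_iff.mpr p.1.2
    rw [h2, zero_add]
    refine Finset.sum_congr rfl fun j _ => ?_
    rw [ofMul_zpow, map_zsmul, logBasis_apply]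
    ext w
    simp
  rw [h1, Basis.repr_sum_self]

theorem hasSum_Phi_unit {x : mixedSpace K} (hx : mixedEmbedding.norm x ≠ 0) :
    HasSum (fun u : (𝓞 K)ˣ => Phi K (u • x)) (torsionOrder K) := by
  rw [← (unitEquiv K).hasSum_iff]
  have h1 : ∀ p : torsion K × (Fin (rank K) → ℤ),
      ((fun u : (𝓞 K)ˣ => Phi K (u • x)) ∘ unitEquiv K) p =
        tentProd (fun i => coordY K x i + p.2 i) := by
    intro p
    simp only [Function.comp_apply, Phi]
    congr 1
    funext i
    exact coordY_unit_smul K p hx i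
  rw [show ((fun u : (𝓞 K)ˣ => Phi K (u • x)) ∘ unitEquiv K) =
    fun p => tentProd (fun i => coordY K x i + p.2 i) from funext h1]
  have h2 := hasSum_tentProd (rank K) (coordY K x)
  have h3 := hasSum_prod_of_finite (T := torsion K) h2 (fun _ => tentProd_nonneg _)
  rw [mul_one] at h3
  exact h3

theorem hasSum_fs_unit (s : ℝ) {x : 𝓞 K} (hx : x ≠ 0) :
    HasSum (fun u : (𝓞 K)ˣ => fs K s (u * x))
      (torsionOrder K * (Ideal.absNorm (Ideal.span {x}) : ℝ) ^ (-s)) := by
  have hx' : mixedEmbedding.norm (mixedEmbedding K (x : K)) ≠ 0 := by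
    rw [norm_int]
    have := one_le_norm_int K hx
    linarith
  have h := (hasSum_Phi_unit K hx').mul_right ((Ideal.absNorm (Ideal.span {x}) : ℝ) ^ (-s))
  refine h.congr_fun ?_
  intro u
  rw [fs_eq, Ideal.span_singleton_mul_left_unit u.isUnit]
  congr 2
  rw [unitSMul_smul]
  simp

end Fermat.Agent.H03
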